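/-
S44lib / M / Cong  (helper7)  — Project LSq, block Q2b = (M′): congruences in a Gauss valuation ring.

For a Gauss datum `V` (valuation ring `V.O ⊂ F`, reduction `V.redF`) and a constant `ε ∈ L`:

* `Small V ε x`   : `x ∈ ε · V.O`   (`|x|_V ≤ |ε|`);
* `OneMod V ε u`  : `u ∈ 1 + ε · V.O`;  for `|ε| < 1` these form a subgroup of the units of `V.O`.
-/
import Mathlib
import Fermat.Agent.S18lib.Weak.Lemmas

set_option autoImplicit false
set_option linter.unusedSectionVars false

noncomputable section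

namespace Fermat.Agent.S44lib.M

open Fermat.Agent.S18lib

variable {L : Type*} [Field L] {A : ValuationSubring L}
variable {F : Type*} [Field F] [Algebra L F]
variable {Fk : Type*} [Field Fk] [Algebra (IsLocalRing.ResidueField A) Fk]

/-! ### generalities on the valuation of `A` -/

theorem exists_eq_mul_of_val_le {a ε : L} (h : A.valuation a ≤ A.valuation ε) :
    ∃ b ∈ A, a = ε * b := by
  by_cases hε : ε = 0
  · subst hε
    rw [map_zero, le_zero_iff, map_eq_zero] at h
    exact ⟨0, A.zero_mem, by rw [h, mul_zero]⟩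
  · refine ⟨a / ε, ?_, by field_simp⟩
    rw [← A.valuation_le_one_iff, map_div₀]
    exact div_le_one_of_le₀ h zero_le

theorem val_lt_one_of_lt {a ε : L} (hε : ε ≠ 0) (h : A.valuation a < A.valuation ε) :
    A.valuation (a / ε) < 1 := by
  rw [map_div₀]
  exact (div_lt_one₀ (lt_of_le_of_ne zero_le ((Valuation.ne_zero_iff _).2 hε).symm)).2 h

theorem residue_eq_zero_of_val_lt_one {a : A} (h : A.valuation (a : L) < 1) :
    IsLocalRing.residue A a = 0 := by
  rw [IsLocalRing.residue_eq_zero_iff]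
  exact (A.valuation_lt_one_iff a).2 h

/-! ### small elements -/

/-- `x ∈ ε · V.O` -/
def Small (V : GaussDatum A F Fk) (ε : L) (x : F) : Prop :=
  ∃ w ∈ V.O, x = algebraMap L F ε * w

namespace Small

variable {V : GaussDatum A F Fk} {ε : L} {x y : F}

theorem zero : Small V ε (0 : F) := ⟨0, V.O.zero_mem, by rw [mul_zero]⟩

theorem add (hx : Small V ε x) (hy : Small V ε y) : Small V ε (x + y) := by
  obtain ⟨w, hw, rfl⟩ := hx
  obtain ⟨w', hw', rfl⟩ := hy
  exact ⟨w + w', V.O.add_mem _ _ hw hw', by ring⟩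

theorem neg (hx : Small V ε x) : Small V ε (-x) := by
  obtain ⟨w, hw, rfl⟩ := hx
  exact ⟨-w, V.O.neg_mem _ hw, by ring⟩

theorem sub (hx : Small V ε x) (hy : Small V ε y) : Small V ε (x - y) := by
  rw [sub_eq_add_neg]
  exact hx.add hy.neg

theorem mul_right (hx : Small V ε x) (hy : y ∈ V.O) : Small V ε (x * y) := by
  obtain ⟨w, hw, rfl⟩ := hx
  exact ⟨w * y, V.O.mul_mem _ _ hw hy, by ring⟩

theorem mul_left (hx : Small V ε x) (hy : y ∈ V.O) : Small V ε (y * x) := by
  rw [mul_comm]
  exact hx.mul_right hy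

theorem sum {ι : Type*} (s : Finset ι) (f : ι → F) (h : ∀ i ∈ s, Small V ε (f i)) :
    Small V ε (∑ i ∈ s, f i) := by
  classical
  induction s using Finset.induction_on with
  | empty => rw [Finset.sum_empty]; exact zero
  | insert i s hi ih =>
    rw [Finset.sum_insert hi]
    exact (h i (Finset.mem_insert_self i s)).add (ih fun j hj => h j (Finset.mem_insert_of_mem hj))

/-- a constant of absolute value `≤ |ε|` is small -/
theorem const {a : L} (h : A.valuation a ≤ A.valuation ε) : Small V ε (algebraMap L F a) := by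
  obtain ⟨b, hb, rfl⟩ := exists_eq_mul_of_val_le h
  exact ⟨algebraMap L F b, V.algebraMap_mem ⟨b, hb⟩, by rw [map_mul]⟩

theorem mem (hε : ε ∈ A) (hx : Small V ε x) : x ∈ V.O := by
  obtain ⟨w, hw, rfl⟩ := hx
  exact V.smul_mem ⟨ε, hε⟩ hw

/-- a small element (`|ε| < 1`) reduces to zero -/
theorem redF_eq_zero (hε : A.valuation ε < 1) (hx : Small V ε x) : V.redF x = 0 := by
  obtain ⟨w, hw, rfl⟩ := hx
  have hεA : ε ∈ A := (A.valuation_le_one_iff _).1 hε.le
  have := V.redF_smul ⟨ε, hεA⟩ hw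
  rw [this, residue_eq_zero_of_val_lt_one (a := ⟨ε, hεA⟩) hε, zero_smul]

theorem mono {ε' : L} (h : A.valuation ε ≤ A.valuation ε') (hx : Small V ε x) : Small V ε' x := by
  obtain ⟨w, hw, rfl⟩ := hx
  obtain ⟨b, hb, rfl⟩ := exists_eq_mul_of_val_le h
  exact ⟨algebraMap L F b * w, V.smul_mem ⟨b, hb⟩ hw, by rw [map_mul]; ring⟩

/-- multiplication by a constant -/
theorem const_mul {a : L} (hx : Small V ε x) : Small V (a * ε) (algebraMap L F a * x) := by
  obtain ⟨w, hw, rfl⟩ := hx
  exact ⟨w, hw, by rw [map_mul]; ring⟩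

end Small

/-- an element of `V.O` which is not small is a unit times a constant `d`, `|ε| < |d|` -/
theorem exists_const_of_not_small {V : GaussDatum A F Fk} {ε : L} {x : F} (hx : ¬ Small V ε x) :
    ∃ d : L, d ≠ 0 ∧ A.valuation ε < A.valuation d ∧ (algebraMap L F d)⁻¹ * x ∈ V.O ∧
      V.redF ((algebraMap L F d)⁻¹ * x) ≠ 0 := by
  have hx0 : x ≠ 0 := fun h => hx (h ▸ Small.zero)
  obtain ⟨b, hb, hr⟩ := V.exists_const_mul_redF_ne_zero hx0
  refine ⟨b⁻¹, inv_ne_zero hb, ?_, ?_, ?_⟩
  · by_contra hle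
    rw [not_lt] at hle
    apply hx
    have h1 : Small V b⁻¹ x :=
      ⟨algebraMap L F b * x, V.mem_of_redF_ne_zero hr, by
        rw [map_inv₀, ← mul_assoc, inv_mul_cancel₀ ((map_ne_zero _).2 hb), one_mul]⟩
    exact h1.mono hle
  · rw [map_inv₀, inv_inv]; exact V.mem_of_redF_ne_zero hr
  · rw [map_inv₀, inv_inv]; exact hr

/-! ### congruence to one -/

/-- `u ∈ 1 + ε · V.O` -/
def OneMod (V : GaussDatum A F Fk) (ε : L) (u : F) : Prop := Small V ε (u - 1)

namespace OneMod

variable {V : GaussDatum A F Fk} {ε : L} {u u' : F}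

theorem one : OneMod V ε (1 : F) := by
  unfold OneMod
  rw [sub_self]
  exact Small.zero

theorem mem (hε : ε ∈ A) (hu : OneMod V ε u) : u ∈ V.O := by
  have := V.O.add_mem _ _ (Small.mem hε hu) V.O.one_mem
  rwa [sub_add_cancel] at this

theorem redF (hε : A.valuation ε < 1) (hu : OneMod V ε u) : V.redF u = 1 := by
  have hεA : ε ∈ A := (A.valuation_le_one_iff _).1 hε.le
  have h1 := V.redF_add (Small.mem hεA hu) V.O.one_mem
  rw [sub_add_cancel, Small.redF_eq_zero hε hu, zero_add, V.redF_one] at h1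
  exact h1

theorem mul (hε : ε ∈ A) (hu : OneMod V ε u) (hu' : OneMod V ε u') : OneMod V ε (u * u') := by
  unfold OneMod
  have : u * u' - 1 = (u - 1) * u' + (u' - 1) := by ring
  rw [this]
  exact (Small.mul_right hu (hu'.mem hε)).add hu'

theorem inv_mem (hε : A.valuation ε < 1) (hu : OneMod V ε u) : u⁻¹ ∈ V.O :=
  V.inv_mem_of_redF_ne_zero (by rw [hu.redF hε]; exact one_ne_zero)

theorem ne_zero (hε : A.valuation ε < 1) (hu : OneMod V ε u) : u ≠ 0 := by
  rintro rfl
  have := hu.redF hε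
  rw [V.redF_zero] at this
  exact zero_ne_one this

theorem inv (hε : A.valuation ε < 1) (hu : OneMod V ε u) : OneMod V ε u⁻¹ := by
  unfold OneMod
  have h0 := hu.ne_zero hε
  have : u⁻¹ - 1 = -(u - 1) * u⁻¹ := by field_simp; ring
  rw [this]
  exact Small.mul_right (Small.neg hu) (hu.inv_mem hε)

theorem div (hε : A.valuation ε < 1) (hu : OneMod V ε u) (hu' : OneMod V ε u') :
    OneMod V ε (u / u') := by
  rw [div_eq_mul_inv]
  exact hu.mul ((A.valuation_le_one_iff _).1 hε.le) (hu'.inv hε)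

theorem mono {ε' : L} (h : A.valuation ε ≤ A.valuation ε') (hu : OneMod V ε u) : OneMod V ε' u :=
  Small.mono h hu

theorem prod (hε : ε ∈ A) {ι : Type*} (s : Finset ι) (f : ι → F) (h : ∀ i ∈ s, OneMod V ε (f i)) :
    OneMod V ε (∏ i ∈ s, f i) := by
  classical
  induction s using Finset.induction_on with
  | empty => rw [Finset.prod_empty]; exact one
  | insert i s hi ih =>
    rw [Finset.prod_insert hi]
    exact (h i (Finset.mem_insert_self i s)).mul hε
      (ih fun j hj => h j (Finset.mem_insert_of_mem hj))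

/-- a constant congruent to one -/
theorem const {a : L} (h : A.valuation (a - 1) ≤ A.valuation ε) : OneMod V ε (algebraMap L F a) := by
  unfold OneMod
  have : algebraMap L F a - 1 = algebraMap L F (a - 1) := by rw [map_sub, map_one]
  rw [this]
  exact Small.const h

end OneMod

end Fermat.Agent.S44lib.M

end
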