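/-
S44lib / M / Poly  (helper7)  — Project LSq, block Q2b = (M′): Weierstrass polynomials.

* `IsW A p` : `p ∈ L[X]` is monic with all lower coefficients in `𝔪_A` (closed under products);
* for `T ∈ V.O` with `red T ≠ 0` and `p` such: `p(T)` is a unit of `V.O`, `red p(T) = (red T)^deg`;
* `IsW.oneMod_div` : if `q` is coefficientwise congruent to `p` modulo `ε` then
  `q(T) / p(T) ∈ 1 + ε V.O`;
* `smul_aeval` : `σ • q(T) = (σ̂ q)(σ • T)` for a semilinear automorphism.
-/
import Fermat.Agent.S44lib.M.Cong
import Fermat.Prelude.Def_AlgebraicCurve_BaseChangeGalois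

set_option autoImplicit false
set_option linter.unusedSectionVars false

noncomputable section

namespace Fermat.Agent.S44lib.M

open Fermat.Agent.S18lib AlgebraicCurve Polynomial

variable {L : Type*} [Field L] {A : ValuationSubring L}
variable {F : Type*} [Field F] [Algebra L F]
variable {Fk : Type*} [Field Fk] [Algebra (IsLocalRing.ResidueField A) Fk]

theorem val_mul_lt_one {a b : L} (ha : A.valuation a < 1) (hb : A.valuation b ≤ 1) :
    A.valuation (a * b) < 1 := by
  rw [map_mul]
  calc A.valuation a * A.valuation b ≤ A.valuation a * 1 := by gcongr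
    _ = A.valuation a := mul_one _
    _ < 1 := ha

/-- monic, with all lower coefficients in the maximal ideal -/
def IsW (A : ValuationSubring L) (p : L[X]) : Prop :=
  p.Monic ∧ ∀ j < p.natDegree, A.valuation (p.coeff j) < 1

namespace IsW

variable {p q : L[X]}

theorem one : IsW A (1 : L[X]) :=
  ⟨monic_one, fun j hj => by rw [natDegree_one] at hj; exact absurd hj (Nat.not_lt_zero j)⟩

theorem X_sub_C {u : L} (hu : A.valuation u < 1) : IsW A (X - C u) := by
  refine ⟨monic_X_sub_C u, fun j hj => ?_⟩
  rw [natDegree_X_sub_C] at hj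
  obtain rfl : j = 0 := by omega
  rw [coeff_sub, coeff_X_zero, coeff_C_zero, zero_sub, Valuation.map_neg]
  exact hu

theorem coeff_le_one (hp : IsW A p) (j : ℕ) : A.valuation (p.coeff j) ≤ 1 := by
  rcases lt_trichotomy j p.natDegree with h | h | h
  · exact (hp.2 j h).le
  · rw [h, hp.1.coeff_natDegree, map_one]
  · rw [coeff_eq_zero_of_natDegree_lt h, map_zero]; exact zero_le_one

theorem mul (hp : IsW A p) (hq : IsW A q) : IsW A (p * q) := by
  refine ⟨hp.1.mul hq.1, fun j hj => ?_⟩
  rw [hp.1.natDegree_mul hq.1] at hj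
  rw [coeff_mul]
  refine Valuation.map_sum_lt _ one_ne_zero fun x hx => ?_
  rw [Finset.HasAntidiagonal.mem_antidiagonal] at hx
  by_cases h1 : x.1 < p.natDegree
  · exact val_mul_lt_one (hp.2 _ h1) (hq.coeff_le_one _)
  · have h2 : x.2 < q.natDegree := by omega
    rw [mul_comm]
    exact val_mul_lt_one (hq.2 _ h2) (hp.coeff_le_one _)

theorem pow (hp : IsW A p) (n : ℕ) : IsW A (p ^ n) := by
  induction n with
  | zero => rw [pow_zero]; exact one
  | succ n ih => rw [pow_succ]; exact ih.mul hp

theorem prod {ι : Type*} (s : Finset ι) (f : ι → L[X]) (h : ∀ i ∈ s, IsW A (f i)) :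
    IsW A (∏ i ∈ s, f i) := by
  classical
  induction s using Finset.induction_on with
  | empty => rw [Finset.prod_empty]; exact one
  | insert i s hi ih =>
    rw [Finset.prod_insert hi]
    exact (h i (Finset.mem_insert_self i s)).mul
      (ih fun j hj => h j (Finset.mem_insert_of_mem hj))

end IsW

/-! ### evaluation in a Gauss valuation ring -/

variable {V : GaussDatum A F Fk} {T : F}

/-- a polynomial with small coefficients takes small values on `V.O` -/
theorem small_aeval {ε : L} (hT : T ∈ V.O) (q : L[X])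
    (hq : ∀ j, A.valuation (q.coeff j) ≤ A.valuation ε) : Small V ε (aeval T q) := by
  rw [aeval_eq_sum_range]
  refine Small.sum _ _ fun i _ => ?_
  rw [Algebra.smul_def]
  exact (Small.const (hq i)).mul_right (V.O.pow_mem hT i)

namespace IsW

variable {p : L[X]}

theorem aeval_mem (hp : IsW A p) (hT : T ∈ V.O) : aeval T p ∈ V.O := by
  have h : Small V (1 : L) (aeval T p) := small_aeval hT p fun j => by
    rw [map_one]; exact hp.coeff_le_one j
  exact h.mem A.one_mem

theorem redF_aeval (hp : IsW A p) (hT : T ∈ V.O) :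
    V.redF (aeval T p) = V.redF T ^ p.natDegree := by
  have h1 : aeval T p = T ^ p.natDegree
      + ∑ i ∈ Finset.range p.natDegree, algebraMap L F (p.coeff i) * T ^ i := by
    conv_lhs => rw [hp.1.as_sum]
    rw [map_add, map_pow, aeval_X, map_sum]
    congr 1
    refine Finset.sum_congr rfl fun i _ => ?_
    rw [map_mul, aeval_C, map_pow, aeval_X]
  have hmem : ∀ i ∈ Finset.range p.natDegree, algebraMap L F (p.coeff i) * T ^ i ∈ V.O :=
    fun i _ => V.smul_mem ⟨p.coeff i, (A.valuation_le_one_iff _).1 (hp.coeff_le_one i)⟩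
      (V.O.pow_mem hT i)
  rw [h1, V.redF_add (V.O.pow_mem hT _) (V.O.sum_mem hmem), V.redF_pow hT, V.redF_sum _ _ hmem,
    Finset.sum_eq_zero, add_zero]
  intro i hi
  have hlt := hp.2 i (Finset.mem_range.1 hi)
  have hA : p.coeff i ∈ A := (A.valuation_le_one_iff _).1 hlt.le
  have := V.redF_smul ⟨p.coeff i, hA⟩ (V.O.pow_mem hT i)
  rw [this, residue_eq_zero_of_val_lt_one (a := ⟨p.coeff i, hA⟩) hlt, zero_smul]

theorem redF_aeval_ne_zero (hp : IsW A p) (hT : T ∈ V.O) (hT' : V.redF T ≠ 0) :
    V.redF (aeval T p) ≠ 0 := by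
  rw [hp.redF_aeval hT]
  exact pow_ne_zero _ hT'

theorem aeval_ne_zero (hp : IsW A p) (hT : T ∈ V.O) (hT' : V.redF T ≠ 0) : aeval T p ≠ 0 := by
  intro h
  have := hp.redF_aeval_ne_zero hT hT'
  rw [h, V.redF_zero] at this
  exact this rfl

/-- **coefficientwise congruent polynomials have congruent values** -/
theorem oneMod_div (hp : IsW A p) (hT : T ∈ V.O) (hT' : V.redF T ≠ 0) {ε : L} (q : L[X])
    (hq : ∀ j, A.valuation (q.coeff j - p.coeff j) ≤ A.valuation ε) :
    OneMod V ε (aeval T q / aeval T p) := by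
  unfold OneMod
  have h0 := hp.aeval_ne_zero hT hT'
  have h1 : aeval T q / aeval T p - 1 = aeval T (q - p) * (aeval T p)⁻¹ := by
    rw [map_sub]; field_simp
  rw [h1]
  refine Small.mul_right (small_aeval hT _ fun j => ?_)
    (V.inv_mem_of_redF_ne_zero (hp.redF_aeval_ne_zero hT hT'))
  rw [coeff_sub]
  exact hq j

end IsW

/-! ### semilinear automorphisms -/

theorem smul_aeval (σ : SemilinearAut L F) (T : F) (q : L[X]) :
    σ • aeval T q = aeval (σ • T) (q.map (SemilinearAut.baseAut σ : L →+* L)) := by
  induction q using Polynomial.induction_on' with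
  | add p q hp hq => rw [map_add, smul_add, hp, hq, Polynomial.map_add, map_add]
  | monomial n a =>
    rw [aeval_monomial, map_monomial, aeval_monomial, smul_mul', smul_pow',
      SemilinearAut.smul_algebraMap]
    rfl

end Fermat.Agent.S44lib.M

end
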