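/-
S44lib / M / Loc  (helper7)  — Project LSq, block Q2b = (M′): regions with a coordinate.

A `Region V` is a set of places of degree one (a residue disc of a smooth point, or the annulus of a
node seen from one of the two components) with a COORDINATE `T ∈ V.Oˣ` : `T` is regular on the region
with values in `𝔪_A`, `T - T(P)` has a simple zero at `P` and no other zero in the region.

For a divisor `E` :
* `R.fn E   = ∏_{P ∈ region} (T - T(P)) ^ {E P} ∈ F`     (the local factor of `E`),
* `R.poly E = ∏_{P ∈ region} (X - T(P)) ^ {E P} ∈ L[X]`   (`E ≥ 0`), a Weierstrass polynomial,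
with `ord_P (R.fn E) = E P` on the region, `R.fn E = (R.poly E)(T)` for `E ≥ 0`, and equivariance under
the semilinear automorphisms preserving the region and the coordinate.
-/
import Fermat.Agent.S44lib.M.Poly
import Fermat.Agent.S19lib.Geom.Setup

set_option autoImplicit false
set_option linter.unusedSectionVars false

noncomputable section

namespace Fermat.Agent.S44lib.M

open Fermat.Agent.S18lib AlgebraicCurve Polynomial Fermat.Agent.S19lib.C Fermat.Agent.LSb
open Fermat.Agent.S19lib.Geom (ev_smul_smul)

variable {L : Type*} [Field L] {A : ValuationSubring L}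
variable {F : Type*} [Field F] [Algebra L F]
variable {Fk : Type*} [Field Fk] [Algebra (IsLocalRing.ResidueField A) Fk]

/-! ### orders of products -/

theorem ord_finset_prod (P : Place L F) {ι : Type*} (s : Finset ι) (f : ι → F)
    (h : ∀ i ∈ s, f i ≠ 0) : P.ord (∏ i ∈ s, f i) = ∑ i ∈ s, P.ord (f i) := by
  classical
  induction s using Finset.induction_on with
  | empty => rw [Finset.prod_empty, Finset.sum_empty, Place.ord_one]
  | insert i s hi ih =>
    have h1 : f i ≠ 0 := h i (Finset.mem_insert_self i s)
    have h2 : ∀ j ∈ s, f j ≠ 0 := fun j hj => h j (Finset.mem_insert_of_mem hj)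
    rw [Finset.prod_insert hi, Finset.sum_insert hi,
      P.ord_mul h1 (Finset.prod_ne_zero_iff.2 h2), ih h2]

/-- a regular function with a value different from `a` : `f - a` is a unit at `P` -/
theorem ord_sub_const_eq_zero {P : Place L F} (hP : P.deg = 1) {f : F} (hf : RegAt P f) {a : L}
    (ha : ev P f ≠ a) : P.ord (f - algebraMap L F a) = 0 := by
  have hreg : RegAt P (f - algebraMap L F a) := hf.sub (regAt_const a)
  have hev : ev P (f - algebraMap L F a) ≠ 0 := by
    rw [ev_sub hP hf (regAt_const a), ev_const]
    exact sub_ne_zero.2 ha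
  have h1 := regAt_iff_ord.1 hreg
  by_contra h0
  have hpos : 0 < P.ord (f - algebraMap L F a) := lt_of_le_of_ne h1 (Ne.symm h0)
  exact hev ((ev_eq_zero_iff hP hreg).2 (Or.inr hpos))

/-! ### regions -/

/-- a region with a coordinate -/
structure Region (V : GaussDatum A F Fk) where
  /-- the places of the region -/
  mem : Place L F → Prop
  /-- the coordinate -/
  T : F
  T_mem : T ∈ V.O
  T_red : V.redF T ≠ 0
  deg : ∀ P, mem P → P.deg = 1
  reg : ∀ P, mem P → RegAt P T
  lt_one : ∀ P, mem P → A.valuation (ev P T) < 1
  ord_self : ∀ P, mem P → P.ord (T - algebraMap L F (ev P T)) = 1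
  ord_ne : ∀ P P', mem P → mem P' → P ≠ P' → P'.ord (T - algebraMap L F (ev P T)) = 0

namespace Region

variable {V : GaussDatum A F Fk} (R : Region V)

/-- the semilinear automorphism preserves the region and its coordinate -/
structure Sym (σ : SemilinearAut L F) : Prop where
  T_fix : σ • R.T = R.T
  mem_smul : ∀ P, R.mem (σ • P) ↔ R.mem P

theorem factor_ne_zero {P : Place L F} (hP : R.mem P) : R.T - algebraMap L F (ev P R.T) ≠ 0 := by
  intro h
  have := R.ord_self P hP
  rw [h, Place.ord_zero] at this
  exact zero_ne_one this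

open Classical in
/-- the local factor of a divisor -/
def fn (E : Divisor L F) : F :=
  E.prod fun P n => if R.mem P then (R.T - algebraMap L F (ev P R.T)) ^ n else 1

open Classical in
/-- the Weierstrass polynomial of an effective divisor -/
def poly (E : Divisor L F) : L[X] :=
  E.prod fun P n => if R.mem P then (X - C (ev P R.T)) ^ n.toNat else 1

theorem fn_zero : R.fn 0 = 1 := by
  unfold fn
  rw [Finsupp.prod_zero_index]

theorem fn_add (E E' : Divisor L F) : R.fn (E + E') = R.fn E * R.fn E' := by
  classical
  unfold fn
  refine Finsupp.prod_add_index (fun P _ => ?_) (fun P _ n n' => ?_)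
  · split_ifs
    · rw [zpow_zero]
    · rfl
  · split_ifs with h
    · rw [zpow_add₀ (R.factor_ne_zero h)]
    · rw [one_mul]

theorem fn_ne_zero (E : Divisor L F) : R.fn E ≠ 0 := by
  classical
  unfold fn
  rw [Finsupp.prod, Finset.prod_ne_zero_iff]
  intro P _
  split_ifs with h
  · exact zpow_ne_zero _ (R.factor_ne_zero h)
  · exact one_ne_zero

theorem fn_neg (E : Divisor L F) : R.fn (-E) = (R.fn E)⁻¹ := by
  have h := R.fn_add E (-E)
  rw [add_neg_cancel, fn_zero] at h
  exact eq_inv_of_mul_eq_one_right h.symm

theorem fn_sub (E E' : Divisor L F) : R.fn (E - E') = R.fn E / R.fn E' := by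
  rw [sub_eq_add_neg, fn_add, fn_neg, div_eq_mul_inv]

/-- the order of the local factor on the region -/
theorem ord_fn (E : Divisor L F) {P : Place L F} (hP : R.mem P) : P.ord (R.fn E) = E P := by
  classical
  unfold fn
  rw [Finsupp.prod, ord_finset_prod]
  · rw [Finset.sum_eq_single P]
    · rw [if_pos hP, Place.ord_zpow, R.ord_self P hP, mul_one]
    · intro P' _ hne
      split_ifs with h
      · rw [Place.ord_zpow, R.ord_ne P' P h hP hne, mul_zero]
      · exact Place.ord_one _
    · intro h
      rw [Finsupp.notMem_support_iff.1 h, if_pos hP, zpow_zero, Place.ord_one]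
  · intro P' _
    split_ifs with h
    · exact zpow_ne_zero _ (R.factor_ne_zero h)
    · exact one_ne_zero

theorem poly_isW (E : Divisor L F) : IsW A (R.poly E) := by
  classical
  unfold poly
  rw [Finsupp.prod]
  refine IsW.prod _ _ fun P _ => ?_
  split_ifs with h
  · exact (IsW.X_sub_C (R.lt_one P h)).pow _
  · exact IsW.one

theorem natDegree_poly (E : Divisor L F) [DecidablePred R.mem] :
    (R.poly E).natDegree = ∑ P ∈ E.support, if R.mem P then (E P).toNat else 0 := by
  classical
  unfold poly
  rw [Finsupp.prod, natDegree_prod_of_monic]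
  · refine Finset.sum_congr rfl fun P _ => ?_
    split_ifs with h
    · rw [natDegree_pow, natDegree_X_sub_C, mul_one]
    · exact natDegree_one
  · intro P _
    split_ifs with h
    · exact (monic_X_sub_C _).pow _
    · exact monic_one

/-- for an effective divisor the local factor is the value of the polynomial -/
theorem fn_eq_aeval {E : Divisor L F} (hE : 0 ≤ E) : R.fn E = aeval R.T (R.poly E) := by
  classical
  unfold fn poly
  rw [Finsupp.prod, Finsupp.prod, map_prod]
  refine Finset.prod_congr rfl fun P _ => ?_
  split_ifs with h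
  · have h0 : 0 ≤ E P := hE P
    rw [map_pow, map_sub, aeval_X, aeval_C, ← zpow_natCast, Int.toNat_of_nonneg h0]
  · rw [map_one]

variable {R}

/-- equivariance of the polynomial -/
theorem map_poly {σ : SemilinearAut L F} (hσ : R.Sym σ) (E : Divisor L F) :
    (R.poly E).map (SemilinearAut.baseAut σ : L →+* L) = R.poly (σ • E) := by
  classical
  unfold poly
  rw [SemilinearAut.divisor_smul_def, Finsupp.prod_mapDomain_index_inj (MulAction.injective σ),
    Finsupp.prod, Finsupp.prod, Polynomial.map_prod]
  refine Finset.prod_congr rfl fun P _ => ?_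
  by_cases h : R.mem P
  · have h' : R.mem (σ • P) := (hσ.mem_smul P).2 h
    rw [if_pos h, if_pos h', Polynomial.map_pow, Polynomial.map_sub, map_X, map_C]
    have := ev_smul_smul σ (R.deg P h) (R.reg P h)
    rw [hσ.T_fix] at this
    rw [this]
    rfl
  · have h' : ¬ R.mem (σ • P) := fun h' => h ((hσ.mem_smul P).1 h')
    rw [if_neg h, if_neg h', Polynomial.map_one]

/-- equivariance of the local factor -/
theorem smul_fn {σ : SemilinearAut L F} (hσ : R.Sym σ) (E : Divisor L F) :
    σ • R.fn E = R.fn (σ • E) := by
  classical
  unfold fn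
  rw [SemilinearAut.divisor_smul_def, Finsupp.prod_mapDomain_index_inj (MulAction.injective σ),
    Finsupp.prod, Finsupp.prod, Finset.smul_prod']
  refine Finset.prod_congr rfl fun P _ => ?_
  by_cases h : R.mem P
  · have h' : R.mem (σ • P) := (hσ.mem_smul P).2 h
    rw [if_pos h, if_pos h', SemilinearAut.smul_def, map_zpow₀, ← SemilinearAut.smul_def, smul_sub,
      hσ.T_fix, SemilinearAut.smul_algebraMap]
    have := ev_smul_smul σ (R.deg P h) (R.reg P h)
    rw [hσ.T_fix] at this
    rw [this]
  · have h' : ¬ R.mem (σ • P) := fun h' => h ((hσ.mem_smul P).1 h')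
    rw [if_neg h, if_neg h', smul_one]

/-- the coefficients of the polynomial of a stable divisor are fixed -/
theorem coeff_poly_fixed {σ : SemilinearAut L F} (hσ : R.Sym σ) {E : Divisor L F} (hE : σ • E = E)
    (j : ℕ) : SemilinearAut.baseAut σ ((R.poly E).coeff j) = (R.poly E).coeff j := by
  have h := congrArg (fun q => q.coeff j) (map_poly hσ E)
  simp only [coeff_map, hE] at h
  exact h

/-- the polynomial of the transformed divisor, coefficientwise -/
theorem coeff_poly_smul {σ : SemilinearAut L F} (hσ : R.Sym σ) (E : Divisor L F) (j : ℕ) :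
    (R.poly (σ • E)).coeff j = SemilinearAut.baseAut σ ((R.poly E).coeff j) := by
  rw [← map_poly hσ E, coeff_map]
  rfl

end Region

end Fermat.Agent.S44lib.M

end
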