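/-
S44lib / M / Break  (helper7)  — Project LSq, block Q2b = (M′): the break-one package and the
first-order estimate of the local factors.

Setting (all abstract).  `S : IAct A F G` an inertia-type action (`G = Gal(L / K₁)`, `K₁ = K(ζ_p)`),
`H' ≤ G` the subgroup fixing the field of definition `K' = K₁(u^{1/p})` of the divisor, `τ ∈ G` a generator of
`Gal(K' / K₁)`, `ϖ` a uniformizer of `K'`.  **`BreakOne S H' τ ϖ β`** :

* `val` : every `H'`-fixed `a ≠ 0` has `|a| = |ϖ|^m`;
* `act` : `|τ a - a (1 + m β ϖ)| ≤ |a| |ϖ|²`, `β` a unit   (the ramification break of `K'/K₁` is `1`;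
  `ϖ = (ζ_p - 1)/(u^{1/p} - c)`).

`TwistData` : effective `H'`-stable divisors `Dp`, `Dm` and effective `G`-stable divisors `Ep`, `Em`;
`X.div = τ (Dp - Dm) - (Dp - Dm) - (Ep - Em)`.

Main result `Region.oneMod_fn_neg_div` : on a `G`-symmetric region the local factor of `-X.div` is
`≡ 1 (mod ϖ²)` in `V.O` (if `Ep`, `Em` have the same degree on the region).
-/
import Fermat.Agent.S44lib.M.Loc
import Fermat.Agent.S33lib.N.Transport

set_option autoImplicit false
set_option linter.unusedSectionVars false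

noncomputable section

namespace Fermat.Agent.S44lib.M

open Fermat.Agent.S18lib AlgebraicCurve Polynomial Fermat.Agent.S19lib.C Fermat.Agent.LSb
open Fermat.Agent.S33lib

variable {L : Type*} [Field L] {A : ValuationSubring L}
variable {F : Type*} [Field F] [Algebra L F]
variable {Fk : Type*} [Field Fk] [Algebra (IsLocalRing.ResidueField A) Fk]
variable {G : Type*} [Group G]

/-- **the break-one package** -/
structure BreakOne (S : N.IAct A F G) (H' : Subgroup G) (τ : G) (ϖ β : L) : Prop where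
  ne_zero : ϖ ≠ 0
  lt_one : A.valuation ϖ < 1
  beta_unit : A.valuation β = 1
  val : ∀ a : L, a ≠ 0 → (∀ h ∈ H', S.hat h a = a) → ∃ m : ℤ, A.valuation a = A.valuation ϖ ^ m
  act : ∀ (a : L) (m : ℤ), (∀ h ∈ H', S.hat h a = a) → A.valuation a = A.valuation ϖ ^ m →
    A.valuation (S.hat τ a - a * (1 + (m : L) * β * ϖ)) ≤ A.valuation a * A.valuation ϖ ^ 2

theorem val_intCast_le_one (m : ℤ) : A.valuation (m : L) ≤ 1 :=
  (A.valuation_le_one_iff _).2 (intCast_mem A m)

namespace BreakOne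

variable {S : N.IAct A F G} {H' : Subgroup G} {τ : G} {ϖ β : L} (hB : BreakOne S H' τ ϖ β)

include hB

theorem val_pos : 0 < A.valuation ϖ :=
  lt_of_le_of_ne zero_le ((Valuation.ne_zero_iff _).2 hB.ne_zero).symm

theorem val_sq_lt_one : A.valuation (ϖ ^ 2) < 1 := by
  rw [map_pow]
  exact pow_lt_one₀ zero_le hB.lt_one two_ne_zero

/-- an exponent of a small element is positive -/
theorem one_le_of_lt_one {m : ℤ} (h : A.valuation ϖ ^ m < 1) : 1 ≤ m := by
  by_contra hm
  have hm' : m ≤ 0 := by omega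
  have : 1 ≤ A.valuation ϖ ^ m := by
    obtain ⟨n, rfl⟩ : ∃ n : ℕ, m = -n := ⟨(-m).toNat, by omega⟩
    rw [zpow_neg, zpow_natCast]
    exact (one_le_inv₀ (pow_pos hB.val_pos n)).2 (pow_le_one₀ zero_le hB.lt_one.le)
  exact absurd h (not_lt.2 this)

theorem zpow_le_of_one_le {m : ℤ} (h : 1 ≤ m) : A.valuation ϖ ^ m ≤ A.valuation ϖ := by
  obtain ⟨n, rfl⟩ : ∃ n : ℕ, m = n + 1 := ⟨(m - 1).toNat, by omega⟩
  rw [zpow_add_one₀ hB.val_pos.ne', zpow_natCast]
  calc A.valuation ϖ ^ n * A.valuation ϖ ≤ 1 * A.valuation ϖ := by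
        gcongr
        exact pow_le_one₀ zero_le hB.lt_one.le
    _ = A.valuation ϖ := one_mul _

/-- **first-order triviality on the maximal ideal of `K'`** -/
theorem val_hat_sub_le {a : L} (hfix : ∀ h ∈ H', S.hat h a = a) (ha : A.valuation a < 1) :
    A.valuation (S.hat τ a - a) ≤ A.valuation (ϖ ^ 2) := by
  by_cases ha0 : a = 0
  · subst ha0
    rw [S.hat_zero, sub_zero, map_zero]
    exact zero_le
  obtain ⟨m, hm⟩ := hB.val a ha0 hfix
  have h1 := hB.act a m hfix hm
  have hm1 : 1 ≤ m := hB.one_le_of_lt_one (hm ▸ ha)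
  have hale : A.valuation a ≤ A.valuation ϖ := hm ▸ hB.zpow_le_of_one_le hm1
  have h2 : S.hat τ a - a = (S.hat τ a - a * (1 + (m : L) * β * ϖ)) + a * ((m : L) * β * ϖ) := by ring
  rw [h2, map_pow]
  refine (Valuation.map_add _ _ _).trans (max_le ?_ ?_)
  · refine h1.trans ?_
    calc A.valuation a * A.valuation ϖ ^ 2 ≤ 1 * A.valuation ϖ ^ 2 := by gcongr
      _ = A.valuation ϖ ^ 2 := one_mul _
  · rw [map_mul, map_mul, map_mul, hB.beta_unit, mul_one, pow_two]
    calc A.valuation a * (A.valuation (m : L) * A.valuation ϖ)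
        ≤ A.valuation ϖ * (1 * A.valuation ϖ) := by
          gcongr
          exact val_intCast_le_one m
      _ = A.valuation ϖ * A.valuation ϖ := by rw [one_mul]

/-- **the first-order action on `K'ˣ`** -/
theorem val_hat_div_sub_le {a : L} {m : ℤ} (hfix : ∀ h ∈ H', S.hat h a = a)
    (hm : A.valuation a = A.valuation ϖ ^ m) :
    A.valuation (S.hat τ a / a - (1 + (m : L) * β * ϖ)) ≤ A.valuation (ϖ ^ 2) := by
  have ha0 : a ≠ 0 := by
    rintro rfl
    rw [map_zero] at hm
    exact (zpow_ne_zero m hB.val_pos.ne') hm.symm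
  have hva : 0 < A.valuation a :=
    lt_of_le_of_ne zero_le ((Valuation.ne_zero_iff _).2 ha0).symm
  have h1 := hB.act a m hfix hm
  have h2 : S.hat τ a / a - (1 + (m : L) * β * ϖ) = (S.hat τ a - a * (1 + (m : L) * β * ϖ)) / a := by
    field_simp
  rw [h2, map_div₀, map_pow]
  rw [div_le_iff₀ hva, mul_comm (A.valuation ϖ ^ 2)]
  exact h1

/-- `τ` preserves the absolute value on `K'` -/
theorem val_hat_eq {a : L} (hfix : ∀ h ∈ H', S.hat h a = a) :
    A.valuation (S.hat τ a) = A.valuation a := by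
  by_cases ha0 : a = 0
  · subst ha0
    rw [S.hat_zero]
  obtain ⟨m, hm⟩ := hB.val a ha0 hfix
  have h1 := hB.val_hat_div_sub_le hfix hm
  have h2 : A.valuation (S.hat τ a / a - 1) < 1 := by
    have h3 : S.hat τ a / a - 1 = (S.hat τ a / a - (1 + (m : L) * β * ϖ)) + (m : L) * β * ϖ := by ring
    rw [h3]
    refine lt_of_le_of_lt (Valuation.map_add _ _ _) (max_lt (lt_of_le_of_lt h1 hB.val_sq_lt_one) ?_)
    rw [map_mul, map_mul, hB.beta_unit, mul_one]
    calc A.valuation (m : L) * A.valuation ϖ ≤ 1 * A.valuation ϖ := by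
          gcongr
          exact val_intCast_le_one m
      _ = A.valuation ϖ := one_mul _
      _ < 1 := hB.lt_one
  have h4 : A.valuation (S.hat τ a / a) = 1 := by
    have := Valuation.map_one_add_of_lt _ h2
    rwa [add_sub_cancel] at this
  rw [map_div₀] at h4
  exact (div_eq_one_iff_eq ((Valuation.ne_zero_iff _).2 ha0)).1 h4

end BreakOne

/-! ### the twisted divisor -/

/-- the divisors of the rigidity argument -/
structure TwistData (S : N.IAct A F G) (H' : Subgroup G) where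
  /-- `x = [Dp - Dm]`, both effective and `H'`-stable -/
  Dp : Divisor L F
  Dm : Divisor L F
  /-- `ℓ₀ = [Ep - Em]`, both effective and `G`-stable -/
  Ep : Divisor L F
  Em : Divisor L F
  Dp_nonneg : 0 ≤ Dp
  Dm_nonneg : 0 ≤ Dm
  Ep_nonneg : 0 ≤ Ep
  Em_nonneg : 0 ≤ Em
  Dp_st : ∀ h ∈ H', S.ρ h • Dp = Dp
  Dm_st : ∀ h ∈ H', S.ρ h • Dm = Dm
  Ep_st : ∀ g : G, S.ρ g • Ep = Ep
  Em_st : ∀ g : G, S.ρ g • Em = Em

namespace TwistData

variable {S : N.IAct A F G} {H' : Subgroup G} (X : TwistData S H')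

/-- `τ D - D - E₀` -/
def div (τ : G) : Divisor L F := S.ρ τ • (X.Dp - X.Dm) - (X.Dp - X.Dm) - (X.Ep - X.Em)

theorem neg_div (τ : G) : -X.div τ =
    (X.Dp - S.ρ τ • X.Dp) + (S.ρ τ • X.Dm - X.Dm) + (X.Ep - X.Em) := by
  unfold div
  rw [smul_sub]
  abel

end TwistData

theorem smul_divisor_nonneg (σ : SemilinearAut L F) {E : Divisor L F} (hE : 0 ≤ E) : 0 ≤ σ • E := by
  intro P
  rw [SemilinearAut.divisor_smul_apply]
  exact hE _

/-! ### the first-order estimate on a region -/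

namespace Region

variable {V : GaussDatum A F Fk} (R : Region V)
variable {S : N.IAct A F G} {H' : Subgroup G} {τ : G} {ϖ β : L}

/-- **(L1)** the local factor of a `K'`-rational effective divisor is `τ`-invariant modulo `ϖ²` -/
theorem oneMod_twist (hB : BreakOne S H' τ ϖ β) (hτ : R.Sym (S.ρ τ)) (hH : ∀ h ∈ H', R.Sym (S.ρ h))
    {E : Divisor L F} (hE : 0 ≤ E) (hst : ∀ h ∈ H', S.ρ h • E = E) :
    OneMod V (ϖ ^ 2) (R.fn (S.ρ τ • E) / R.fn E) := by
  rw [R.fn_eq_aeval hE, R.fn_eq_aeval (smul_divisor_nonneg _ hE)]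
  refine (R.poly_isW E).oneMod_div R.T_mem R.T_red _ fun j => ?_
  rw [coeff_poly_smul hτ]
  have hfix : ∀ h ∈ H', S.hat h ((R.poly E).coeff j) = (R.poly E).coeff j :=
    fun h hh => coeff_poly_fixed (hH h hh) (hst h hh) j
  rcases lt_trichotomy j (R.poly E).natDegree with hj | hj | hj
  · exact hB.val_hat_sub_le hfix ((R.poly_isW E).2 j hj)
  · rw [hj, (R.poly_isW E).1.coeff_natDegree, map_one, sub_self, map_zero]
    exact zero_le
  · rw [coeff_eq_zero_of_natDegree_lt hj, map_zero, sub_self, map_zero]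
    exact zero_le

/-- **(L2)** two `K₁`-rational effective divisors of the same degree on the region have congruent
local factors -/
theorem oneMod_small {ε : L}
    (hsm : ∀ a : L, (∀ g : G, S.hat g a = a) → A.valuation a < 1 → A.valuation a ≤ A.valuation ε)
    (hG : ∀ g : G, R.Sym (S.ρ g)) {E E' : Divisor L F} (hE : 0 ≤ E) (hE' : 0 ≤ E')
    (hst : ∀ g : G, S.ρ g • E = E) (hst' : ∀ g : G, S.ρ g • E' = E')
    (hdeg : (R.poly E).natDegree = (R.poly E').natDegree) :
    OneMod V ε (R.fn E / R.fn E') := by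
  rw [R.fn_eq_aeval hE, R.fn_eq_aeval hE']
  refine (R.poly_isW E').oneMod_div R.T_mem R.T_red _ fun j => ?_
  have hfix : ∀ g : G, S.hat g ((R.poly E).coeff j) = (R.poly E).coeff j :=
    fun g => coeff_poly_fixed (hG g) (hst g) j
  have hfix' : ∀ g : G, S.hat g ((R.poly E').coeff j) = (R.poly E').coeff j :=
    fun g => coeff_poly_fixed (hG g) (hst' g) j
  rcases lt_trichotomy j (R.poly E').natDegree with hj | hj | hj
  · refine (Valuation.map_sub _ _ _).trans (max_le ?_ ?_)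
    · exact hsm _ hfix ((R.poly_isW E).2 j (hdeg ▸ hj))
    · exact hsm _ hfix' ((R.poly_isW E').2 j hj)
  · have h1 : (R.poly E).coeff j = 1 := by
      rw [hj, ← hdeg]; exact (R.poly_isW (A := A) E).1.coeff_natDegree
    rw [h1, hj, (R.poly_isW (A := A) E').1.coeff_natDegree, sub_self, map_zero]
    exact zero_le
  · rw [coeff_eq_zero_of_natDegree_lt hj, coeff_eq_zero_of_natDegree_lt (hdeg ▸ hj), sub_self,
      map_zero]
    exact zero_le

/-- **the local factor of `-(τ D - D - E₀)` is `≡ 1 (mod ϖ²)`** -/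
theorem oneMod_fn_neg_div (hB : BreakOne S H' τ ϖ β)
    (hsm : ∀ a : L, (∀ g : G, S.hat g a = a) → A.valuation a < 1 →
      A.valuation a ≤ A.valuation (ϖ ^ 2))
    (hG : ∀ g : G, R.Sym (S.ρ g)) (X : TwistData S H')
    (hdeg : (R.poly X.Ep).natDegree = (R.poly X.Em).natDegree) :
    OneMod V (ϖ ^ 2) (R.fn (-X.div τ)) := by
  have hε : A.valuation (ϖ ^ 2) < 1 := hB.val_sq_lt_one
  have hεA : ϖ ^ 2 ∈ A := (A.valuation_le_one_iff _).1 hε.le
  rw [X.neg_div, fn_add, fn_add, fn_sub, fn_sub, fn_sub]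
  have h1 : OneMod V (ϖ ^ 2) (R.fn X.Dp / R.fn (S.ρ τ • X.Dp)) := by
    have := R.oneMod_twist hB (hG τ) (fun h _ => hG h) X.Dp_nonneg X.Dp_st
    rw [← inv_div]
    exact OneMod.inv hε this
  have h2 : OneMod V (ϖ ^ 2) (R.fn (S.ρ τ • X.Dm) / R.fn X.Dm) :=
    R.oneMod_twist hB (hG τ) (fun h _ => hG h) X.Dm_nonneg X.Dm_st
  have h3 : OneMod V (ϖ ^ 2) (R.fn X.Ep / R.fn X.Em) :=
    R.oneMod_small hsm hG X.Ep_nonneg X.Em_nonneg X.Ep_st X.Em_st hdeg
  exact (h1.mul hεA h2).mul hεA h3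

end Region

end Fermat.Agent.S44lib.M

end
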