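/-
S44lib / M / Cst  (helper7)  — Project LSq, block Q2b = (M′): the constants of a region.

For a region `R` (an annulus with its coordinate) and a divisor `E` :
* `R.cst E  = ∏_{P ∈ region} T(P) ^ {E P} ∈ L`   (the product of the coordinate values),
* `R.rdeg E = Σ_{P ∈ region} E P ∈ ℤ`            (the degree of `E` on the region),
with multiplicativity / additivity, equivariance `σ̂ (R.cst E) = R.cst (σ • E)`, and the change of
coordinates between two regions with the same places whose coordinates are related by `T T' = π`.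
-/
import Fermat.Agent.S44lib.M.Break

set_option autoImplicit false
set_option linter.unusedSectionVars false

noncomputable section

namespace Fermat.Agent.S44lib.M

open Fermat.Agent.S18lib AlgebraicCurve Polynomial Fermat.Agent.S19lib.C Fermat.Agent.LSb
open Fermat.Agent.S33lib
open Fermat.Agent.S19lib.Geom (ev_smul_smul)

variable {L : Type*} [Field L] {A : ValuationSubring L}
variable {F : Type*} [Field F] [Algebra L F]
variable {Fk : Type*} [Field Fk] [Algebra (IsLocalRing.ResidueField A) Fk]
variable {G : Type*} [Group G]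

theorem finset_prod_zpow_const {Γ ι : Type*} [CommGroupWithZero Γ] (s : Finset ι) (f : ι → ℤ) {x : Γ}
    (hx : x ≠ 0) : ∏ i ∈ s, x ^ f i = x ^ ∑ i ∈ s, f i := by
  classical
  induction s using Finset.induction_on with
  | empty => simp
  | insert a s ha ih => rw [Finset.prod_insert ha, Finset.sum_insert ha, ih, zpow_add₀ hx]

namespace Region

variable {V : GaussDatum A F Fk} (R : Region V)

open Classical in
/-- the product of the coordinate values -/
def cst (E : Divisor L F) : L :=
  E.prod fun P n => if R.mem P then (ev P R.T) ^ n else 1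

open Classical in
/-- the degree on the region -/
def rdeg (E : Divisor L F) : ℤ :=
  E.sum fun P n => if R.mem P then n else 0

theorem rdeg_zero : R.rdeg 0 = 0 := by
  unfold rdeg
  rw [Finsupp.sum_zero_index]

theorem rdeg_add (E E' : Divisor L F) : R.rdeg (E + E') = R.rdeg E + R.rdeg E' := by
  classical
  unfold rdeg
  refine Finsupp.sum_add_index (fun P _ => ?_) (fun P _ n n' => ?_)
  · split_ifs <;> rfl
  · split_ifs
    · rfl
    · rw [add_zero]

theorem rdeg_neg (E : Divisor L F) : R.rdeg (-E) = -R.rdeg E := by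
  have h := R.rdeg_add E (-E)
  rw [add_neg_cancel, rdeg_zero] at h
  linarith

theorem rdeg_sub (E E' : Divisor L F) : R.rdeg (E - E') = R.rdeg E - R.rdeg E' := by
  rw [sub_eq_add_neg, rdeg_add, rdeg_neg, sub_eq_add_neg]

theorem rdeg_eq_zero_of_forall {E : Divisor L F} (h : ∀ P, R.mem P → E P = 0) : R.rdeg E = 0 := by
  classical
  unfold rdeg
  rw [Finsupp.sum]
  refine Finset.sum_eq_zero fun P _ => ?_
  split_ifs with hP
  · exact h P hP
  · rfl

variable {R}

theorem rdeg_smul {σ : SemilinearAut L F} (hσ : R.Sym σ) (E : Divisor L F) :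
    R.rdeg (σ • E) = R.rdeg E := by
  classical
  unfold rdeg
  rw [SemilinearAut.divisor_smul_def, Finsupp.sum_mapDomain_index_inj (MulAction.injective σ)]
  refine Finsupp.sum_congr fun P _ => ?_
  by_cases h : R.mem P
  · rw [if_pos h, if_pos ((hσ.mem_smul P).2 h)]
  · rw [if_neg h, if_neg fun h' => h ((hσ.mem_smul P).1 h')]

variable (R)

theorem cst_zero : R.cst 0 = 1 := by
  unfold cst
  rw [Finsupp.prod_zero_index]

/-- the coordinate does not vanish on the region -/
def NoZero : Prop := ∀ P, R.mem P → ev P R.T ≠ 0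

variable {R}

theorem cst_add (hR : R.NoZero) (E E' : Divisor L F) : R.cst (E + E') = R.cst E * R.cst E' := by
  classical
  unfold cst
  refine Finsupp.prod_add_index (fun P _ => ?_) (fun P _ n n' => ?_)
  · split_ifs
    · rw [zpow_zero]
    · rfl
  · split_ifs with h
    · rw [zpow_add₀ (hR P h)]
    · rw [one_mul]

theorem cst_ne_zero (hR : R.NoZero) (E : Divisor L F) : R.cst E ≠ 0 := by
  classical
  unfold cst
  rw [Finsupp.prod, Finset.prod_ne_zero_iff]
  intro P _
  split_ifs with h
  · exact zpow_ne_zero _ (hR P h)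
  · exact one_ne_zero

theorem cst_neg (hR : R.NoZero) (E : Divisor L F) : R.cst (-E) = (R.cst E)⁻¹ := by
  have h := cst_add hR E (-E)
  rw [add_neg_cancel, cst_zero] at h
  exact eq_inv_of_mul_eq_one_right h.symm

theorem cst_sub (hR : R.NoZero) (E E' : Divisor L F) : R.cst (E - E') = R.cst E / R.cst E' := by
  rw [sub_eq_add_neg, cst_add hR, cst_neg hR, div_eq_mul_inv]

theorem cst_nsmul (hR : R.NoZero) (n : ℕ) (E : Divisor L F) : R.cst (n • E) = R.cst E ^ n := by
  induction n with
  | zero => rw [zero_smul, cst_zero, pow_zero]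
  | succ n ih => rw [succ_nsmul, cst_add hR, ih, pow_succ]

theorem cst_eq_one_of_forall {E : Divisor L F} (h : ∀ P, R.mem P → E P = 0) : R.cst E = 1 := by
  classical
  unfold cst
  rw [Finsupp.prod]
  refine Finset.prod_eq_one fun P _ => ?_
  split_ifs with hP
  · rw [h P hP, zpow_zero]
  · rfl

/-- equivariance of the constant -/
theorem hat_cst {σ : SemilinearAut L F} (hσ : R.Sym σ) (E : Divisor L F) :
    SemilinearAut.baseAut σ (R.cst E) = R.cst (σ • E) := by
  classical
  unfold cst
  rw [SemilinearAut.divisor_smul_def, Finsupp.prod_mapDomain_index_inj (MulAction.injective σ),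
    Finsupp.prod, Finsupp.prod, map_prod]
  refine Finset.prod_congr rfl fun P _ => ?_
  by_cases h : R.mem P
  · have h' : R.mem (σ • P) := (hσ.mem_smul P).2 h
    rw [if_pos h, if_pos h', map_zpow₀]
    have := ev_smul_smul σ (R.deg P h) (R.reg P h)
    rw [hσ.T_fix] at this
    rw [this]
  · have h' : ¬ R.mem (σ • P) := fun h' => h ((hσ.mem_smul P).1 h')
    rw [if_neg h, if_neg h', map_one]

/-- the constant of a stable divisor is fixed -/
theorem cst_fixed {σ : SemilinearAut L F} (hσ : R.Sym σ) {E : Divisor L F} (hE : σ • E = E) :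
    SemilinearAut.baseAut σ (R.cst E) = R.cst E := by
  rw [hat_cst hσ, hE]

/-- the polynomial of a divisor which does not meet the region -/
theorem poly_eq_one_of_forall {E : Divisor L F} (h : ∀ P, R.mem P → E P = 0) : R.poly E = 1 := by
  classical
  unfold poly
  rw [Finsupp.prod]
  refine Finset.prod_eq_one fun P _ => ?_
  split_ifs with hP
  · rw [h P hP, Int.toNat_zero, pow_zero]
  · rfl

/-- **change of coordinates**: two regions with the same places whose coordinates satisfy
`T - T(P) = -(T' - T'(P)) · T(P) / T'` on the region -/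
theorem fn_eq_mul_cst {V' : GaussDatum A F Fk} {R' : Region V'} {Fk' : Type*} [Field Fk']
    [Algebra (IsLocalRing.ResidueField A) Fk'] {V'' : GaussDatum A F Fk'} {R'' : Region V''}
    (hmem : ∀ P, R'.mem P ↔ R''.mem P)
    (hrel : ∀ P, R'.mem P → R'.T - algebraMap L F (ev P R'.T)
      = (R''.T - algebraMap L F (ev P R''.T)) * algebraMap L F (ev P R'.T) * (-(R''.T)⁻¹))
    (E : Divisor L F) :
    R'.fn E = R''.fn E * algebraMap L F (R'.cst E) * (-(R''.T)⁻¹) ^ R'.rdeg E := by
  classical
  have h3 : (-(R''.T)⁻¹) ^ R'.rdeg E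
      = E.prod fun P n => if R'.mem P then (-(R''.T)⁻¹) ^ n else 1 := by
    unfold rdeg
    rw [Finsupp.prod, Finsupp.sum]
    have hT : -(R''.T)⁻¹ ≠ 0 := by
      refine neg_ne_zero.2 (inv_ne_zero fun h0 => ?_)
      have := R''.T_red
      rw [h0, V''.redF_zero] at this
      exact this rfl
    rw [← finset_prod_zpow_const _ _ hT]
    refine Finset.prod_congr rfl fun P _ => ?_
    split_ifs
    · rfl
    · rw [zpow_zero]
  rw [h3]
  unfold fn cst
  rw [Finsupp.prod, Finsupp.prod, Finsupp.prod, Finsupp.prod, map_prod, ← Finset.prod_mul_distrib,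
    ← Finset.prod_mul_distrib]
  refine Finset.prod_congr rfl fun P _ => ?_
  by_cases h : R'.mem P
  · rw [if_pos h, if_pos ((hmem P).1 h), if_pos h, if_pos h, hrel P h, mul_zpow, mul_zpow,
      map_zpow₀]
  · rw [if_neg h, if_neg fun h' => h ((hmem P).2 h'), if_neg h, if_neg h, map_one, mul_one, mul_one]

end Region

end Fermat.Agent.S44lib.M

end
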