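/-
S44lib / M / Side  (helper7)  — Project LSq, block Q2b = (M′): first-order rigidity on ONE component.

A `Side S Fk Fk'` is one component of the nodal model, seen abstractly: its disc datum `Dd` (Gauss
datum `V = Dd.G`, place map, local conservation), the Gauss datum `W` of the OTHER component, the
node points `x c`, a symmetric chart region on every residue disc, the annulus regions `ann c` with their
coordinate (`z` resp. `z' = π/z`), which is a parameter at `x c` and is `≤ |π c|` on `W`, and the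
one-sided form of (GLUE-ann).

**`Side.oneMod`** : let `g` have the divisor `τ D - D - E₀` (`TwistData`), `g ∈ V.O`, `red g = 1`,
`g(P₀) = 1` at a point `P₀` of a residue disc free of `div g`, and `|g · Ω_c|_W ≤ 1` for the local factors
`Ω_c` of the annuli.  If `|π c| ≤ |ϖ|²` then `g ≡ 1 (mod ϖ²)` in `V.O`.
-/
import Fermat.Agent.S44lib.M.Break
import Fermat.Agent.S33lib.NC.Disc
import Fermat.Agent.S18lib.Setup.CurveRR

set_option autoImplicit false
set_option linter.unusedSectionVars false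

noncomputable section

namespace Fermat.Agent.S44lib.M

open Fermat.Agent.S18lib AlgebraicCurve Polynomial Fermat.Agent.S19lib.C Fermat.Agent.LSb
open Fermat.Agent.S33lib

variable {L : Type*} [Field L] {A : ValuationSubring L}
variable {F : Type*} [Field F] [Algebra L F] [HasPrincipalDivisors L F]
variable {G : Type*} [Group G]

local notation "k" => IsLocalRing.ResidueField A

/-- **one component of the nodal model** with its charts and annuli -/
structure Side (S : N.IAct A F G) (Fk Fk' : Type*) [Field Fk] [Field Fk']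
    [Algebra (IsLocalRing.ResidueField A) Fk] [Algebra (IsLocalRing.ResidueField A) Fk']
    [HasPrincipalDivisors (IsLocalRing.ResidueField A) Fk] where
  /-- the disc datum of this component -/
  Dd : N.DiscDatum A F Fk
  /-- the Gauss datum of the other component -/
  W : GaussDatum A F Fk'
  /-- the genus of this component -/
  gk : ℕ
  hFk : IsCurveOfGenus (IsLocalRing.ResidueField A) Fk gk
  /-- the number of nodes -/
  s : ℕ
  /-- the node points on this component -/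
  x : Fin s → Place (IsLocalRing.ResidueField A) Fk
  /-- the thickness constants -/
  pi : Fin s → L
  /-- the annuli with their coordinates -/
  ann : Fin s → Region Dd.G
  ann_sym : ∀ c g, (ann c).Sym (S.ρ g)
  ann_ord : ∀ c, (x c).ord (Dd.G.redF (ann c).T) = 1
  ann_W : ∀ c, Small W (pi c) (ann c).T
  glue : ∀ (f : F) (c : Fin s), f ∈ Dd.G.O → f ∈ W.O → W.redF f = 0 →
    (∀ P, (ann c).mem P → 0 ≤ P.ord f) → HasValueAt (x c) (Dd.G.redF f) 0
  good : ∀ Q, (∀ c, Q ≠ x c) → Dd.Good Q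
  disc : ∀ Q : Place (IsLocalRing.ResidueField A) Fk, (∀ c, Q ≠ x c) →
    ∃ R : Region Dd.G, (∀ P, R.mem P ↔ Dd.r P = some Q) ∧ ∀ g, R.Sym (S.ρ g)

namespace Side

variable {S : N.IAct A F G} {Fk Fk' : Type*} [Field Fk] [Field Fk']
variable [Algebra (IsLocalRing.ResidueField A) Fk] [Algebra (IsLocalRing.ResidueField A) Fk']
variable [HasPrincipalDivisors (IsLocalRing.ResidueField A) Fk]
variable {H' : Subgroup G} {τ : G} {ϖ β : L}

/-- a function without zeros and poles on a region, times a regular function -/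
theorem regAt_of_ord_eq_zero {P : Place L F} {f : F} (h : P.ord f = 0) : RegAt P f := by
  rw [regAt_iff_ord, h]

/-- **first-order rigidity on one component** -/
theorem oneMod (Sd : Side S Fk Fk') (hB : BreakOne S H' τ ϖ β)
    (hsm : ∀ a : L, (∀ g : G, S.hat g a = a) → A.valuation a < 1 →
      A.valuation a ≤ A.valuation (ϖ ^ 2))
    (hpi : ∀ c, A.valuation (Sd.pi c) ≤ A.valuation (ϖ ^ 2))
    (X : TwistData S H')
    (hdegA : ∀ c, ((Sd.ann c).poly X.Ep).natDegree = ((Sd.ann c).poly X.Em).natDegree)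
    (hdegD : ∀ (R : Region Sd.Dd.G) (Q : Place (IsLocalRing.ResidueField A) Fk),
      (∀ P, R.mem P ↔ Sd.Dd.r P = some Q) → (R.poly X.Ep).natDegree = (R.poly X.Em).natDegree)
    {g : F} (hg0 : g ≠ 0) (hdiv : ∀ P : Place L F, P.ord g = X.div τ P)
    (hgV : g ∈ Sd.Dd.G.O) (hgred : Sd.Dd.G.redF g = 1)
    (hgW : ∀ c, g * (Sd.ann c).fn (-X.div τ) ∈ Sd.W.O)
    {Q₀ : Place (IsLocalRing.ResidueField A) Fk} (hQ₀ : ∀ c, Q₀ ≠ Sd.x c)
    (hfree : ∀ P, Sd.Dd.r P = some Q₀ → X.div τ P = 0)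
    {P₀ : Place L F} (hP₀ : Sd.Dd.r P₀ = some Q₀) (hdeg₀ : P₀.deg = 1) (hev : ev P₀ g = 1) :
    OneMod Sd.Dd.G (ϖ ^ 2) g := by
  by_contra hnot
  obtain ⟨d, hd0, hdlt, hηmem, hηred⟩ := exists_const_of_not_small hnot
  have hε : A.valuation (ϖ ^ 2) < 1 := hB.val_sq_lt_one
  have hεA : ϖ ^ 2 ∈ A := (A.valuation_le_one_iff _).1 hε.le
  have hdF : algebraMap L F d ≠ 0 := (_root_.map_ne_zero _).2 hd0
  -- `|d| < 1`
  have hd1 : A.valuation d < 1 := by
    by_contra h
    rw [not_lt] at h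
    have hdinv : d⁻¹ ∈ A := by
      rw [← A.valuation_le_one_iff, map_inv₀]
      exact inv_le_one_of_one_le₀ h
    have h1 : g - 1 ∈ Sd.Dd.G.O := Sd.Dd.G.O.sub_mem hgV Sd.Dd.G.O.one_mem
    have h2 : Sd.Dd.G.redF (g - 1) = 0 := by
      rw [Sd.Dd.G.redF_sub hgV Sd.Dd.G.O.one_mem, hgred, Sd.Dd.G.redF_one, sub_self]
    have h3 := Sd.Dd.G.redF_smul ⟨d⁻¹, hdinv⟩ h1
    rw [h2, smul_zero] at h3
    apply hηred
    rw [← map_inv₀]
    exact h3
  have he : A.valuation (ϖ ^ 2 / d) < 1 := val_lt_one_of_lt hd0 hdlt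
  have heA : ϖ ^ 2 / d ∈ A := (A.valuation_le_one_iff _).1 he.le
  set η : F := (algebraMap L F d)⁻¹ * (g - 1) with hη
  set φ : Fk := Sd.Dd.G.redF η with hφ
  -- the key computation
  have key : ∀ U : F, OneMod Sd.Dd.G (ϖ ^ 2) U →
      (algebraMap L F d)⁻¹ * (g * U - 1) ∈ Sd.Dd.G.O ∧
        Sd.Dd.G.redF ((algebraMap L F d)⁻¹ * (g * U - 1)) = φ := by
    intro U hU
    have hUmem := hU.mem hεA
    obtain ⟨w, hw, hUw⟩ := hU
    have h1 : (algebraMap L F d)⁻¹ * (g * U - 1)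
        = η * U + algebraMap L F (ϖ ^ 2 / d) * w := by
      have : g * U - 1 = (g - 1) * U + (U - 1) := by ring
      rw [this, hUw, hη, map_div₀, div_eq_mul_inv]
      ring
    have h2 : η * U ∈ Sd.Dd.G.O := Sd.Dd.G.O.mul_mem _ _ hηmem hUmem
    have h3 : algebraMap L F (ϖ ^ 2 / d) * w ∈ Sd.Dd.G.O := Sd.Dd.G.smul_mem ⟨_, heA⟩ hw
    refine ⟨h1 ▸ Sd.Dd.G.O.add_mem _ _ h2 h3, ?_⟩
    have h4 := Sd.Dd.G.redF_smul ⟨ϖ ^ 2 / d, heA⟩ hw
    rw [residue_eq_zero_of_val_lt_one (a := ⟨ϖ ^ 2 / d, heA⟩) he, zero_smul] at h4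
    have hUred : Sd.Dd.G.redF U = 1 := OneMod.redF hε ⟨w, hw, hUw⟩
    rw [h1, Sd.Dd.G.redF_add h2 h3, Sd.Dd.G.redF_mul hηmem hUmem, h4, hUred, mul_one, add_zero]
  -- regularity of `g · U` on a region
  have hregU : ∀ (R : Region Sd.Dd.G) (P : Place L F), R.mem P →
      RegAt P ((algebraMap L F d)⁻¹ * (g * R.fn (-X.div τ) - 1)) := by
    intro R P hP
    have h1 : P.ord (g * R.fn (-X.div τ)) = 0 := by
      rw [P.ord_mul hg0 (R.fn_ne_zero _), hdiv, R.ord_fn _ hP, Finsupp.neg_apply, add_neg_cancel]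
    rw [← map_inv₀]
    exact (regAt_const _).mul ((regAt_of_ord_eq_zero h1).sub regAt_one)
  -- `φ` is regular at the good points
  have hA : ∀ Q : Place k Fk, (∀ c, Q ≠ Sd.x c) → RegAt Q φ := by
    intro Q hQ
    obtain ⟨R, hRmem, hRsym⟩ := Sd.disc Q hQ
    have hU := R.oneMod_fn_neg_div hB hsm hRsym X (hdegD R Q hRmem)
    obtain ⟨h1, h2⟩ := key _ hU
    have hreg : NC.DiscReg Sd.Dd Q ((algebraMap L F d)⁻¹ * (g * R.fn (-X.div τ) - 1)) :=
      ⟨h1, fun P hP => hregU R P ((hRmem P).2 hP)⟩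
    obtain ⟨P, hP⟩ := Sd.good Q hQ
    have := hreg.regAt_redF hP
    rwa [h2] at this
  -- `φ` is regular at the nodes
  have hN : ∀ c, RegAt (Sd.x c) φ := by
    intro c
    by_contra hreg
    rw [regAt_iff_ord, not_le] at hreg
    set R := Sd.ann c with hR
    have hU := R.oneMod_fn_neg_div hB hsm (Sd.ann_sym c) X (hdegA c)
    obtain ⟨h1, h2⟩ := key _ hU
    obtain ⟨n, hn⟩ : ∃ n : ℕ, (n : ℤ) = -(Sd.x c).ord φ := ⟨(-(Sd.x c).ord φ).toNat, by omega⟩
    have hn1 : 1 ≤ n := by omega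
    set ξ₀ : F := (algebraMap L F d)⁻¹ * (g * R.fn (-X.div τ) - 1) with hξ₀
    set ξ : F := R.T ^ n * ξ₀ with hξ
    -- on `V`
    have hξV : ξ ∈ Sd.Dd.G.O := Sd.Dd.G.O.mul_mem _ _ (Sd.Dd.G.O.pow_mem R.T_mem n) h1
    have hξred : Sd.Dd.G.redF ξ = Sd.Dd.G.redF R.T ^ n * φ := by
      rw [hξ, Sd.Dd.G.redF_mul (Sd.Dd.G.O.pow_mem R.T_mem n) h1, Sd.Dd.G.redF_pow R.T_mem, h2]
    have hξne : Sd.Dd.G.redF ξ ≠ 0 := by
      rw [hξred]
      exact mul_ne_zero (pow_ne_zero _ R.T_red) hηred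
    have hξord : (Sd.x c).ord (Sd.Dd.G.redF ξ) = 0 := by
      rw [hξred, (Sd.x c).ord_mul (pow_ne_zero _ R.T_red) hηred, S18lib.Cech.ord_pow,
        Sd.ann_ord c, mul_one, hn]
      exact neg_add_cancel _
    -- on `W`
    obtain ⟨w', hw', hTw'⟩ := Sd.ann_W c
    have hGW : g * R.fn (-X.div τ) - 1 ∈ Sd.W.O := Sd.W.O.sub_mem (hgW c) Sd.W.O.one_mem
    have hval : A.valuation (Sd.pi c ^ n / d) < 1 := by
      refine val_lt_one_of_lt hd0 (lt_of_le_of_lt ?_ hdlt)
      rw [map_pow]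
      have hpi1 : A.valuation (Sd.pi c) ≤ 1 := (hpi c).trans hε.le
      calc A.valuation (Sd.pi c) ^ n ≤ A.valuation (Sd.pi c) ^ 1 :=
            pow_le_pow_of_le_one zero_le hpi1 hn1
        _ = A.valuation (Sd.pi c) := pow_one _
        _ ≤ A.valuation (ϖ ^ 2) := hpi c
    have hξW : Small Sd.W (Sd.pi c ^ n / d) ξ := by
      refine ⟨w' ^ n * (g * R.fn (-X.div τ) - 1),
        Sd.W.O.mul_mem _ _ (Sd.W.O.pow_mem hw' n) hGW, ?_⟩
      rw [hξ, hξ₀, hTw', map_div₀, map_pow, div_eq_mul_inv]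
      ring
    have hξWmem : ξ ∈ Sd.W.O := hξW.mem ((A.valuation_le_one_iff _).1 hval.le)
    have hξWred : Sd.W.redF ξ = 0 := hξW.redF_eq_zero hval
    -- no pole in the annulus
    have hξreg : ∀ P, R.mem P → 0 ≤ P.ord ξ := by
      intro P hP
      rw [← regAt_iff_ord]
      exact ((R.reg P hP).pow n).mul (hregU R P hP)
    have hglue := Sd.glue ξ c hξV hξWmem hξWred hξreg
    rw [hasValueAt_zero_iff] at hglue
    rcases hglue with h | h
    · exact hξne h
    · omega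
  -- `φ` is a constant
  have hconst : φ ∈ riemannRochSpace (0 : Divisor k Fk) := by
    rw [mem_riemannRochSpace_iff]
    intro Q
    right
    rw [Finsupp.zero_apply, neg_zero, ← regAt_iff_ord]
    by_cases hQ : ∃ c, Q = Sd.x c
    · obtain ⟨c, rfl⟩ := hQ
      exact hN c
    · push Not at hQ
      exact hA Q hQ
  rw [Sd.hFk.riemannRochSpace_zero] at hconst
  obtain ⟨b, hb⟩ := Algebra.mem_bot.1 hconst
  -- evaluation at the free point
  have hregη : NC.DiscReg Sd.Dd Q₀ η := by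
    refine ⟨hηmem, fun P hP => ?_⟩
    have h1 : P.ord g = 0 := by rw [hdiv, hfree P hP]
    rw [hη, ← map_inv₀]
    exact (regAt_const _).mul ((regAt_of_ord_eq_zero h1).sub regAt_one)
  have hres := hregη.residue_ev hP₀ hdeg₀
  have hgreg : RegAt P₀ g := regAt_of_ord_eq_zero (by rw [hdiv, hfree P₀ hP₀])
  have hevη : ev P₀ η = 0 := by
    rw [hη, ← map_inv₀, ev_mul hdeg₀ (regAt_const _) (hgreg.sub regAt_one), ev_sub hdeg₀ hgreg regAt_one,
      hev, ev_one, sub_self, mul_zero]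
  have h0 : (⟨ev P₀ η, hregη.ev_mem hP₀ hdeg₀⟩ : A) = 0 := Subtype.ext hevη
  rw [h0, map_zero, ← hφ, ← hb, ev_const] at hres
  apply hηred
  rw [← hb, ← hres, map_zero]

end Side

end Fermat.Agent.S44lib.M

end
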