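/-
S44lib / M / Sides  (helper7)  — Project LSq, block Q2b = (M′): the two sides of an annulus datum.

From `D : Ann.AnnDatum A F F₁ F₂`, a symmetry group `S : N.NSym D.toNRedDatum G` compatible with the
annuli (`AnnSym`: annuli, coordinates and thickness constants are preserved, every residue disc has a
fixed chart) and `D.GlueAnn` we build

* `annReg₁ D c`, `annReg₂ D c` : the annulus of the node `c` with the coordinate `z c` resp.
  `z' c = pi c / z c`;
* `discReg Dd ch` : the residue disc of a chart;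
* `side₁`, `side₂` : the two `Side`s of `M/Side.lean`;
* `annReg_fn_eq` : the change of coordinates `fn₁ E = fn₂ E · cst₁ E · (-1/z')^{deg E}`.
-/
import Fermat.Agent.S44lib.M.Side
import Fermat.Agent.S44lib.M.Cst
import Fermat.Agent.S44lib.Ann.Datum
import Fermat.Agent.S33lib.NC.Taylor

set_option autoImplicit false
set_option linter.unusedSectionVars false

noncomputable section

namespace Fermat.Agent.S44lib.M

open Fermat.Agent.S18lib AlgebraicCurve Polynomial Fermat.Agent.S19lib.C Fermat.Agent.LSb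
open Fermat.Agent.S33lib

variable {L : Type*} [Field L] {A : ValuationSubring L}
variable {F : Type*} [Field F] [Algebra L F] [HasPrincipalDivisors L F]
variable {G : Type*} [Group G]

local notation "k" => IsLocalRing.ResidueField A

/-! ### the residue disc of a chart -/

section Disc

variable {Fk : Type*} [Field Fk] [Algebra (IsLocalRing.ResidueField A) Fk]
variable [HasPrincipalDivisors (IsLocalRing.ResidueField A) Fk]

/-- the residue disc of a chart, with the parameter of the chart as its coordinate -/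
def discReg (Dd : N.DiscDatum A F Fk) {Q : Place (IsLocalRing.ResidueField A) Fk}
    (ch : NC.Chart Dd Q) : Region Dd.G where
  mem P := Dd.r P = some Q
  T := ch.t
  T_mem := ch.param.1.1
  T_red := by
    intro h0
    have h1 := ch.param.2
    rw [ch.ev_redF_t, map_zero, sub_zero, h0, Place.ord_zero] at h1
    exact zero_ne_one h1
  deg := fun P _ => ch.deg_one P
  reg := fun P hP => ch.param.1.2 P hP
  lt_one := fun P hP => ch.valuation_ev_lt_one hP
  ord_self := fun P hP => ch.param.ord_sub_ev hP (ch.deg_one P)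
  ord_ne := fun P P' hP hP' hne => ch.param.ord_sub_ev_of_ne hP hP' (ch.deg_one P) hne

theorem discReg_mem (Dd : N.DiscDatum A F Fk) {Q : Place (IsLocalRing.ResidueField A) Fk}
    (ch : NC.Chart Dd Q) (P : Place L F) : (discReg Dd ch).mem P ↔ Dd.r P = some Q := Iff.rfl

theorem discReg_sym {Dd : N.DiscDatum A F Fk} (S : N.DSym Dd G)
    {Q : Place (IsLocalRing.ResidueField A) Fk} (ch : NC.Chart Dd Q) (hfix : S.FixF ch.t) (g : G) :
    (discReg Dd ch).Sym (S.ρ g) :=
  ⟨hfix g, fun P => by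
    show Dd.r (S.ρ g • P) = some Q ↔ Dd.r P = some Q
    rw [S.r_smul]⟩

end Disc

variable {F₁ F₂ : Type*} [Field F₁] [Field F₂]
variable [Algebra (IsLocalRing.ResidueField A) F₁] [Algebra (IsLocalRing.ResidueField A) F₂]
variable [HasPrincipalDivisors (IsLocalRing.ResidueField A) F₁]
  [HasPrincipalDivisors (IsLocalRing.ResidueField A) F₂]

/-! ### the points of an annulus -/

section AnnPts

variable (D : Ann.AnnDatum A F F₁ F₂) {c : Fin D.nod.s} {P : Place L F}

theorem ord_z_eq_zero (hP : D.ann P = some c) : P.ord (D.z c) = 0 := by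
  have h := ord_sub_const_eq_zero (D.deg_ann P c hP) (D.z_regAt P c hP) (a := 0)
    (D.zval_ne_zero hP)
  rwa [map_zero, sub_zero] at h

theorem z_ne_zero (c : Fin D.nod.s) : D.z c ≠ 0 := by
  intro h
  have := D.z_red₁ c
  rw [h, D.nod.V₁.redF_zero] at this
  exact this rfl

theorem regAt_z_inv (hP : D.ann P = some c) : RegAt P (D.z c)⁻¹ := by
  rw [regAt_iff_ord, Place.ord_inv, ord_z_eq_zero D hP, neg_zero]

theorem ev_z_inv (hP : D.ann P = some c) : ev P (D.z c)⁻¹ = (D.zval c P)⁻¹ := by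
  have h1 := ev_mul (D.deg_ann P c hP) (D.z_regAt P c hP) (regAt_z_inv D hP)
  rw [mul_inv_cancel₀ (z_ne_zero D c), ev_one] at h1
  exact eq_inv_of_mul_eq_one_right h1.symm

theorem regAt_z' (hP : D.ann P = some c) : RegAt P (D.z' c) :=
  (regAt_const _).mul (regAt_z_inv D hP)

theorem ev_z' (hP : D.ann P = some c) : ev P (D.z' c) = D.pi c / D.zval c P := by
  unfold Ann.AnnDatum.z'
  rw [ev_mul (D.deg_ann P c hP) (regAt_const _) (regAt_z_inv D hP), ev_const, ev_z_inv D hP,
    div_eq_mul_inv]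

theorem val_ev_z'_lt_one (hP : D.ann P = some c) : A.valuation (ev P (D.z' c)) < 1 := by
  rw [ev_z' D hP, map_div₀]
  have h0 : 0 < A.valuation (D.zval c P) :=
    lt_of_le_of_ne zero_le ((Valuation.ne_zero_iff _).2 (D.zval_ne_zero hP)).symm
  exact (div_lt_one₀ h0).2 (D.pi_lt_z P c hP)

theorem z'_ne_zero (c : Fin D.nod.s) : D.z' c ≠ 0 :=
  mul_ne_zero ((_root_.map_ne_zero _).2 (D.pi_ne_zero c)) (inv_ne_zero (z_ne_zero D c))

/-- `z - z(P) = (z' - z'(P)) · z(P) · (-1/z')` -/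
theorem z_sub_eq (hP : D.ann P = some c) :
    D.z c - algebraMap L F (ev P (D.z c))
      = (D.z' c - algebraMap L F (ev P (D.z' c))) * algebraMap L F (ev P (D.z c)) * (-(D.z' c)⁻¹) := by
  rw [ev_z' D hP]
  have h1 : D.zval c P = ev P (D.z c) := rfl
  have h2 := D.zval_ne_zero hP
  rw [h1] at h2 ⊢
  have h3 : algebraMap L F (ev P (D.z c)) ≠ 0 := (_root_.map_ne_zero _).2 h2
  have h4 := z_ne_zero D c
  have h5 : algebraMap L F (D.pi c) ≠ 0 := (_root_.map_ne_zero _).2 (D.pi_ne_zero c)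
  unfold Ann.AnnDatum.z'
  rw [map_div₀]
  field_simp
  ring

/-- `z' - z'(P) = -(pi / z(P)) · (z - z(P)) · z⁻¹` -/
theorem z'_sub_eq (hP : D.ann P = some c) :
    D.z' c - algebraMap L F (ev P (D.z' c))
      = algebraMap L F (-(D.pi c / ev P (D.z c))) * (D.z c - algebraMap L F (ev P (D.z c)))
        * (D.z c)⁻¹ := by
  rw [ev_z' D hP]
  have h1 : D.zval c P = ev P (D.z c) := rfl
  have h2 := D.zval_ne_zero hP
  rw [h1] at h2 ⊢
  have h3 : algebraMap L F (ev P (D.z c)) ≠ 0 := (_root_.map_ne_zero _).2 h2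
  have h4 := z_ne_zero D c
  unfold Ann.AnnDatum.z'
  rw [map_neg, map_div₀]
  field_simp
  ring

theorem ord_z'_sub (hP : D.ann P = some c) :
    P.ord (D.z' c - algebraMap L F (ev P (D.z' c))) = 1 := by
  have h2 : ev P (D.z c) ≠ 0 := D.zval_ne_zero hP
  have hc : -(D.pi c / ev P (D.z c)) ≠ 0 := neg_ne_zero.2 (div_ne_zero (D.pi_ne_zero c) h2)
  have hzP : D.z c - algebraMap L F (ev P (D.z c)) ≠ 0 := by
    intro h
    have := D.z_ord P c hP
    rw [h, Place.ord_zero] at this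
    exact zero_ne_one this
  rw [z'_sub_eq D hP, P.ord_mul (mul_ne_zero ((_root_.map_ne_zero _).2 hc) hzP)
    (inv_ne_zero (z_ne_zero D c)), P.ord_mul ((_root_.map_ne_zero _).2 hc) hzP,
    S18lib.Cech.ord_const, D.z_ord P c hP, Place.ord_inv, ord_z_eq_zero D hP]
  norm_num

theorem ev_z'_injOn {P' : Place L F} (hP : D.ann P = some c) (hP' : D.ann P' = some c)
    (h : ev P (D.z' c) = ev P' (D.z' c)) : P = P' := by
  rw [ev_z' D hP, ev_z' D hP'] at h
  refine D.z_inj P P' c hP hP' ?_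
  have h1 := D.zval_ne_zero hP
  have h2 := D.zval_ne_zero hP'
  have h3 := D.pi_ne_zero c
  field_simp at h
  exact h.symm

end AnnPts

/-! ### the two annulus regions -/

/-- the annulus of the node `c` with the coordinate `z c` (first component) -/
def annReg₁ (D : Ann.AnnDatum A F F₁ F₂) (c : Fin D.nod.s) : Region D.D₁.G where
  mem P := D.ann P = some c
  T := D.z c
  T_mem := D.z_mem₁ c
  T_red := D.z_red₁ c
  deg := fun P hP => D.deg_ann P c hP
  reg := fun P hP => D.z_regAt P c hP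
  lt_one := fun P hP => D.z_lt_one P c hP
  ord_self := fun P hP => D.z_ord P c hP
  ord_ne := fun P P' hP hP' hne =>
    ord_sub_const_eq_zero (D.deg_ann P' c hP') (D.z_regAt P' c hP')
      fun h => hne (D.z_inj P P' c hP hP' h.symm)

/-- the annulus of the node `c` with the coordinate `z' c = pi c / z c` (second component) -/
def annReg₂ (D : Ann.AnnDatum A F F₁ F₂) (c : Fin D.nod.s) : Region D.D₂.G where
  mem P := D.ann P = some c
  T := D.z' c
  T_mem := D.z'_mem₂ c
  T_red := D.z'_red₂ c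
  deg := fun P hP => D.deg_ann P c hP
  reg := fun P hP => regAt_z' D hP
  lt_one := fun P hP => val_ev_z'_lt_one D hP
  ord_self := fun P hP => ord_z'_sub D hP
  ord_ne := fun P P' hP hP' hne =>
    ord_sub_const_eq_zero (D.deg_ann P' c hP') (regAt_z' D hP')
      fun h => hne (ev_z'_injOn D hP hP' h.symm)

variable (D : Ann.AnnDatum A F F₁ F₂)

theorem annReg₁_noZero (c : Fin D.nod.s) : (annReg₁ D c).NoZero := fun _ hP => D.zval_ne_zero hP

/-- **change of coordinates on an annulus** -/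
theorem annReg_fn_eq (c : Fin D.nod.s) (E : Divisor L F) :
    (annReg₁ D c).fn E = (annReg₂ D c).fn E * algebraMap L F ((annReg₁ D c).cst E)
      * (-(D.z' c)⁻¹) ^ (annReg₁ D c).rdeg E :=
  Region.fn_eq_mul_cst (R' := annReg₁ D c) (R'' := annReg₂ D c) (fun _ => Iff.rfl)
    (fun _ hP => z_sub_eq D hP) E

/-! ### symmetries -/

/-- the symmetries respect the annuli, and every residue disc has a fixed chart -/
structure AnnSym (S : N.NSym D.toNRedDatum G) : Prop where
  ann_smul : ∀ (g : G) (P : Place L F), D.ann (S.ρ g • P) = D.ann P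
  z_fix : ∀ (g : G) (c : Fin D.nod.s), S.ρ g • D.z c = D.z c
  pi_fix : ∀ (g : G) (c : Fin D.nod.s), S.hat g (D.pi c) = D.pi c
  chart₁ : ∀ Q : Place (IsLocalRing.ResidueField A) F₁, (∀ c, Q ≠ D.nod.x₁ c) →
    ∃ ch : NC.Chart D.D₁ Q, S.FixF ch.t
  chart₂ : ∀ Q : Place (IsLocalRing.ResidueField A) F₂, (∀ c, Q ≠ D.nod.x₂ c) →
    ∃ ch : NC.Chart D.D₂ Q, S.FixF ch.t

variable {D} {S : N.NSym D.toNRedDatum G}

theorem AnnSym.z'_fix (hS : AnnSym D S) (g : G) (c : Fin D.nod.s) : S.ρ g • D.z' c = D.z' c := by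
  unfold Ann.AnnDatum.z'
  rw [smul_mul', smul_inv'', hS.z_fix, SemilinearAut.smul_algebraMap]
  congr 2
  exact hS.pi_fix g c

theorem AnnSym.sym₁ (hS : AnnSym D S) (c : Fin D.nod.s) (g : G) : (annReg₁ D c).Sym (S.ρ g) :=
  ⟨hS.z_fix g c, fun P => by
    show D.ann (S.ρ g • P) = some c ↔ D.ann P = some c
    rw [hS.ann_smul]⟩

theorem AnnSym.sym₂ (hS : AnnSym D S) (c : Fin D.nod.s) (g : G) : (annReg₂ D c).Sym (S.ρ g) :=
  ⟨hS.z'_fix g c, fun P => by
    show D.ann (S.ρ g • P) = some c ↔ D.ann P = some c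
    rw [hS.ann_smul]⟩

/-! ### the two sides -/

variable {g₀ g₁ g₂ : ℕ}

/-- the first component -/
def side₁ (C : NodalCtx D.nod g₀ g₁ g₂) (hS : AnnSym D S) (hGlue : D.GlueAnn) :
    Side S.toIAct F₁ F₂ where
  Dd := D.D₁
  W := D.nod.V₂
  gk := g₁
  hFk := C.hF₁
  s := D.nod.s
  x := D.nod.x₁
  pi := D.pi
  ann := annReg₁ D
  ann_sym := hS.sym₁
  ann_ord := D.z_ord₁
  ann_W := fun c => by
    refine ⟨(D.z' c)⁻¹, D.nod.V₂.inv_mem_of_redF_ne_zero (D.z'_red₂ c), ?_⟩
    show D.z c = algebraMap L F (D.pi c) * (D.z' c)⁻¹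
    unfold Ann.AnnDatum.z'
    rw [mul_inv, inv_inv, ← mul_assoc,
      mul_inv_cancel₀ ((_root_.map_ne_zero _).2 (D.pi_ne_zero c)), one_mul]
  glue := fun f c h1 h2 h0 hreg => by
    obtain ⟨α, hα1, hα2⟩ := hGlue f c h1 h2 hreg
    rw [h0] at hα2
    rw [hα2.eq_zero_of_eq_zero] at hα1
    exact hα1
  good := fun Q hQ => by
    obtain ⟨P, hP⟩ := D.r_surj₁ Q hQ
    exact ⟨P, N.fst?_eq_some.2 hP⟩
  disc := fun Q hQ => by
    obtain ⟨ch, hch⟩ := hS.chart₁ Q hQ
    exact ⟨discReg D.D₁ ch, fun P => Iff.rfl, fun g => discReg_sym S.S₁ ch hch g⟩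

/-- the second component -/
def side₂ (C : NodalCtx D.nod g₀ g₁ g₂) (hS : AnnSym D S) (hGlue : D.GlueAnn) :
    Side S.toIAct F₂ F₁ where
  Dd := D.D₂
  W := D.nod.V₁
  gk := g₂
  hFk := C.hF₂
  s := D.nod.s
  x := D.nod.x₂
  pi := D.pi
  ann := annReg₂ D
  ann_sym := hS.sym₂
  ann_ord := D.z'_ord₂
  ann_W := fun c => ⟨(D.z c)⁻¹, D.nod.V₁.inv_mem_of_redF_ne_zero (D.z_red₁ c), rfl⟩
  glue := fun f c h2 h1 h0 hreg => by
    obtain ⟨α, hα1, hα2⟩ := hGlue f c h1 h2 hreg
    rw [h0] at hα1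
    rw [hα1.eq_zero_of_eq_zero] at hα2
    exact hα2
  good := fun Q hQ => by
    obtain ⟨P, hP⟩ := D.r_surj₂ Q hQ
    exact ⟨P, N.snd?_eq_some.2 hP⟩
  disc := fun Q hQ => by
    obtain ⟨ch, hch⟩ := hS.chart₂ Q hQ
    exact ⟨discReg D.D₂ ch, fun P => Iff.rfl, fun g => discReg_sym S.S₂ ch hch g⟩

end Fermat.Agent.S44lib.M

end
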