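/-
S44lib / M / MPrime  (helper7)  — Project LSq, block Q2b = (M′): **the statement (M′)**.

`x = [Dv] ∈ J[p]`, `p • Dv = div h`.  The slope law for `h` on the annulus `c` reads
`|a₁| · |Z_c|^p = |a₂| · |π_c|^{n₂(c)}`, `Z_c = ∏_{P ∈ annulus c} z_c(P)^{Dv(P)}`, `n_i(c)` the node orders of the
reductions of `h` (`= cMap_i x c` modulo `p`), and `n₁(c) + n₂(c) = p · deg_c Dv`.

* `mprime_core` : the arithmetic.  If `|π_c| = |ϖ|^{T₀ q e_c}` (`p ∤ q`), `radProd c h = |ϖ|^{R_c}` with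
  `p T₀ ∣ R_c - R_{c'}`, then `p ∣ e_c n_i(c) - e_{c'} n_i(c')`  (`i = 1, 2`).
* **`mprime_nonsplit`** : `x` rational over `K' = K₁(w)` (non-split), by break-one rigidity (`rigid`):
  `(e c) · cMap_i x c = (e c') · cMap_i x c'` in `ZMod p`, `|π_c| = |ϖ|^{p q e_c}`.
* **`mprime_split`** : `x` rational over `K₁` (tame case): the same with `|π_c| = |λ|^{q e_c}`, `λ` a uniformizer
  of `K₁`; no rigidity needed.
-/
import Fermat.Agent.S44lib.M.Rigid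

set_option autoImplicit false
set_option linter.unusedSectionVars false

noncomputable section

namespace Fermat.Agent.S44lib.M

open Fermat.Agent.S18lib AlgebraicCurve Polynomial Fermat.Agent.S19lib.C Fermat.Agent.LSb
open Fermat.Agent.S33lib

variable {L : Type*} [Field L] {A : ValuationSubring L}
variable {F : Type*} [Field F] [Algebra L F] [HasPrincipalDivisors L F]
variable {G : Type*} [Group G]

local notation "k" => IsLocalRing.ResidueField A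

variable {F₁ F₂ : Type*} [Field F₁] [Field F₂]
variable [Algebra (IsLocalRing.ResidueField A) F₁] [Algebra (IsLocalRing.ResidueField A) F₂]
variable [HasPrincipalDivisors (IsLocalRing.ResidueField A) F₁]
  [HasPrincipalDivisors (IsLocalRing.ResidueField A) F₂]

variable {D : Ann.AnnDatum A F F₁ F₂}

theorem Region.rdeg_nsmul {Fk : Type*} [Field Fk] [Algebra (IsLocalRing.ResidueField A) Fk]
    {V : GaussDatum A F Fk} (R : Region V) (n : ℕ) (E : Divisor L F) :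
    R.rdeg (n • E) = n * R.rdeg E := by
  induction n with
  | zero => rw [zero_smul, R.rdeg_zero, Nat.cast_zero, zero_mul]
  | succ n ih => rw [succ_nsmul, R.rdeg_add, ih]; push_cast; ring

/-- **the arithmetic of Step 4** -/
theorem mprime_core {p : ℕ} (hp : p.Prime) {ϖ : L} (hϖ0 : ϖ ≠ 0) (hϖ1 : A.valuation ϖ < 1)
    (hlaw : SlopeLaw D) (T₀ q : ℕ) (hT₀ : 0 < T₀) (hq : ¬ p ∣ q) (e : Fin D.nod.s → ℕ)
    (hthick : ∀ c, A.valuation (D.pi c) = A.valuation ϖ ^ ((T₀ * q * e c : ℕ) : ℤ))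
    {h : F} (hh0 : h ≠ 0) (R : Fin D.nod.s → ℤ) (hR : ∀ c, D.radProd c h = A.valuation ϖ ^ R c)
    (hRp : ∀ c c', ((p * T₀ : ℕ) : ℤ) ∣ R c - R c') (hdeg : ∀ c, (p : ℤ) ∣ D.annDeg c h)
    {a₁ a₂ : L} {n₁ n₂ : Fin D.nod.s → ℤ} (hs₁ : ∀ c, D.Slope₁ c h a₁ (n₁ c))
    (hs₂ : ∀ c, D.Slope₂ c h a₂ (n₂ c)) (c c' : Fin D.nod.s) :
    (p : ℤ) ∣ e c * n₁ c - e c' * n₁ c' ∧ (p : ℤ) ∣ e c * n₂ c - e c' * n₂ c' := by
  have hv0 : 0 < A.valuation ϖ :=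
    lt_of_le_of_ne zero_le ((Valuation.ne_zero_iff _).2 hϖ0).symm
  have hv1 : A.valuation ϖ ≠ 1 := hϖ1.ne
  have ha₁ : A.valuation a₁ ≠ 0 := (Valuation.ne_zero_iff _).2 (hs₁ c).1
  -- the law at `c` and `c'`
  have key : ∀ c, n₁ c + n₂ c = D.annDeg c h ∧ A.valuation a₁ * A.valuation ϖ ^ R c
      = A.valuation a₂ * A.valuation ϖ ^ (((T₀ * q * e c : ℕ) : ℤ) * n₂ c) := by
    intro c
    obtain ⟨h1, h2⟩ := hlaw h hh0 c a₁ a₂ _ _ (hs₁ c) (hs₂ c)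
    rw [hR c, hthick c, ← zpow_mul] at h2
    exact ⟨h1, h2⟩
  obtain ⟨hd, hE⟩ := key c
  obtain ⟨hd', hE'⟩ := key c'
  set U : ℤ := ((T₀ * q * e c : ℕ) : ℤ) * n₂ c with hU
  set U' : ℤ := ((T₀ * q * e c' : ℕ) : ℤ) * n₂ c' with hU'
  have h3 : A.valuation ϖ ^ (R c + U') = A.valuation ϖ ^ (R c' + U) := by
    apply mul_left_cancel₀ ha₁
    rw [zpow_add₀ hv0.ne', zpow_add₀ hv0.ne', ← mul_assoc, ← mul_assoc, hE, hE', mul_assoc,
      mul_assoc, mul_comm (A.valuation ϖ ^ U)]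
  have h4 : R c + U' = R c' + U := (zpow_right_inj₀ hv0 hv1).1 h3
  -- `T₀ q t = R c - R c'`
  set t : ℤ := e c * n₂ c - e c' * n₂ c' with ht
  have h5 : (T₀ : ℤ) * ((q : ℤ) * t) = R c - R c' := by
    rw [hU, hU'] at h4
    push_cast at h4
    rw [ht]
    linarith
  obtain ⟨j, hj⟩ := hRp c c'
  have h6 : (q : ℤ) * t = p * j := by
    have hT : (T₀ : ℤ) ≠ 0 := by exact_mod_cast hT₀.ne'
    apply mul_left_cancel₀ hT
    rw [h5, hj]
    push_cast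
    ring
  have h7 : (p : ℤ) ∣ t := by
    have hpz : Prime (p : ℤ) := Nat.prime_iff_prime_int.mp hp
    rcases hpz.dvd_or_dvd (Dvd.intro j h6.symm) with h | h
    · exact absurd (Int.natCast_dvd_natCast.1 h) hq
    · exact h
  refine ⟨?_, h7⟩
  obtain ⟨u, hu⟩ := hdeg c
  obtain ⟨u', hu'⟩ := hdeg c'
  have h8 : e c * n₁ c - e c' * n₁ c' = p * (e c * u - e c' * u') - t := by
    have e1 : n₁ c = D.annDeg c h - n₂ c := by linarith
    have e2 : n₁ c' = D.annDeg c' h - n₂ c' := by linarith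
    rw [e1, e2, hu, hu', ht]
    ring
  rw [h8]
  exact dvd_sub (Dvd.intro _ rfl) h7

/-- the radius product and the annulus degree of `h` with `div h = p • Dv` -/
theorem radProd_of_smul {p : ℕ} {Dv : Divisor L F} {h : F}
    (hhdiv : ∀ P : Place L F, P.ord h = (p : ℤ) * Dv P) (c : Fin D.nod.s) :
    D.radProd c h = A.valuation ((annReg₁ D c).cst Dv) ^ p ∧
      D.annDeg c h = p * (annReg₁ D c).rdeg Dv := by
  have hdivOf : divOf (K := L) h = p • Dv := by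
    ext P
    rw [divOf_apply', hhdiv, Finsupp.smul_apply, nsmul_eq_mul]
  constructor
  · rw [radProd_eq_val_cst, hdivOf, Region.cst_nsmul (annReg₁_noZero D c), map_pow]
  · rw [annDeg_eq_rdeg, hdivOf, Region.rdeg_nsmul]

variable {S : N.NSym D.toNRedDatum G} {g₀ g₁ g₂ : ℕ}
variable {H' : Subgroup G} {τ : G} {ϖ β : L}

/-- a `p`-torsion class `[D₀]` has a Kummer function -/
theorem exists_kummer_fun {p : ℕ} (x : Pic0.torsion L F p) (D₀ : Divisor.degZero (K := L) (F := F))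
    (hx : Pic0.mk D₀ = (x : Pic0 L F)) :
    ∃ h : F, h ≠ 0 ∧ ∀ P : Place L F, P.ord h = (p : ℤ) * (D₀ : Divisor L F) P := by
  have h0 : (p : ℤ) • (x : Pic0 L F) = 0 := Pic0.mem_torsion.1 x.2
  rw [← hx] at h0
  have h1 : Pic0.mk ((p : ℤ) • D₀) = 0 := h0
  have h2 := (QuotientAddGroup.eq_zero_iff _).1 h1
  rw [AddSubgroup.mem_addSubgroupOf] at h2
  obtain ⟨z, hz0, hz⟩ := h2
  refine ⟨z, hz0, fun P => ?_⟩
  rw [← hz P]
  simp

/-- from node orders to `cMap` -/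
theorem cMap_of_slopes {p : ℕ} (hp : p.Prime) (C : NodalCtx D.nod g₀ g₁ g₂)
    (x : Pic0.torsion L F p) (D₀ : Divisor.degZero (K := L) (F := F))
    (hx : Pic0.mk D₀ = (x : Pic0 L F)) {h : F} (hh0 : h ≠ 0)
    (hhdiv : ∀ P : Place L F, P.ord h = (p : ℤ) * (D₀ : Divisor L F) P)
    (e : Fin D.nod.s → ℕ) {a₁ a₂ : L} {n₁ n₂ : Fin D.nod.s → ℤ}
    (hs₁ : ∀ c, D.Slope₁ c h a₁ (n₁ c)) (hs₂ : ∀ c, D.Slope₂ c h a₂ (n₂ c)) (c c' : Fin D.nod.s)
    (hd : (p : ℤ) ∣ e c * n₁ c - e c' * n₁ c' ∧ (p : ℤ) ∣ e c * n₂ c - e c' * n₂ c') :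
    (e c : ZMod p) * Kap.cMap₁ D.toNRedDatum C p x c
        = (e c' : ZMod p) * Kap.cMap₁ D.toNRedDatum C p x c' ∧
      (e c : ZMod p) * Kap.cMap₂ D.toNRedDatum C p x c
        = (e c' : ZMod p) * Kap.cMap₂ D.toNRedDatum C p x c' := by
  haveI : Fact p.Prime := ⟨hp⟩
  have hord : ∀ (a : L), a ≠ 0 → ∀ P : Place L F,
      P.ord ((algebraMap L F a)⁻¹ * h) = (p : ℤ) * (D₀ : Divisor L F) P := by
    intro a ha P
    rw [P.ord_mul (inv_ne_zero ((_root_.map_ne_zero _).2 ha)) hh0, Place.ord_inv,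
      S18lib.Cech.ord_const, neg_zero, zero_add, hhdiv]
  have hz₁ : (algebraMap L F a₁)⁻¹ * h ≠ 0 :=
    mul_ne_zero (inv_ne_zero ((_root_.map_ne_zero _).2 (hs₁ c).1)) hh0
  have hz₂ : (algebraMap L F a₂)⁻¹ * h ≠ 0 :=
    mul_ne_zero (inv_ne_zero ((_root_.map_ne_zero _).2 (hs₂ c).1)) hh0
  have hc₁ : ∀ c, Kap.cMap₁ D.toNRedDatum C p x c = ((n₁ c : ℤ) : ZMod p) := by
    intro c
    rw [Kap.cMap₁_eq D.toNRedDatum C x hx hz₁ (hord a₁ (hs₁ c).1) (hs₁ c).2.2.1 c, (hs₁ c).2.2.2]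
  have hc₂ : ∀ c, Kap.cMap₂ D.toNRedDatum C p x c = ((n₂ c : ℤ) : ZMod p) := by
    intro c
    rw [Kap.cMap₂_eq D.toNRedDatum C x hx hz₂ (hord a₂ (hs₂ c).1) (hs₂ c).2.2.1 c, (hs₂ c).2.2.2]
  constructor
  · rw [hc₁, hc₁, ← sub_eq_zero]
    have := (ZMod.intCast_zmod_eq_zero_iff_dvd (e c * n₁ c - e c' * n₁ c') p).2 hd.1
    push_cast at this
    exact this
  · rw [hc₂, hc₂, ← sub_eq_zero]
    have := (ZMod.intCast_zmod_eq_zero_iff_dvd (e c * n₂ c - e c' * n₂ c') p).2 hd.2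
    push_cast at this
    exact this

/-- normalising constants and node orders on both components -/
theorem exists_all_slopes (D : Ann.AnnDatum A F F₁ F₂) {h : F} (hh0 : h ≠ 0) :
    ∃ (a₁ a₂ : L) (n₁ n₂ : Fin D.nod.s → ℤ), (∀ c, D.Slope₁ c h a₁ (n₁ c)) ∧
      ∀ c, D.Slope₂ c h a₂ (n₂ c) := by
  obtain ⟨e₁, he₁, hr₁⟩ := D.nod.V₁.exists_const_mul_redF_ne_zero hh0
  obtain ⟨e₂, he₂, hr₂⟩ := D.nod.V₂.exists_const_mul_redF_ne_zero hh0
  have hi₁ : (algebraMap L F e₁⁻¹)⁻¹ = algebraMap L F e₁ := by rw [map_inv₀, inv_inv]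
  have hi₂ : (algebraMap L F e₂⁻¹)⁻¹ = algebraMap L F e₂ := by rw [map_inv₀, inv_inv]
  refine ⟨e₁⁻¹, e₂⁻¹, fun c => (D.nod.x₁ c).ord (D.nod.V₁.redF ((algebraMap L F e₁⁻¹)⁻¹ * h)),
    fun c => (D.nod.x₂ c).ord (D.nod.V₂.redF ((algebraMap L F e₂⁻¹)⁻¹ * h)), fun c => ?_, fun c => ?_⟩
  · refine ⟨inv_ne_zero he₁, ?_, ?_, rfl⟩ <;> rw [hi₁]
    · exact D.nod.V₁.mem_of_redF_ne_zero hr₁
    · exact hr₁
  · refine ⟨inv_ne_zero he₂, ?_, ?_, rfl⟩ <;> rw [hi₂]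
    · exact D.nod.V₂.mem_of_redF_ne_zero hr₂
    · exact hr₂

/-- **(M′), non-split case**: `x = [Dp - Dm]` rational over `K' = K₁(w)`, `τ x - x = [Ep - Em]` rational over
`K₁` in the kernel of reduction -/
theorem mprime_nonsplit {p : ℕ} (hp : p.Prime) [CharP (IsLocalRing.ResidueField A) p]
    (C : NodalCtx D.nod g₀ g₁ g₂) (hB : BreakOne S.toIAct H' τ ϖ β) (hS : AnnSym D S)
    (hGlue : D.GlueAnn) (hlaw : SlopeLaw D)
    (hsm : ∀ a : L, (∀ g : G, S.hat g a = a) → A.valuation a < 1 →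
      A.valuation a ≤ A.valuation (ϖ ^ 2))
    (hpi : ∀ c, A.valuation (D.pi c) ≤ A.valuation (ϖ ^ 2))
    (X : TwistData S.toIAct H') (hEp : D.SmoothSupp X.Ep) (hEm : D.SmoothSupp X.Em)
    (hp₁ : D.push₁ X.Ep = D.push₁ X.Em) (hp₂ : D.push₂ X.Ep = D.push₂ X.Em)
    {g : F} (hg0 : g ≠ 0) (hdiv : ∀ P : Place L F, P.ord g = X.div τ P)
    (q : ℕ) (hq : ¬ p ∣ q) (e : Fin D.nod.s → ℕ)
    (hthick : ∀ c, A.valuation (D.pi c) = A.valuation ϖ ^ ((p * q * e c : ℕ) : ℤ))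
    (x : Pic0.torsion L F p) (D₀ : Divisor.degZero (K := L) (F := F))
    (hx : Pic0.mk D₀ = (x : Pic0 L F)) (hD₀ : (D₀ : Divisor L F) = X.Dp - X.Dm)
    (c c' : Fin D.nod.s) :
    (e c : ZMod p) * Kap.cMap₁ D.toNRedDatum C p x c
        = (e c' : ZMod p) * Kap.cMap₁ D.toNRedDatum C p x c' ∧
      (e c : ZMod p) * Kap.cMap₂ D.toNRedDatum C p x c
        = (e c' : ZMod p) * Kap.cMap₂ D.toNRedDatum C p x c' := by
  obtain ⟨h, hh0, hhdiv⟩ := exists_kummer_fun x D₀ hx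
  obtain ⟨a₁, a₂, n₁, n₂, hs₁, hs₂⟩ := exists_all_slopes D hh0
  -- the exponents of the constants `Z_c`
  have hZ : ∀ c, ∃ m : ℤ, A.valuation ((annReg₁ D c).cst (X.Dp - X.Dm)) = A.valuation ϖ ^ m :=
    fun c => hB.val _ (Region.cst_ne_zero (annReg₁_noZero D c) _) (cst_D_fixed hS X c)
  choose m hm using hZ
  have hrig : ∀ c c', (p : ℤ) ∣ m c - m c' := fun c c' =>
    rigid p C hB hS hGlue hlaw hsm hpi X hEp hEm hp₁ hp₂ hg0 hdiv c c' (m c) (m c') (hm c) (hm c')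
  have hhdiv' : ∀ P : Place L F, P.ord h = (p : ℤ) * (X.Dp - X.Dm) P := by
    intro P; rw [hhdiv, hD₀]
  refine cMap_of_slopes hp C x D₀ hx hh0 hhdiv e hs₁ hs₂ c c' ?_
  refine mprime_core hp hB.ne_zero hB.lt_one hlaw p q hp.pos hq e hthick hh0 (fun c => m c * p)
    (fun c => ?_) (fun c c' => ?_) (fun c => ?_) hs₁ hs₂ c c'
  · rw [(radProd_of_smul hhdiv' c).1, hm c, ← zpow_natCast, ← zpow_mul]
  · obtain ⟨j, hj⟩ := hrig c c'
    refine ⟨j, ?_⟩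
    have : m c * p - m c' * p = (m c - m c') * p := by ring
    rw [this, hj]
    push_cast
    ring
  · rw [(radProd_of_smul hhdiv' c).2]
    exact Dvd.intro _ rfl

/-- **(M′), split (tame) case**: `x = [Dv]` rational over `K₁` -/
theorem mprime_split {p : ℕ} (hp : p.Prime) (C : NodalCtx D.nod g₀ g₁ g₂) (hS : AnnSym D S)
    (hlaw : SlopeLaw D) {lam : L} (hlam0 : lam ≠ 0) (hlam1 : A.valuation lam < 1)
    (hK₁ : ∀ a : L, a ≠ 0 → (∀ g : G, S.hat g a = a) → ∃ n : ℤ, A.valuation a = A.valuation lam ^ n)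
    (q : ℕ) (hq : ¬ p ∣ q) (e : Fin D.nod.s → ℕ)
    (hthick : ∀ c, A.valuation (D.pi c) = A.valuation lam ^ ((q * e c : ℕ) : ℤ))
    (x : Pic0.torsion L F p) (D₀ : Divisor.degZero (K := L) (F := F))
    (hx : Pic0.mk D₀ = (x : Pic0 L F)) (hst : ∀ g : G, S.ρ g • (D₀ : Divisor L F) = D₀)
    (c c' : Fin D.nod.s) :
    (e c : ZMod p) * Kap.cMap₁ D.toNRedDatum C p x c
        = (e c' : ZMod p) * Kap.cMap₁ D.toNRedDatum C p x c' ∧
      (e c : ZMod p) * Kap.cMap₂ D.toNRedDatum C p x c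
        = (e c' : ZMod p) * Kap.cMap₂ D.toNRedDatum C p x c' := by
  obtain ⟨h, hh0, hhdiv⟩ := exists_kummer_fun x D₀ hx
  obtain ⟨a₁, a₂, n₁, n₂, hs₁, hs₂⟩ := exists_all_slopes D hh0
  have hZ : ∀ c, ∃ n : ℤ, A.valuation ((annReg₁ D c).cst (D₀ : Divisor L F)) = A.valuation lam ^ n :=
    fun c => hK₁ _ (Region.cst_ne_zero (annReg₁_noZero D c) _)
      fun g => Region.cst_fixed (hS.sym₁ c g) (hst g)
  choose m hm using hZ
  refine cMap_of_slopes hp C x D₀ hx hh0 hhdiv e hs₁ hs₂ c c' ?_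
  have hthick' : ∀ c, A.valuation (D.pi c) = A.valuation lam ^ ((1 * q * e c : ℕ) : ℤ) := by
    intro c; rw [one_mul]; exact hthick c
  refine mprime_core hp hlam0 hlam1 hlaw 1 q one_pos hq e hthick' hh0 (fun c => m c * p)
    (fun c => ?_) (fun c c' => ?_) (fun c => ?_) hs₁ hs₂ c c'
  · rw [(radProd_of_smul hhdiv c).1, hm c, ← zpow_natCast, ← zpow_mul]
  · refine ⟨m c - m c', ?_⟩
    push_cast
    ring
  · rw [(radProd_of_smul hhdiv c).2]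
    exact Dvd.intro _ rfl

end Fermat.Agent.S44lib.M

end
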