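/-
S44lib / M / Rep  (helper7)  — Project LSq, block Q2b = (M′): **rational representatives (R)**.

The divisors of the rigidity argument (`M/Break.TwistData`), produced from the hypotheses of (M′):

* `dpos`, `dneg` : the positive / negative part of a divisor (`E = dpos E - dneg E`, both effective, and a
  semilinear automorphism stabilising `E` stabilises both);
* `exists_stable_parts` **(R1)** : a class `x ∈ Pic⁰` fixed by a set `T` of semilinear automorphisms with a
  fixed place is `[Dp - Dm]`, `Dp, Dm ≥ 0` both `T`-stable  (class descent without cocycles: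
  `S36lib.J.exists_stable_divisor`);
* `NSym.comap`, `NFam.comap` : restriction of the symmetries along a group homomorphism;
* `exists_fixed_rep` **(R2)** : a `G`-fixed class `z` in the kernel of reduction is `[a.Dv u - a.E]` with
  `a.Dv u` (and `a.E`) `G`-stable  (`Θ_a` bijective from the polydisc onto `NKred`, equivariant);
* `exists_twistData` **(R1) + (R2) + (R3)** : `x` fixed by `H'`, `ℓ₀ = τ x - x ∈ NKred` fixed by `G`  ⟹
  a `TwistData` with `x = [Dp - Dm]`, `Ep, Em` on the smooth locus with equal push-forwards, and a function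
  `g ≠ 0` with `div g = τ(Dp - Dm) - (Dp - Dm) - (Ep - Em)`  — exactly the inputs of `M/Rigid.rigid` and
  `M/MPrime.mprime_nonsplit`.
-/
import Fermat.Agent.S44lib.M.Break
import Fermat.Agent.S36lib.J.ClassDescent
import Fermat.Agent.S33lib.N.Transport

set_option autoImplicit false
set_option linter.unusedSectionVars false

noncomputable section

namespace Fermat.Agent.S44lib.M

open Fermat.Agent.S18lib AlgebraicCurve Fermat.Agent.S19lib.C Fermat.Agent.LSb
open Fermat.Agent.S33lib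
open Fermat.Agent.S19lib (PolyDisc)

variable {L : Type*} [Field L] {A : ValuationSubring L}
variable {F : Type*} [Field F] [Algebra L F]

/-! ### positive and negative parts -/

/-- the positive part of a divisor -/
def dpos (E : Divisor L F) : Divisor L F := Finsupp.mapRange (fun n : ℤ => max n 0) (max_self 0) E

/-- the negative part of a divisor -/
def dneg (E : Divisor L F) : Divisor L F :=
  Finsupp.mapRange (fun n : ℤ => max (-n) 0) (by simp) E

theorem dpos_apply (E : Divisor L F) (P : Place L F) : dpos E P = max (E P) 0 :=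
  Finsupp.mapRange_apply

theorem dneg_apply (E : Divisor L F) (P : Place L F) : dneg E P = max (-E P) 0 :=
  Finsupp.mapRange_apply

theorem dpos_sub_dneg (E : Divisor L F) : dpos E - dneg E = E := by
  ext P
  rw [Finsupp.sub_apply, dpos_apply, dneg_apply]
  rcases le_total 0 (E P) with h | h
  · rw [max_eq_left h, max_eq_right (by linarith)]; ring
  · rw [max_eq_right h, max_eq_left (by linarith)]; ring

theorem dpos_nonneg (E : Divisor L F) : 0 ≤ dpos E := fun P => by
  rw [dpos_apply]; exact le_max_right _ _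

theorem dneg_nonneg (E : Divisor L F) : 0 ≤ dneg E := fun P => by
  rw [dneg_apply]; exact le_max_right _ _

theorem smul_dpos (γ : SemilinearAut L F) (E : Divisor L F) : γ • dpos E = dpos (γ • E) := by
  ext P
  rw [SemilinearAut.divisor_smul_apply, dpos_apply, dpos_apply, SemilinearAut.divisor_smul_apply]

theorem smul_dneg (γ : SemilinearAut L F) (E : Divisor L F) : γ • dneg E = dneg (γ • E) := by
  ext P
  rw [SemilinearAut.divisor_smul_apply, dneg_apply, dneg_apply, SemilinearAut.divisor_smul_apply]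

/-! ### (R1) -/

/-- **(R1)** a class fixed by `T` (with a `T`-fixed place) is the class of a difference of two
`T`-stable effective divisors -/
theorem exists_stable_parts {gF : ℕ} (hF : IsCurveOfGenus L F gF) (T : Set (SemilinearAut L F))
    (P₀ : Place L F) (hP₀ : ∀ γ ∈ T, γ • P₀ = P₀) (x : Pic0 L F) (hx : ∀ γ ∈ T, γ • x = x) :
    ∃ (E : Divisor.degZero (K := L) (F := F)) (Dp Dm : Divisor L F), Pic0.mk E = x ∧
      (E : Divisor L F) = Dp - Dm ∧ 0 ≤ Dp ∧ 0 ≤ Dm ∧ (∀ γ ∈ T, γ • Dp = Dp) ∧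
      ∀ γ ∈ T, γ • Dm = Dm := by
  obtain ⟨E, hE, hst⟩ := Fermat.Agent.S36lib.J.exists_stable_divisor hF T P₀ hP₀ x hx
  refine ⟨E, dpos (E : Divisor L F), dneg (E : Divisor L F), hE, (dpos_sub_dneg _).symm,
    dpos_nonneg _, dneg_nonneg _, fun γ hγ => ?_, fun γ hγ => ?_⟩
  · rw [smul_dpos, hst γ hγ]
  · rw [smul_dneg, hst γ hγ]

/-! ### restriction of the symmetries -/

variable {F₁ F₂ : Type*} [Field F₁] [Field F₂]
variable [Algebra (IsLocalRing.ResidueField A) F₁] [Algebra (IsLocalRing.ResidueField A) F₂]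
variable [HasPrincipalDivisors L F]
variable {G G' : Type*} [Group G] [Group G']

/-- restriction of an inertia action along a group homomorphism -/
def iActComap (S : N.IAct A F G) (φ : G' →* G) : N.IAct A F G' where
  ρ := S.ρ.comp φ
  mem_A := fun g a ha => S.mem_A (φ g) a ha
  residue_base := fun g a => S.residue_base (φ g) a

/-- restriction of the symmetries of a nodal reduction datum along a group homomorphism -/
def nSymComap {D : N.NRedDatum A F F₁ F₂} (S : N.NSym D G) (φ : G' →* G) : N.NSym D G' where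
  toIAct := iActComap S.toIAct φ
  mem_O₁ := fun g f hf => S.mem_O₁ (φ g) f hf
  mem_O₂ := fun g f hf => S.mem_O₂ (φ g) f hf
  redF₁_smul := fun g f hf => S.redF₁_smul (φ g) f hf
  redF₂_smul := fun g f hf => S.redF₂_smul (φ g) f hf
  r_smul := fun g P => S.r_smul (φ g) P

@[simp] theorem nSymComap_ρ {D : N.NRedDatum A F F₁ F₂} (S : N.NSym D G) (φ : G' →* G) (g : G') :
    (nSymComap S φ).ρ g = S.ρ (φ g) := rfl

@[simp] theorem nSymComap_hat {D : N.NRedDatum A F F₁ F₂} (S : N.NSym D G) (φ : G' →* G) (g : G')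
    (a : L) : (nSymComap S φ).hat g a = S.hat (φ g) a := rfl

variable [HasPrincipalDivisors (IsLocalRing.ResidueField A) F₁]
  [HasPrincipalDivisors (IsLocalRing.ResidueField A) F₂]

/-- restriction of a chart family -/
def nFamComap {D : N.NRedDatum A F F₁ F₂} {S : N.NSym D G} {g₀ : ℕ} (a : N.NFam D S g₀)
    (φ : G' →* G) : N.NFam D (nSymComap S φ) g₀ where
  Qb := a.Qb
  ch := a.ch
  inj := a.inj
  fixT := fun i g => a.fixT i (φ g)
  fixP := fun i g => a.fixP i (φ g)
  nonspecial := a.nonspecial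
  deg_one := a.deg_one

theorem nFamComap_Dv {D : N.NRedDatum A F F₁ F₂} {S : N.NSym D G} {g₀ : ℕ} (a : N.NFam D S g₀)
    (φ : G' →* G) (u : Fin g₀ → L) : (nFamComap a φ).Dv u = a.Dv u := rfl

theorem nFamComap_E {D : N.NRedDatum A F F₁ F₂} {S : N.NSym D G} {g₀ : ℕ} (a : N.NFam D S g₀)
    (φ : G' →* G) : (nFamComap a φ).E = a.E := rfl

theorem nFamComap_Θ {D : N.NRedDatum A F F₁ F₂} {S : N.NSym D G} {g₀ : ℕ} (a : N.NFam D S g₀)
    (φ : G' →* G) (u : Fin g₀ → L) : (nFamComap a φ).Θ u = a.Θ u := rfl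

/-! ### (R2) -/

variable {D : N.NRedDatum A F F₁ F₂} {S : N.NSym D G} {g₀ : ℕ}

theorem smul_Dv (a : N.NFam D S g₀) (g : G) {u : Fin g₀ → L} (hu : u ∈ PolyDisc A (Fin g₀)) :
    S.ρ g • a.Dv u = a.Dv fun i => S.hat g (u i) := by
  rw [N.NFam.Dv, N.NFam.Dv, Finset.smul_sum]
  refine Finset.sum_congr rfl fun i _ => ?_
  rw [SemilinearAut.smul_single, (a.ch i).smul_pt S (a.fixT i) g (hu i)]
  rfl

theorem fixD_E (a : N.NFam D S g₀) : S.FixD a.E := fun g => by
  rw [N.NFam.E, Finset.smul_sum]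
  refine Finset.sum_congr rfl fun i _ => ?_
  rw [SemilinearAut.smul_single, a.fixP i g]

/-- **(R2)** a fixed class in the kernel of reduction has stable coordinates -/
theorem exists_fixed_rep (a : N.NFam D S g₀)
    (hsurj : ∀ z ∈ N.NKred D, ∃ u ∈ PolyDisc A (Fin g₀), a.Θ u = z)
    (hinj : ∀ u ∈ PolyDisc A (Fin g₀), ∀ u' ∈ PolyDisc A (Fin g₀), a.Θ u = a.Θ u' → u = u')
    {z : Pic0 L F} (hz : z ∈ N.NKred D) (hfix : ∀ g : G, S.ρ g • z = z) :
    ∃ u ∈ PolyDisc A (Fin g₀), a.Θ u = z ∧ S.FixD (a.Dv u) := by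
  obtain ⟨u, hu, rfl⟩ := hsurj z hz
  refine ⟨u, hu, rfl, fun g => ?_⟩
  have h1 := a.Θ_smul g hu
  rw [hfix g] at h1
  have h2 := hinj _ (S.hat_mem_polyDisc g hu) _ hu h1
  rw [smul_Dv a g hu, h2]

/-! ### the divisors of the rigidity argument -/

/-- **(R)**: the data of the rigidity argument from the hypotheses of (M′) -/
theorem exists_twistData {gF : ℕ} (hF : IsCurveOfGenus L F gF) (a : N.NFam D S g₀)
    (hsurj : ∀ z ∈ N.NKred D, ∃ u ∈ PolyDisc A (Fin g₀), a.Θ u = z)
    (hinj : ∀ u ∈ PolyDisc A (Fin g₀), ∀ u' ∈ PolyDisc A (Fin g₀), a.Θ u = a.Θ u' → u = u')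
    (H' : Subgroup G) (τ : G) (P₀ : Place L F) (hP₀ : ∀ h ∈ H', S.ρ h • P₀ = P₀)
    (x : Pic0 L F) (hx : ∀ h ∈ H', S.ρ h • x = x)
    (hker : S.ρ τ • x - x ∈ N.NKred D)
    (hfix : ∀ g : G, S.ρ g • (S.ρ τ • x - x) = S.ρ τ • x - x) :
    ∃ (X : TwistData S.toIAct H') (D₀ : Divisor.degZero (K := L) (F := F)) (g : F),
      Pic0.mk D₀ = x ∧ (D₀ : Divisor L F) = X.Dp - X.Dm ∧
      D.SmoothSupp X.Ep ∧ D.SmoothSupp X.Em ∧ D.push₁ X.Ep = D.push₁ X.Em ∧
      D.push₂ X.Ep = D.push₂ X.Em ∧ g ≠ 0 ∧ ∀ P : Place L F, P.ord g = X.div τ P := by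
  obtain ⟨E, Dp, Dm, hE, hEd, hDp, hDm, hDpst, hDmst⟩ :=
    exists_stable_parts hF ((fun h => S.ρ h) '' (H' : Set G)) P₀
      (by rintro _ ⟨h, hh, rfl⟩; exact hP₀ h hh) x (by rintro _ ⟨h, hh, rfl⟩; exact hx h hh)
  obtain ⟨u, hu, hΘ, hDvst⟩ := exists_fixed_rep a hsurj hinj hker hfix
  let X : TwistData S.toIAct H' :=
    { Dp := Dp, Dm := Dm, Ep := a.Dv u, Em := a.E
      Dp_nonneg := hDp, Dm_nonneg := hDm, Ep_nonneg := a.Dv_nonneg u, Em_nonneg := a.E_nonneg
      Dp_st := fun h hh => hDpst _ ⟨h, hh, rfl⟩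
      Dm_st := fun h hh => hDmst _ ⟨h, hh, rfl⟩
      Ep_st := hDvst
      Em_st := fixD_E a }
  -- the class of `τ D₀ - D₀ - (Ep - Em)` vanishes
  have hcl : Pic0.mk (SemilinearAut.degZeroSMulHom (S.ρ τ) E - E
      - ⟨a.Dv u - a.E, a.sub_mem_degZero u⟩) = 0 := by
    have h1 : Pic0.mk (SemilinearAut.degZeroSMulHom (S.ρ τ) E - E
        - ⟨a.Dv u - a.E, a.sub_mem_degZero u⟩) =
        Pic0.mk (SemilinearAut.degZeroSMulHom (S.ρ τ) E) - Pic0.mk E
          - Pic0.mk ⟨a.Dv u - a.E, a.sub_mem_degZero u⟩ := rfl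
    rw [h1, ← SemilinearAut.pic0_smul_mk, hE]
    show S.ρ τ • x - x - a.Θ u = 0
    rw [hΘ, sub_self]
  have h2 := (QuotientAddGroup.eq_zero_iff _).1 hcl
  rw [AddSubgroup.mem_addSubgroupOf] at h2
  obtain ⟨g, hg0, hg⟩ := h2
  refine ⟨X, E, g, hE, hEd, a.smoothSupp_Dv u, a.smoothSupp_E, ?_, ?_, hg0, fun P => ?_⟩
  · show D.push₁ (a.Dv u) = D.push₁ a.E
    rw [← D.fst_push, ← D.fst_push, a.push_Dv, a.push_E]
  · show D.push₂ (a.Dv u) = D.push₂ a.E
    rw [← D.snd_push, ← D.snd_push, a.push_Dv, a.push_E]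
  · rw [← hg P]
    show _ = (S.ρ τ • (Dp - Dm) - (Dp - Dm) - (a.Dv u - a.E)) P
    rw [← hEd]
    simp only [AddSubgroup.coe_sub, SemilinearAut.coe_degZeroSMulHom]

end Fermat.Agent.S44lib.M

end
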