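/-
S44lib / M / Inst  (helper7)  — Project LSq, block Q2b = (M′): **(M′) in `cMap` form for a modular
annulus datum**.

`Dann : Ann.AnnDatum A (FBar N) F₁ F₂` an annulus datum of the modular curve `X₀(N)` over `ℚ̄` at a place
`A` over `p`, `S₀` the inertia symmetries of its nodal reduction datum (`S₀.ρ h = arithmeticGalois … h`),
`a` an admissible chart family with `Θ_a` bijective from the polydisc onto the kernel of reduction.  Then
for `x ∈ J₀(N)[p]` satisfying the hypotheses of (M′) (`PsiPackage.mprime`, V-form):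

    `(e c) · cMapᵢ x c = (e c') · cMapᵢ x c'`  in `ZMod p`  (`i = 1, 2`, all nodes `c, c'`),

where `|pi c| = |p| ^ (e c)`.  The proof is the case distinction `K₁(w) = K₁` (split: `mprime_split`,
`λ = ζ − 1`) / `K₁(w) ≠ K₁` (non-split: `mprime_nonsplit` = break-one rigidity, with helper8's
`F.NonSplit` data, `ϖ = (ζ − 1)/(w − c)`), the representatives being those of `M/Rep` with the cusp `∞`
as the fixed place.

* `AnnSym.comap` : restriction of the symmetries of an annulus datum;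
* `symOne` : the symmetries restricted to `I₁ = IOne A p`;
* **`mprime_cMap`** : the statement, over the components;
* `cMap_const_of_mprime` : the case of uniform thickness `|pi c| = |p|`: `cMapᵢ x` is constant.
-/
import Fermat.Agent.S44lib.M.MPrime
import Fermat.Agent.S44lib.M.Rep
import Fermat.Agent.S44lib.F.Inst
import Fermat.Agent.S44lib.Kap.Inst
import Fermat.Agent.S36lib.J.ClassDescentBar

set_option autoImplicit false
set_option linter.unusedSectionVars false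
set_option linter.style.haveILetI false

noncomputable section

namespace Fermat.Agent.S44lib.M

open Fermat.Agent.S18lib AlgebraicCurve ModularCurve Fermat.Agent.S19lib.C Fermat.Agent.LSb
open Fermat.Agent.S33lib Fermat.Agent.S19lib
open Fermat.Agent.S19lib (PolyDisc)

/-! ### restriction of the symmetries of an annulus datum -/

section General

variable {L : Type*} [Field L] {A : ValuationSubring L}
variable {F : Type*} [Field F] [Algebra L F] [HasPrincipalDivisors L F]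
variable {F₁ F₂ : Type*} [Field F₁] [Field F₂]
variable [Algebra (IsLocalRing.ResidueField A) F₁] [Algebra (IsLocalRing.ResidueField A) F₂]
variable {G G' : Type*} [Group G] [Group G']

theorem AnnSym.comap {D : Ann.AnnDatum A F F₁ F₂} {S : N.NSym D.toNRedDatum G} (hS : AnnSym D S)
    (φ : G' →* G) : AnnSym D (nSymComap S φ) where
  ann_smul := fun g P => hS.ann_smul (φ g) P
  z_fix := fun g c => hS.z_fix (φ g) c
  pi_fix := fun g c => hS.pi_fix (φ g) c
  chart₁ := fun Q hQ => by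
    obtain ⟨ch, hch⟩ := hS.chart₁ Q hQ
    exact ⟨ch, fun g => hch (φ g)⟩
  chart₂ := fun Q hQ => by
    obtain ⟨ch, hch⟩ := hS.chart₂ Q hQ
    exact ⟨ch, fun g => hch (φ g)⟩

end General

/-! ### the modular case -/

open Fermat.Agent.S33lib.N

local notation "Qb" => AlgebraicClosure ℚ
local notation "GQ" => (AlgebraicClosure ℚ ≃ₐ[ℚ] AlgebraicClosure ℚ)

variable {N : ℕ} [NeZero N] {p : ℕ} {A : ValuationSubring Qb}
variable {F₁ F₂ : Type*} [Field F₁] [Field F₂]
variable [Algebra (IsLocalRing.ResidueField A) F₁] [Algebra (IsLocalRing.ResidueField A) F₂]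
variable [HasPrincipalDivisors Qb (FBar N)]
variable [HasPrincipalDivisors (IsLocalRing.ResidueField A) F₁]
  [HasPrincipalDivisors (IsLocalRing.ResidueField A) F₂]

variable {Dr : NRedDatum A (FBar N) F₁ F₂}

/-- the symmetries restricted to `I₁` -/
def symOne (p : ℕ) (S₀ : NSym Dr ↥(IA A)) : NSym Dr ↥(IOne A p) :=
  nSymComap S₀ (Subgroup.inclusion (IOne_le A p))

section SymOne

variable (S₀ : NSym Dr ↥(IA A))
  (ρ_eq : ∀ h : ↥(IA A), S₀.ρ h = arithmeticGalois (modularFunctionFieldFull N) (h : GQ))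
include ρ_eq

theorem symOne_ρ (h : ↥(IOne A p)) :
    (symOne p S₀).ρ h = arithmeticGalois (modularFunctionFieldFull N) (h : GQ) := by
  show S₀.ρ (Subgroup.inclusion (IOne_le A p) h) = _
  rw [ρ_eq]
  rfl

theorem symOne_hat (h : ↥(IOne A p)) (a : Qb) : (symOne p S₀).hat h a = (h : GQ) a := by
  show SemilinearAut.baseAut ((symOne p S₀).ρ h) a = _
  rw [symOne_ρ S₀ ρ_eq]
  rfl

theorem symOne_smul (h : ↥(IOne A p)) (x : JZero N) : (symOne p S₀).ρ h • x = (h : GQ) • x := by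
  rw [symOne_ρ S₀ ρ_eq]
  rfl

theorem symOne_smul_pinf (h : ↥(IOne A p)) :
    (symOne p S₀).ρ h • Fermat.Agent.S36lib.J.pinfBar N = Fermat.Agent.S36lib.J.pinfBar N := by
  rw [symOne_ρ S₀ ρ_eq]
  exact Fermat.Agent.S36lib.J.galAutBar_smul_pinfBar N (h : GQ)

end SymOne

/-- **(M′) in `cMap` form** for a modular annulus datum with thicknesses `|pi c| = |p| ^ (e c)` -/
theorem mprime_cMap (hp : p.Prime) (hp3 : 3 ≤ p) (hA : A.LiesOverPrime p)
    (Dann : Ann.AnnDatum A (FBar N) F₁ F₂) {g g₁ g₂ : ℕ} (C : NodalCtx Dann.nod g g₁ g₂)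
    (S₀ : NSym Dann.toNRedDatum ↥(IA A))
    (ρ_eq : ∀ h : ↥(IA A), S₀.ρ h = arithmeticGalois (modularFunctionFieldFull N) (h : GQ))
    {gF : ℕ} (a : NFam Dann.toNRedDatum S₀ gF)
    (hsurj : ∀ z ∈ NKred Dann.toNRedDatum, ∃ u ∈ PolyDisc A (Fin gF), a.Θ u = z)
    (hinj : ∀ u ∈ PolyDisc A (Fin gF), ∀ u' ∈ PolyDisc A (Fin gF), a.Θ u = a.Θ u' → u = u')
    (hNK : ∀ σ ∈ IOne A p, ∀ x ∈ tors N (p : ℤ), σ • x - x ∈ NKred Dann.toNRedDatum)
    (hS : AnnSym Dann S₀) (hGlue : Dann.GlueAnn) (hlaw : SlopeLaw Dann)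
    (e : Fin Dann.nod.s → ℕ)
    (hpi : ∀ c, A.valuation (Dann.pi c) = A.valuation ((p : ℕ) : Qb) ^ (e c))
    {x : JZero N} (hx : x ∈ tors N (p : ℤ)) (w : Qb) (hw : IsUnitRoot A p w)
    (hfix : FixedOver A p w x)
    (h2 : ∀ σ ∈ IOne A p, ∀ τ ∈ IOne A p, τ • (σ • x - x) = σ • x - x)
    (c c' : Fin Dann.nod.s) :
    (e c : ZMod p) * Kap.cMap₁ Dann.toNRedDatum C p (Kap.torsOf hx) c
        = (e c' : ZMod p) * Kap.cMap₁ Dann.toNRedDatum C p (Kap.torsOf hx) c' ∧
      (e c : ZMod p) * Kap.cMap₂ Dann.toNRedDatum C p (Kap.torsOf hx) c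
        = (e c' : ZMod p) * Kap.cMap₂ Dann.toNRedDatum C p (Kap.torsOf hx) c' := by
  haveI : Fact p.Prime := ⟨hp⟩
  haveI : CharP (IsLocalRing.ResidueField A) p := Fermat.Agent.S18lib.V.charP_residueField A hA
  have hp2 := hp.two_le
  set S := symOne p S₀ with hSdef
  have hhat : ∀ (h : ↥(IOne A p)) (b : Qb), S.hat h b = (h : GQ) b := symOne_hat S₀ ρ_eq
  have hsmul : ∀ (h : ↥(IOne A p)) (y : JZero N), S.ρ h • y = (h : GQ) • y := symOne_smul S₀ ρ_eq
  have hS' : AnnSym Dann S := hS.comap _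
  have hpq : ¬ p ∣ p - 1 := fun h => by
    have := Nat.le_of_dvd (by omega) h
    omega
  have he0 : ∀ c, e c ≠ 0 := by
    intro c h0
    have h1 := Dann.pi_lt_one c
    rw [hpi c, h0, pow_zero] at h1
    exact lt_irrefl _ h1
  by_cases hsplit : ∀ σ ∈ IOne A p, σ w = w
  · -- the split case: `x` is rational over `K₁`
    haveI : NeZero p := ⟨hp.ne_zero⟩
    obtain ⟨ζ, hζ⟩ := HasEnoughRootsOfUnity.exists_primitiveRoot Qb p
    have hlam0 : ζ - 1 ≠ 0 := sub_ne_zero.2 (hζ.ne_one hp.one_lt)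
    have hlam1 : A.valuation (ζ - 1) < 1 :=
      F.val_zeta_sub_one_lt_one A.valuation hp hζ (F.val_p_lt_one hA)
    obtain ⟨D₀, hD₀, hst⟩ := Fermat.Agent.S36lib.J.exists_stable_divisor C.hF
      (Set.range fun h : ↥(IOne A p) => S.ρ h) (Fermat.Agent.S36lib.J.pinfBar N)
      (by rintro _ ⟨h, rfl⟩; exact symOne_smul_pinf S₀ ρ_eq h) x
      (by
        rintro _ ⟨h, rfl⟩
        show S.ρ h • x = x
        rw [hsmul]
        exact hfix _ h.2 (hsplit _ h.2))
    refine mprime_split hp C hS' hlaw hlam0 hlam1 (fun b hb0 hb => ?_) (p - 1) hpq e (fun c => ?_)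
      (Kap.torsOf hx) D₀ hD₀ (fun h => hst _ ⟨h, rfl⟩) c c'
    · exact F.val_of_IOne_fixed hp hA hζ hb0 fun σ hσ => by
        rw [← hhat ⟨σ, hσ⟩]; exact hb ⟨σ, hσ⟩
    · rw [hpi c, ← F.val_zeta_sub_one_pow A.valuation hp hζ, zpow_natCast, ← pow_mul]
  · -- the non-split case: break-one rigidity
    obtain ⟨ζ, c₀, τ, hns⟩ := F.exists_nonSplit hp hp3 hA hw hsplit
    set τ' : ↥(IOne A p) := ⟨τ, hns.tau_mem⟩ with hτ'
    have hB := F.breakOne_IOne hp hA hns S.toIAct hhat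
    have hsm := F.small_IOne hp hp3 hA hns S.toIAct hhat
    have hpsq := F.val_p_le_varpi_sq hp hp3 hA hns
    have hvp1 : A.valuation ((p : ℕ) : Qb) ≤ 1 := (F.val_p_lt_one hA).le
    have hker : S.ρ τ' • x - x ∈ NKred Dann.toNRedDatum := by
      rw [hsmul]; exact hNK τ hns.tau_mem x hx
    have hfix' : ∀ h : ↥(IOne A p), S.ρ h • (S.ρ τ' • x - x) = S.ρ τ' • x - x := by
      intro h
      rw [hsmul τ', hsmul h]
      exact h2 τ hns.tau_mem _ h.2
    obtain ⟨X, D₀, gf, hD₀, hD₀X, hEp, hEm, hp₁, hp₂, hg0, hdiv⟩ :=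
      exists_twistData C.hF (nFamComap a (Subgroup.inclusion (IOne_le A p))) hsurj hinj
        (F.fixW A p w) τ' (Fermat.Agent.S36lib.J.pinfBar N)
        (fun h _ => symOne_smul_pinf S₀ ρ_eq h) x
        (fun h hh => by
          show S.ρ h • x = x
          rw [hsmul]; exact hfix _ h.2 hh) hker hfix'
    refine mprime_nonsplit hp C hB hS' hGlue hlaw hsm (fun c => ?_) X hEp hEm hp₁ hp₂ hg0 hdiv
      (p - 1) hpq e (fun c => ?_) (Kap.torsOf hx) D₀ hD₀ hD₀X c c'
    · rw [hpi c]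
      refine le_trans ?_ hpsq
      calc A.valuation ((p : ℕ) : Qb) ^ (e c) ≤ A.valuation ((p : ℕ) : Qb) ^ 1 :=
            pow_le_pow_of_le_one zero_le hvp1 (Nat.one_le_iff_ne_zero.2 (he0 c))
        _ = A.valuation ((p : ℕ) : Qb) := pow_one _
    · rw [hpi c, ← hns.val_varpi_pow hp, zpow_natCast, ← pow_mul, mul_assoc]

/-- **(M′) for uniform thickness `|pi c| = |p|`**: the residues of `Ψ x` are constant along the nodes,
on both components -/
theorem cMap_const_of_mprime (hp : p.Prime) (hp3 : 3 ≤ p) (hA : A.LiesOverPrime p)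
    (Dann : Ann.AnnDatum A (FBar N) F₁ F₂) {g g₁ g₂ : ℕ} (C : NodalCtx Dann.nod g g₁ g₂)
    (S₀ : NSym Dann.toNRedDatum ↥(IA A))
    (ρ_eq : ∀ h : ↥(IA A), S₀.ρ h = arithmeticGalois (modularFunctionFieldFull N) (h : GQ))
    {gF : ℕ} (a : NFam Dann.toNRedDatum S₀ gF)
    (hsurj : ∀ z ∈ NKred Dann.toNRedDatum, ∃ u ∈ PolyDisc A (Fin gF), a.Θ u = z)
    (hinj : ∀ u ∈ PolyDisc A (Fin gF), ∀ u' ∈ PolyDisc A (Fin gF), a.Θ u = a.Θ u' → u = u')
    (hNK : ∀ σ ∈ IOne A p, ∀ x ∈ tors N (p : ℤ), σ • x - x ∈ NKred Dann.toNRedDatum)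
    (hS : AnnSym Dann S₀) (hGlue : Dann.GlueAnn) (hlaw : SlopeLaw Dann)
    (hpi : ∀ c, A.valuation (Dann.pi c) = A.valuation ((p : ℕ) : Qb))
    {x : JZero N} (hx : x ∈ tors N (p : ℤ)) (w : Qb) (hw : IsUnitRoot A p w)
    (hfix : FixedOver A p w x)
    (h2 : ∀ σ ∈ IOne A p, ∀ τ ∈ IOne A p, τ • (σ • x - x) = σ • x - x)
    (c c' : Fin Dann.nod.s) :
    Kap.cMap₁ Dann.toNRedDatum C p (Kap.torsOf hx) c
        = Kap.cMap₁ Dann.toNRedDatum C p (Kap.torsOf hx) c' ∧
      Kap.cMap₂ Dann.toNRedDatum C p (Kap.torsOf hx) c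
        = Kap.cMap₂ Dann.toNRedDatum C p (Kap.torsOf hx) c' := by
  have h := mprime_cMap hp hp3 hA Dann C S₀ ρ_eq a hsurj hinj hNK hS hGlue hlaw (fun _ => 1)
    (fun c => by rw [pow_one]; exact hpi c) hx w hw hfix h2 c c'
  simpa using h

end Fermat.Agent.S44lib.M

end
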