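/-
S44lib / M / ModInst  (helper7)  — Project LSq, block Q2b = (M′): **(M′) for the concrete nodal package**
`Kap.modNModInst hqM hA h5` (level `M q`, `q ≥ 5`) with a UNIFORM COORDINATE.

Inputs still owed by the instance (helper1 / helper4 / helper9), all about ONE function `z ∈ FBar (M q)`:

* `hz    : Ann.UnifCoord (modNod …) (modNRed …).r q z`   (the seven facts of `Ann/OfNCtx`);
* `hzfix : ∀ σ ∈ IA A, galAutBar (M q) σ • z = z`          (`z` is built from inertia-fixed functions);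
* `hann  : the annulus map `annOf` is inertia-invariant`    (helper9's `annOf_smul`).

Output: **`mprime_mod`** — for `x ∈ J₀(M q)[q]` with the hypotheses of (M′), the residues `cMap₁ x`, `cMap₂ x`
of `Ψ x` are CONSTANT along the nodes.

* `annSym_of_liftCtx` : `AnnSym` from a lifting context (`N.NLiftCtx`: fixed charts on every residue disc);
* `sub_mem_NKred_of_inertia` : `σ x - x` lies in the kernel of reduction (`σ` inertial, `x ∈ J[p]`);
* `modAnn` : the annulus datum of the modular nodal datum and a uniform coordinate.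
-/
import Fermat.Agent.S44lib.M.Inst
import Fermat.Agent.S44lib.Ann.OfNCtx
import Fermat.Agent.S44lib.Kap.ModInst
import Fermat.Agent.S33lib.NB.Lift

set_option autoImplicit false
set_option linter.unusedSectionVars false
set_option linter.style.haveILetI false

noncomputable section

namespace Fermat.Agent.S44lib.M

open Fermat.Agent.S18lib AlgebraicCurve ModularCurve Fermat.Agent.S19lib.C Fermat.Agent.LSb
open Fermat.Agent.S33lib Fermat.Agent.S19lib Fermat.Agent.S29lib.GH
open Fermat.Agent.S19lib (PolyDisc)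

/-! ### `AnnSym` from a lifting context -/

section General

variable {L : Type*} [Field L] {A : ValuationSubring L}
variable {F : Type*} [Field F] [Algebra L F] [HasPrincipalDivisors L F]
variable {F₁ F₂ : Type*} [Field F₁] [Field F₂]
variable [Algebra (IsLocalRing.ResidueField A) F₁] [Algebra (IsLocalRing.ResidueField A) F₂]
variable [HasPrincipalDivisors (IsLocalRing.ResidueField A) F₁]
  [HasPrincipalDivisors (IsLocalRing.ResidueField A) F₂]
variable {G : Type*} [Group G]

/-- the symmetries of an annulus datum: the fixed charts come from the lifting context -/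
theorem annSym_of_liftCtx {D : Ann.AnnDatum A F F₁ F₂} {S : N.NSym D.toNRedDatum G} {g g₁ g₂ : ℕ}
    (C : N.NLiftCtx D.toNRedDatum S g g₁ g₂)
    (h1 : ∀ (g : G) (P : Place L F), D.ann (S.ρ g • P) = D.ann P)
    (h2 : ∀ (g : G) (c : Fin D.nod.s), S.ρ g • D.z c = D.z c)
    (h3 : ∀ (g : G) (c : Fin D.nod.s), S.hat g (D.pi c) = D.pi c) : AnnSym D S where
  ann_smul := h1
  z_fix := h2
  pi_fix := h3
  chart₁ := fun Q hQ => by
    obtain ⟨P, hP, hPfix⟩ := NB.fixedLiftPlace₁ C Q hQ
    obtain ⟨ch, -, hch⟩ := NB.exists_chart_at₁ C hP hPfix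
    exact ⟨ch, hch⟩
  chart₂ := fun Q hQ => by
    obtain ⟨P, hP, hPfix⟩ := NB.fixedLiftPlace₂ C Q hQ
    obtain ⟨ch, -, hch⟩ := NB.exists_chart_at₂ C hP hPfix
    exact ⟨ch, hch⟩

end General

local notation "Qb" => AlgebraicClosure ℚ
local notation "GQ" => (AlgebraicClosure ℚ ≃ₐ[ℚ] AlgebraicClosure ℚ)

/-! ### the difference `σ x - x` -/

section Ker

open Fermat.Agent.S33lib.N

variable {N : ℕ} [NeZero N] {p : ℕ} [Fact p.Prime] {A : ValuationSubring Qb}

/-- for `σ` in the inertia group and `x ∈ J[p]`, `σ x - x` lies in the kernel of reduction -/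
theorem sub_mem_NKred_of_inertia (I : NModInst N p A) (hA : A.LiesOverPrime p) {σ : GQ}
    (hσ : σ ∈ IA A) {x : JZero N} (hx : x ∈ tors N (p : ℤ)) :
    letI := I.hpd
    σ • x - x ∈ NKred I.D := by
  letI := I.hpd
  have hσx : σ • x ∈ tors N (p : ℤ) := Kap.smul_mem_tors σ hx
  have h0 : Kap.QPsi I 0 = 0 := (Kap.mem_qK I hA 0 (zero_mem _)).1 (zero_mem _)
  have h1 : Kap.QPsi I (σ • x - x) = 0 := by
    rw [sub_eq_add_neg, Kap.qPsi_add I _ hσx _ (neg_mem hx), Kap.qPsi_inertia I σ hσ x hx,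
      ← Kap.qPsi_add I _ hx _ (neg_mem hx), add_neg_cancel, h0]
  exact ((Kap.mem_qK I hA _ (sub_mem hσx hx)).2 h1).1

end Ker

/-! ### the concrete package -/

section Mod

variable {M q : ℕ} [NeZero M] [NeZero q] [hq : Fact q.Prime] {A : ValuationSubring Qb}
variable (hqM : ¬ q ∣ M) (hA : A.LiesOverPrime q) (h5 : 5 ≤ q)

theorem exists_sqrt_Qb (a : Qb) : ∃ b : Qb, b * b = a := by
  obtain ⟨b, hb⟩ := IsAlgClosed.exists_pow_nat_eq a (n := 2) two_pos
  exact ⟨b, by rw [← hb]; ring⟩

/-- **the annulus datum of the modular nodal datum** and a uniform coordinate -/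
def modAnn {z : FBar (M * q)}
    (hz : Ann.UnifCoord (Kap.modNod hqM hA) (Kap.modNModInst hqM hA h5).D.r ((q : ℕ) : Qb) z) :
    letI := Kap.modHpdK hqM hA
    Ann.AnnDatum A (FBar (M * q)) (FRes A M) (FRes A M) :=
  letI := Kap.modHpdK hqM hA
  haveI := Kap.modInfinite (A := A)
  Ann.annOfNCtx (Kap.modCtx hqM hA h5).toNCtx hz (Kap.modCtx hqM hA h5) exists_sqrt_Qb

variable {z : FBar (M * q)}
  (hz : Ann.UnifCoord (Kap.modNod hqM hA) (Kap.modNModInst hqM hA h5).D.r ((q : ℕ) : Qb) z)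

theorem modAnn_toNRedDatum :
    (modAnn hqM hA h5 hz).toNRedDatum = (Kap.modNModInst hqM hA h5).D := rfl

theorem modAnn_z (c : Fin (Kap.modNod hqM hA).s) : (modAnn hqM hA h5 hz).z c = z := rfl

theorem modAnn_pi (c : Fin (Kap.modNod hqM hA).s) :
    (modAnn hqM hA h5 hz).pi c = ((q : ℕ) : Qb) := rfl

/-- **(M′) for the concrete nodal package, in `cMap` form**: the residues of `Ψ x` are constant along
the nodes, on both components -/
theorem mprime_mod (hzfix : ∀ σ ∈ IA A, galAutBar (M * q) σ • z = z)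
    (hann : ∀ σ ∈ IA A, ∀ P : Place Qb (FBar (M * q)),
      (modAnn hqM hA h5 hz).ann (galAutBar (M * q) σ • P) = (modAnn hqM hA h5 hz).ann P)
    {x : JZero (M * q)} (hx : x ∈ tors (M * q) (q : ℤ)) (w : Qb) (hw : IsUnitRoot A q w)
    (hfix : FixedOver A q w x)
    (h2 : ∀ σ ∈ IOne A q, ∀ τ ∈ IOne A q, τ • (σ • x - x) = σ • x - x)
    (c c' : Fin (Kap.modNModInst hqM hA h5).D.nod.s) :
    Kap.cMap₁ (Kap.modNModInst hqM hA h5).D (Kap.modNModInst hqM hA h5).ctx q (Kap.torsOf hx) c
        = Kap.cMap₁ (Kap.modNModInst hqM hA h5).D (Kap.modNModInst hqM hA h5).ctx q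
            (Kap.torsOf hx) c' ∧
      Kap.cMap₂ (Kap.modNModInst hqM hA h5).D (Kap.modNModInst hqM hA h5).ctx q (Kap.torsOf hx) c
        = Kap.cMap₂ (Kap.modNModInst hqM hA h5).D (Kap.modNModInst hqM hA h5).ctx q
            (Kap.torsOf hx) c' := by
  letI := Kap.modHpdK hqM hA
  haveI := Kap.modInfinite (A := A)
  obtain ⟨a, -⟩ := (Kap.modNModInst hqM hA h5).famS ∅
  obtain ⟨hsurj, hinj⟩ := (Kap.modNModInst hqM hA h5).kerS a
  have hS : AnnSym (modAnn hqM hA h5 hz) (Kap.modNModInst hqM hA h5).S :=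
    annSym_of_liftCtx (D := modAnn hqM hA h5 hz) (S := (Kap.modNModInst hqM hA h5).S)
      (Kap.modLiftCtx hqM hA h5)
      (fun g P => hann g.1 g.2 P) (fun g _ => hzfix g.1 g.2) (fun g _ => by
        show (Kap.modNModInst hqM hA h5).S.hat g ((q : ℕ) : Qb) = ((q : ℕ) : Qb)
        rw [(Kap.modNModInst hqM hA h5).hat_apply]
        exact map_natCast _ _)
  exact cMap_const_of_mprime hq.out (by omega) hA (modAnn hqM hA h5 hz)
    (Kap.modNModInst hqM hA h5).ctx (Kap.modNModInst hqM hA h5).S (Kap.modNModInst hqM hA h5).ρ_eq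
    a hsurj hinj
    (fun σ hσ y hy => sub_mem_NKred_of_inertia (Kap.modNModInst hqM hA h5) hA hσ.1 hy) hS
    (Ann.annOfNCtx_glueAnn _ hz _ _) (Ann.annOfNCtx_slopeLaw _ hz _ _) (fun _ => rfl)
    hx w hw hfix h2 c c'

end Mod

end Fermat.Agent.S44lib.M

end
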