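/-
S44lib / M / Zeroth  (helper7)  — Project LSq, block Q2b = (M′): the zeroth-order analysis.

`g` with `div g = τ D - D - E₀` (`TwistData`; `E₀ = Ep - Em` supported on the smooth locus with
`push Ep = push Em`).  From the slope law (`SlopeLaw D`: per-annulus conservation and the slope formula
for arbitrary normalisations, e.g. from `Fact₁ + Fact₂`, or from `GlueAnn` alone by helper9's `Ann/Law`):

* all node orders of the two reductions of `g` vanish, and `|g|₁ = |g|₂`;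
* hence (after division by a constant) `g ∈ O₁ ∩ O₂` and both reductions are NON-ZERO CONSTANTS
  (`zeroth_order`).
-/
import Fermat.Agent.S44lib.M.Sides
import Fermat.Agent.S44lib.Ann.Slope
import Fermat.Agent.S44lib.Kap.CMap

set_option autoImplicit false
set_option linter.unusedSectionVars false

noncomputable section

namespace Fermat.Agent.S44lib.M

open Fermat.Agent.S18lib AlgebraicCurve Polynomial Fermat.Agent.S19lib.C Fermat.Agent.LSb
open Fermat.Agent.S33lib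

variable {L : Type*} [Field L] {A : ValuationSubring L}
variable {F : Type*} [Field F] [Algebra L F] [HasPrincipalDivisors L F]
variable {G : Type*} [Group G]

local notation "k" => IsLocalRing.ResidueField A

/-! ### one component -/

section Disc

variable {Fk : Type*} [Field Fk] [Algebra (IsLocalRing.ResidueField A) Fk]
variable [HasPrincipalDivisors (IsLocalRing.ResidueField A) Fk]

theorem pushO_smul_eq {Dd : N.DiscDatum A F Fk} (Sd : N.DSym Dd G) (g : G) (E : Divisor L F) :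
    N.pushO Dd.r (Sd.ρ g • E) = N.pushO Dd.r E := by
  ext Q
  rw [N.pushO_apply, N.pushO_apply, SemilinearAut.divisor_smul_def, ← Finsupp.mapDomain_comp]
  congr 2
  funext P
  exact Sd.r_smul g P

/-- a function whose divisor has push-forward `0` and whose reduction has order `0` at the bad points
reduces to a non-zero constant -/
theorem exists_const_of_push_eq_zero {gk : ℕ} (hFk : IsCurveOfGenus (IsLocalRing.ResidueField A) Fk gk)
    (Dd : N.DiscDatum A F Fk) {s : ℕ} (x : Fin s → Place (IsLocalRing.ResidueField A) Fk)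
    (hgood : ∀ Q : Place (IsLocalRing.ResidueField A) Fk, (∀ c, Q ≠ x c) → Dd.Good Q)
    {Δ : Divisor L F} {z : F} (hz : ∀ P : Place L F, P.ord z = Δ P) (hne : Dd.G.redF z ≠ 0)
    (hpush : N.pushO Dd.r Δ = 0) (hnode : ∀ c, (x c).ord (Dd.G.redF z) = 0) :
    ∃ b : IsLocalRing.ResidueField A, b ≠ 0 ∧
      Dd.G.redF z = algebraMap (IsLocalRing.ResidueField A) Fk b := by
  have hz' : ∀ P : Place L F, P.ord z = ((1 : ℕ) : ℤ) * Δ P := fun P => by
    rw [hz, Nat.cast_one, one_mul]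
  have hmem : Dd.G.redF z ∈ riemannRochSpace (0 : Divisor k Fk) := by
    rw [mem_riemannRochSpace_iff]
    intro Q
    right
    rw [Finsupp.zero_apply, neg_zero]
    by_cases hQ : ∃ c, Q = x c
    · obtain ⟨c, rfl⟩ := hQ
      rw [hnode c]
    · push Not at hQ
      rw [Kap.ord_redF_eq_of_good Dd hz' hne (hgood Q hQ), hpush, Finsupp.zero_apply, mul_zero]
  rw [hFk.riemannRochSpace_zero] at hmem
  obtain ⟨b, hb⟩ := Algebra.mem_bot.1 hmem
  refine ⟨b, ?_, hb.symm⟩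
  rintro rfl
  rw [map_zero] at hb
  exact hne hb.symm

end Disc

variable {F₁ F₂ : Type*} [Field F₁] [Field F₂]
variable [Algebra (IsLocalRing.ResidueField A) F₁] [Algebra (IsLocalRing.ResidueField A) F₂]
variable [HasPrincipalDivisors (IsLocalRing.ResidueField A) F₁]
  [HasPrincipalDivisors (IsLocalRing.ResidueField A) F₂]

/-! ### the slope law -/

/-- **the slope law**: per-annulus conservation and the slope formula, for arbitrary normalisations -/
def SlopeLaw (D : Ann.AnnDatum A F F₁ F₂) : Prop :=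
  ∀ (h : F), h ≠ 0 → ∀ (c : Fin D.nod.s) (a₁ a₂ : L) (m₁ m₂ : ℤ),
    D.Slope₁ c h a₁ m₁ → D.Slope₂ c h a₂ m₂ →
      m₁ + m₂ = D.annDeg c h ∧
        A.valuation a₁ * D.radProd c h = A.valuation a₂ * A.valuation (D.pi c) ^ m₂

theorem slopeLaw_of_fact {D : Ann.AnnDatum A F F₁ F₂} (h1 : D.Fact₁) (h2 : D.Fact₂) : SlopeLaw D :=
  fun _ hh _ _ _ _ _ hs₁ hs₂ => D.slope_formula h1 h2 hh hs₁ hs₂

variable (D : Ann.AnnDatum A F F₁ F₂)

/-- the annulus degree in terms of the region -/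
theorem annDeg_eq_rdeg (c : Fin D.nod.s) (h : F) :
    D.annDeg c h = (annReg₁ D c).rdeg (divOf (K := L) h) := by
  classical
  unfold Ann.AnnDatum.annDeg Ann.AnnDatum.annDiv Region.rdeg
  rw [Finsupp.sum_filter_index, Finsupp.support_filter, Finset.sum_filter, Finsupp.sum]
  refine Finset.sum_congr rfl fun P _ => ?_
  by_cases hP : D.ann P = some c
  · rw [if_pos hP, if_pos (show (annReg₁ D c).mem P from hP)]
  · rw [if_neg hP, if_neg (show ¬ (annReg₁ D c).mem P from hP)]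

/-- the radius product in terms of the region -/
theorem radProd_eq_val_cst (c : Fin D.nod.s) (h : F) :
    D.radProd c h = A.valuation ((annReg₁ D c).cst (divOf (K := L) h)) := by
  classical
  unfold Ann.AnnDatum.radProd Ann.AnnDatum.annDiv Region.cst
  rw [Finsupp.prod_filter_index, Finsupp.support_filter, Finset.prod_filter, Finsupp.prod, map_prod]
  refine Finset.prod_congr rfl fun P _ => ?_
  by_cases hP : D.ann P = some c
  · rw [if_pos hP, if_pos (show (annReg₁ D c).mem P from hP), map_zpow₀]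
    rfl
  · rw [if_neg hP, if_neg (show ¬ (annReg₁ D c).mem P from hP), map_one]

theorem divOf_eq_of_ord {Δ : Divisor L F} {g : F} (h : ∀ P : Place L F, P.ord g = Δ P) :
    divOf (K := L) g = Δ := by
  ext P
  rw [divOf_apply', h]

/-! ### the zeroth-order analysis -/

variable {D} {S : N.NSym D.toNRedDatum G} {g₀ g₁ g₂ : ℕ}
variable {H' : Subgroup G} {τ : G} {ϖ β : L}

/-- the twisted divisor has degree `0` on every annulus -/
theorem rdeg_twist (hS : AnnSym D S) (X : TwistData S.toIAct H') (hEp : D.SmoothSupp X.Ep)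
    (hEm : D.SmoothSupp X.Em) (c : Fin D.nod.s) : (annReg₁ D c).rdeg (X.div τ) = 0 := by
  unfold TwistData.div
  have h0 : ∀ E : Divisor L F, D.SmoothSupp E → ∀ P, (annReg₁ D c).mem P → E P = 0 := by
    intro E hE P hP
    by_contra hne
    have h1 := hE P hne
    have h2 : D.ann P = some c := hP
    rw [← D.ann_eq_none_iff, h2] at h1
    exact Option.some_ne_none c h1
  rw [Region.rdeg_sub, Region.rdeg_sub, Region.rdeg_smul (hS.sym₁ c τ), sub_self, zero_sub,
    Region.rdeg_sub, Region.rdeg_eq_zero_of_forall _ (h0 _ hEp),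
    Region.rdeg_eq_zero_of_forall _ (h0 _ hEm), sub_self, neg_zero]

/-- the constant of the twisted divisor on an annulus -/
theorem cst_twist (hS : AnnSym D S) (X : TwistData S.toIAct H') (hEp : D.SmoothSupp X.Ep)
    (hEm : D.SmoothSupp X.Em) (c : Fin D.nod.s) :
    (annReg₁ D c).cst (X.div τ)
      = S.hat τ ((annReg₁ D c).cst (X.Dp - X.Dm)) / (annReg₁ D c).cst (X.Dp - X.Dm) := by
  unfold TwistData.div
  have hR := annReg₁_noZero D c
  have h0 : ∀ E : Divisor L F, D.SmoothSupp E → ∀ P, (annReg₁ D c).mem P → E P = 0 := by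
    intro E hE P hP
    by_contra hne
    have h1 := hE P hne
    have h2 : D.ann P = some c := hP
    rw [← D.ann_eq_none_iff, h2] at h1
    exact Option.some_ne_none c h1
  rw [Region.cst_sub hR, Region.cst_sub hR, Region.cst_sub hR X.Ep,
    Region.cst_eq_one_of_forall (h0 _ hEp), Region.cst_eq_one_of_forall (h0 _ hEm), div_one,
    div_one, ← Region.hat_cst (hS.sym₁ c τ)]
  rfl

/-- the constant `Z_c = ∏ z(P)^{D(P)}` of a `K'`-rational divisor is `K'`-rational -/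
theorem cst_D_fixed (hS : AnnSym D S) (X : TwistData S.toIAct H') (c : Fin D.nod.s) :
    ∀ h ∈ H', S.hat h ((annReg₁ D c).cst (X.Dp - X.Dm)) = (annReg₁ D c).cst (X.Dp - X.Dm) := by
  intro h hh
  refine Region.cst_fixed (hS.sym₁ c h) ?_
  rw [smul_sub, X.Dp_st h hh, X.Dm_st h hh]

theorem val_cst_twist (hB : BreakOne S.toIAct H' τ ϖ β) (hS : AnnSym D S)
    (X : TwistData S.toIAct H') (hEp : D.SmoothSupp X.Ep) (hEm : D.SmoothSupp X.Em)
    (c : Fin D.nod.s) : A.valuation ((annReg₁ D c).cst (X.div τ)) = 1 := by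
  rw [cst_twist hS X hEp hEm, map_div₀, hB.val_hat_eq (cst_D_fixed hS X c)]
  exact div_self ((Valuation.ne_zero_iff _).2 (Region.cst_ne_zero (annReg₁_noZero D c) _))

/-- the push-forwards of the twisted divisor vanish -/
theorem push₁_twist (X : TwistData S.toIAct H') (hp : D.push₁ X.Ep = D.push₁ X.Em) :
    N.pushO D.D₁.r (X.div τ) = 0 := by
  unfold TwistData.div
  have h1 : N.pushO D.D₁.r (S.ρ τ • (X.Dp - X.Dm)) = N.pushO D.D₁.r (X.Dp - X.Dm) :=
    pushO_smul_eq S.S₁ τ _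
  rw [map_sub, map_sub, h1, sub_self, zero_sub, map_sub]
  show -(D.push₁ X.Ep - D.push₁ X.Em) = 0
  rw [hp, sub_self, neg_zero]

theorem push₂_twist (X : TwistData S.toIAct H') (hp : D.push₂ X.Ep = D.push₂ X.Em) :
    N.pushO D.D₂.r (X.div τ) = 0 := by
  unfold TwistData.div
  have h1 : N.pushO D.D₂.r (S.ρ τ • (X.Dp - X.Dm)) = N.pushO D.D₂.r (X.Dp - X.Dm) :=
    pushO_smul_eq S.S₂ τ _
  rw [map_sub, map_sub, h1, sub_self, zero_sub, map_sub]
  show -(D.push₂ X.Ep - D.push₂ X.Em) = 0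
  rw [hp, sub_self, neg_zero]

/-- **zeroth order**: after division by a constant, `g` is a unit on both components with constant
reductions -/
theorem zeroth_order (C : NodalCtx D.nod g₀ g₁ g₂) (hB : BreakOne S.toIAct H' τ ϖ β)
    (hS : AnnSym D S) (hlaw : SlopeLaw D) (X : TwistData S.toIAct H')
    (hEp : D.SmoothSupp X.Ep) (hEm : D.SmoothSupp X.Em)
    (hp₁ : D.push₁ X.Ep = D.push₁ X.Em) (hp₂ : D.push₂ X.Ep = D.push₂ X.Em)
    (c₀ : Fin D.nod.s) {g : F} (hg0 : g ≠ 0) (hdiv : ∀ P : Place L F, P.ord g = X.div τ P) :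
    ∃ a : L, a ≠ 0 ∧ ∃ b₁ b₂ : IsLocalRing.ResidueField A, b₁ ≠ 0 ∧ b₂ ≠ 0 ∧
      (algebraMap L F a)⁻¹ * g ∈ D.nod.V₁.O ∧ (algebraMap L F a)⁻¹ * g ∈ D.nod.V₂.O ∧
      D.nod.V₁.redF ((algebraMap L F a)⁻¹ * g) = algebraMap (IsLocalRing.ResidueField A) F₁ b₁ ∧
      D.nod.V₂.redF ((algebraMap L F a)⁻¹ * g) = algebraMap (IsLocalRing.ResidueField A) F₂ b₂ := by
  classical
  obtain ⟨e₁, he₁, hr₁⟩ := D.nod.V₁.exists_const_mul_redF_ne_zero hg0
  obtain ⟨e₂, he₂, hr₂⟩ := D.nod.V₂.exists_const_mul_redF_ne_zero hg0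
  set a₁ : L := e₁⁻¹ with ha₁
  set a₂ : L := e₂⁻¹ with ha₂
  have ha₁0 : a₁ ≠ 0 := inv_ne_zero he₁
  have ha₂0 : a₂ ≠ 0 := inv_ne_zero he₂
  have hi₁ : (algebraMap L F a₁)⁻¹ = algebraMap L F e₁ := by rw [ha₁, map_inv₀, inv_inv]
  have hi₂ : (algebraMap L F a₂)⁻¹ = algebraMap L F e₂ := by rw [ha₂, map_inv₀, inv_inv]
  set φ₁ : F₁ := D.nod.V₁.redF ((algebraMap L F a₁)⁻¹ * g) with hφ₁
  set φ₂ : F₂ := D.nod.V₂.redF ((algebraMap L F a₂)⁻¹ * g) with hφ₂
  have hφ₁0 : φ₁ ≠ 0 := by rw [hφ₁, hi₁]; exact hr₁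
  have hφ₂0 : φ₂ ≠ 0 := by rw [hφ₂, hi₂]; exact hr₂
  have hs₁ : ∀ c, D.Slope₁ c g a₁ ((D.nod.x₁ c).ord φ₁) := fun c =>
    ⟨ha₁0, D.nod.V₁.mem_of_redF_ne_zero hφ₁0, hφ₁0, rfl⟩
  have hs₂ : ∀ c, D.Slope₂ c g a₂ ((D.nod.x₂ c).ord φ₂) := fun c =>
    ⟨ha₂0, D.nod.V₂.mem_of_redF_ne_zero hφ₂0, hφ₂0, rfl⟩
  have hdivOf : divOf (K := L) g = X.div τ := divOf_eq_of_ord hdiv
  -- the law on every annulus
  have hlawc : ∀ c, (D.nod.x₁ c).ord φ₁ + (D.nod.x₂ c).ord φ₂ = 0 ∧
      A.valuation a₁ = A.valuation a₂ * A.valuation (D.pi c) ^ ((D.nod.x₂ c).ord φ₂) := by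
    intro c
    obtain ⟨h1, h2⟩ := hlaw g hg0 c a₁ a₂ _ _ (hs₁ c) (hs₂ c)
    rw [annDeg_eq_rdeg, hdivOf, rdeg_twist hS X hEp hEm] at h1
    rw [radProd_eq_val_cst, hdivOf, val_cst_twist hB hS X hEp hEm, mul_one] at h2
    exact ⟨h1, h2⟩
  -- the orders of the constant multiples
  have hord : ∀ (e : L), e ≠ 0 → ∀ P : Place L F, P.ord (algebraMap L F e * g) = X.div τ P := by
    intro e he P
    rw [P.ord_mul ((_root_.map_ne_zero _).2 he) hg0, S18lib.Cech.ord_const, zero_add, hdiv]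
  have hord' : ∀ (e : L), e ≠ 0 → ∀ P : Place L F,
      P.ord (algebraMap L F e * g) = ((1 : ℕ) : ℤ) * X.div τ P := by
    intro e he P
    rw [hord e he, Nat.cast_one, one_mul]
  -- the sums of the node orders vanish
  have hsum₂ : ∑ c, (D.nod.x₂ c).ord φ₂ = 0 := by
    have h := Kap.sum_ord_nodes C.hF₂ D.D₂ D.nod.x₂ C.x₂_injective
      (fun Q hQ => Kap.good₂_of_ne D.toNRedDatum hQ) (Kap.not_good₂ D.toNRedDatum)
      (hord' e₂ he₂) hr₂
    rw [push₂_twist X hp₂, map_zero, mul_zero, neg_zero] at h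
    rw [hφ₂, hi₂]
    exact h
  -- all node orders on the second component vanish
  have hπ0 : ∀ c, 0 < A.valuation (D.pi c) := fun c =>
    lt_of_le_of_ne zero_le ((Valuation.ne_zero_iff _).2 (D.pi_ne_zero c)).symm
  have hva₂ : A.valuation a₂ ≠ 0 := (Valuation.ne_zero_iff _).2 ha₂0
  have hcmp : ∀ c c', A.valuation (D.pi c) ^ ((D.nod.x₂ c).ord φ₂)
      = A.valuation (D.pi c') ^ ((D.nod.x₂ c').ord φ₂) := by
    intro c c'
    have h1 := (hlawc c).2
    rw [(hlawc c').2] at h1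
    exact (mul_left_cancel₀ hva₂ h1).symm
  have hm₂ : ∀ c, (D.nod.x₂ c).ord φ₂ = 0 := by
    by_contra hcon
    push Not at hcon
    obtain ⟨c₁, hc₁⟩ := hcon
    rcases lt_or_gt_of_ne hc₁ with hneg | hpos
    · -- all orders are negative
      have hall : ∀ c, (D.nod.x₂ c).ord φ₂ < 0 := by
        intro c
        have h1 : 1 < A.valuation (D.pi c₁) ^ ((D.nod.x₂ c₁).ord φ₂) :=
          (one_lt_zpow_iff_right_of_lt_one₀ (hπ0 c₁) (D.pi_lt_one c₁)).2 hneg
        rw [hcmp c₁ c] at h1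
        exact (one_lt_zpow_iff_right_of_lt_one₀ (hπ0 c) (D.pi_lt_one c)).1 h1
      have : ∑ c, (D.nod.x₂ c).ord φ₂ < 0 :=
        Finset.sum_neg (fun c _ => hall c) ⟨c₀, Finset.mem_univ c₀⟩
      omega
    · have hall : ∀ c, 0 < (D.nod.x₂ c).ord φ₂ := by
        intro c
        have h1 : A.valuation (D.pi c₁) ^ ((D.nod.x₂ c₁).ord φ₂) < 1 :=
          (zpow_lt_one_iff_right_of_lt_one₀ (hπ0 c₁) (D.pi_lt_one c₁)).2 hpos
        rw [hcmp c₁ c] at h1
        exact (zpow_lt_one_iff_right_of_lt_one₀ (hπ0 c) (D.pi_lt_one c)).1 h1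
      have : 0 < ∑ c, (D.nod.x₂ c).ord φ₂ :=
        Finset.sum_pos (fun c _ => hall c) ⟨c₀, Finset.mem_univ c₀⟩
      omega
  have hm₁ : ∀ c, (D.nod.x₁ c).ord φ₁ = 0 := fun c => by
    have := (hlawc c).1
    rw [hm₂ c, add_zero] at this
    exact this
  have hval : A.valuation a₁ = A.valuation a₂ := by
    have := (hlawc c₀).2
    rwa [hm₂ c₀, zpow_zero, mul_one] at this
  -- constants
  obtain ⟨b₁, hb₁, hb₁'⟩ := exists_const_of_push_eq_zero C.hF₁ D.D₁ D.nod.x₁
    (fun Q hQ => Kap.good₁_of_ne D.toNRedDatum hQ) (hord e₁ he₁) hr₁ (push₁_twist X hp₁)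
    (fun c => by have := hm₁ c; rwa [hφ₁, hi₁] at this)
  obtain ⟨b₂, hb₂, hb₂'⟩ := exists_const_of_push_eq_zero C.hF₂ D.D₂ D.nod.x₂
    (fun Q hQ => Kap.good₂_of_ne D.toNRedDatum hQ) (hord e₂ he₂) hr₂ (push₂_twist X hp₂)
    (fun c => by have := hm₂ c; rwa [hφ₂, hi₂] at this)
  -- the unit `u = a₂ / a₁`
  have hu : A.valuation (a₂ / a₁) = 1 := by
    rw [map_div₀, hval]
    exact div_self hva₂
  have huA : a₂ / a₁ ∈ A := (A.valuation_le_one_iff _).1 hu.le
  have hures : IsLocalRing.residue A ⟨a₂ / a₁, huA⟩ ≠ 0 := by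
    rw [Ne, IsLocalRing.residue_eq_zero_iff]
    intro hmem
    have := (A.valuation_lt_one_iff _).1 hmem
    rw [hu] at this
    exact lt_irrefl _ this
  have hrel : (algebraMap L F a₁)⁻¹ * g
      = algebraMap L F (a₂ / a₁) * ((algebraMap L F a₂)⁻¹ * g) := by
    rw [map_div₀]
    have h1 : algebraMap L F a₁ ≠ 0 := (_root_.map_ne_zero _).2 ha₁0
    have h2 : algebraMap L F a₂ ≠ 0 := (_root_.map_ne_zero _).2 ha₂0
    field_simp
  have hmem₂ : (algebraMap L F a₂)⁻¹ * g ∈ D.nod.V₂.O := D.nod.V₂.mem_of_redF_ne_zero hφ₂0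
  refine ⟨a₁, ha₁0, b₁, IsLocalRing.residue A ⟨a₂ / a₁, huA⟩ * b₂, hb₁, mul_ne_zero hures hb₂,
    D.nod.V₁.mem_of_redF_ne_zero hφ₁0, ?_, ?_, ?_⟩
  · rw [hrel]
    exact D.nod.V₂.smul_mem ⟨a₂ / a₁, huA⟩ hmem₂
  · rw [hi₁]; exact hb₁'
  · rw [hrel]
    have := D.nod.V₂.redF_smul ⟨a₂ / a₁, huA⟩ hmem₂
    have hb₂'' : D.nod.V₂.redF (algebraMap L F e₂ * g)
        = algebraMap (IsLocalRing.ResidueField A) F₂ b₂ := hb₂'
    rw [this, hi₂, hb₂'', Algebra.smul_def, ← map_mul]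

end Fermat.Agent.S44lib.M

end
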