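/-
S44lib / M / Rigid  (helper7)  — Project LSq, block Q2b = (M′): **break-one rigidity**.

`D : Ann.AnnDatum`, symmetries `S` compatible with the annuli (`AnnSym`), the break-one package
`BreakOne S H' τ ϖ β`, a `TwistData` (`x = [Dp - Dm]` rational over `K'`, `ℓ₀ = [Ep - Em]` rational over `K₁`
in the kernel of reduction), and a function `g` with `div g = τ (Dp - Dm) - (Dp - Dm) - (Ep - Em)`.
Analytic inputs: `D.GlueAnn` and `SlopeLaw D`.

**`rigid`** : if `|Z_c| = |ϖ|^{m_c}` for the constants `Z_c = ∏_{P ∈ annulus c} z_c(P)^{(Dp - Dm)(P)}` then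
`p ∣ m_c - m_{c'}` for all nodes `c, c'` (`p` the residue characteristic).

Proof.  Zeroth order (`zeroth_order`): `g` is a unit on both components with constant reductions.
Normalise `u₁ = g / g(P₁)`, `u₂ = g / g(P₂)` at points of free residue discs of the two components;
`Side.oneMod` on both sides: `u₁ ≡ 1 (ϖ²)` on `V₁`, `u₂ ≡ 1 (ϖ²)` on `V₂`.  The function
`G_c = u₁ · Ω_c` (`Ω_c` the local factor of the annulus `c` in the coordinate `z_c`) has no zero or pole in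
the annulus `c`, is `≡ 1 (ϖ²)` on `V₁` and `≡ κ_c = (g(P₂)/g(P₁)) · Z_c / τ Z_c (ϖ²)` on `V₂`; (GLUE-ann) applied to
`(G_c - 1)/(κ_c - 1)` gives `κ_c ≡ 1 (ϖ²)`.  Hence `τ Z_c / Z_c ≡ 1 + m_c β ϖ` is independent of `c` modulo `ϖ²`.
-/
import Fermat.Agent.S44lib.M.Zeroth

set_option autoImplicit false
set_option linter.unusedSectionVars false

noncomputable section

namespace Fermat.Agent.S44lib.M

open Fermat.Agent.S18lib AlgebraicCurve Polynomial Fermat.Agent.S19lib.C Fermat.Agent.LSb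
open Fermat.Agent.S33lib

variable {L : Type*} [Field L] {A : ValuationSubring L}
variable {F : Type*} [Field F] [Algebra L F] [HasPrincipalDivisors L F]
variable {G : Type*} [Group G]

local notation "k" => IsLocalRing.ResidueField A

/-! ### one component: free discs, normalisation, degrees -/

section Disc

variable {Fk : Type*} [Field Fk] [Algebra (IsLocalRing.ResidueField A) Fk]
variable [HasPrincipalDivisors (IsLocalRing.ResidueField A) Fk]

/-- a residue disc which does not meet a given divisor -/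
theorem exists_free_disc (Dd : N.DiscDatum A F Fk) [Infinite (Place (IsLocalRing.ResidueField A) Fk)]
    {s : ℕ} (x : Fin s → Place (IsLocalRing.ResidueField A) Fk) (Δ : Divisor L F) :
    ∃ Q₀ : Place (IsLocalRing.ResidueField A) Fk, (∀ c, Q₀ ≠ x c) ∧
      ∀ P, Dd.r P = some Q₀ → Δ P = 0 := by
  classical
  obtain ⟨Q₀, hQ₀⟩ := Infinite.exists_notMem_finset
    (Finset.univ.image x ∪ Δ.support.biUnion fun P => (Dd.r P).toFinset)
  rw [Finset.mem_union, not_or] at hQ₀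
  refine ⟨Q₀, fun c hc => hQ₀.1 ?_, fun P hP => ?_⟩
  · rw [hc]
    exact Finset.mem_image_of_mem x (Finset.mem_univ c)
  · by_contra hne
    apply hQ₀.2
    rw [Finset.mem_biUnion]
    exact ⟨P, Finsupp.mem_support_iff.2 hne, by rw [Option.mem_toFinset, hP]; rfl⟩

/-- normalisation at a point of a free disc -/
theorem exists_normalise (Dd : N.DiscDatum A F Fk) {Q₀ : Place (IsLocalRing.ResidueField A) Fk}
    {P₀ : Place L F} (hP₀ : Dd.r P₀ = some Q₀) (hdeg₀ : P₀.deg = 1) {g' : F}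
    {b : IsLocalRing.ResidueField A} (hb : b ≠ 0) (hmem : g' ∈ Dd.G.O)
    (hred : Dd.G.redF g' = algebraMap (IsLocalRing.ResidueField A) Fk b)
    (hreg : ∀ P, Dd.r P = some Q₀ → P.ord g' = 0) :
    ∃ a : L, A.valuation a = 1 ∧ (algebraMap L F a)⁻¹ * g' ∈ Dd.G.O ∧
      Dd.G.redF ((algebraMap L F a)⁻¹ * g') = 1 ∧ ev P₀ ((algebraMap L F a)⁻¹ * g') = 1 := by
  have hDR : NC.DiscReg Dd Q₀ g' := ⟨hmem, fun P hP => Side.regAt_of_ord_eq_zero (hreg P hP)⟩
  have haA := hDR.ev_mem hP₀ hdeg₀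
  have hres := hDR.residue_ev hP₀ hdeg₀
  rw [hred, ev_const] at hres
  set a : L := ev P₀ g' with ha
  have hval : A.valuation a = 1 := by
    refine le_antisymm ((A.valuation_le_one_iff _).2 haA) (not_lt.1 fun hlt => hb ?_)
    rw [← hres]
    exact residue_eq_zero_of_val_lt_one (a := ⟨a, haA⟩) hlt
  have ha0 : a ≠ 0 := by
    rintro h0
    rw [h0, map_zero] at hval
    exact zero_ne_one hval
  have hinvA : a⁻¹ ∈ A := by
    rw [← A.valuation_le_one_iff, map_inv₀, hval, inv_one]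
  have hmul : (⟨a⁻¹, hinvA⟩ : A) * ⟨a, haA⟩ = 1 := Subtype.ext (inv_mul_cancel₀ ha0)
  have hresinv : IsLocalRing.residue A ⟨a⁻¹, hinvA⟩ * b = 1 := by
    rw [← hres, ← map_mul, hmul, map_one]
  refine ⟨a, hval, ?_, ?_, ?_⟩
  · rw [← map_inv₀]
    exact Dd.G.smul_mem ⟨a⁻¹, hinvA⟩ hmem
  · rw [← map_inv₀]
    have := Dd.G.redF_smul ⟨a⁻¹, hinvA⟩ hmem
    rw [this, hred, Algebra.smul_def, ← map_mul, hresinv, map_one]
  · rw [← map_inv₀, ev_mul hdeg₀ (regAt_const _) (hDR.2 P₀ hP₀), ev_const, ← ha,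
      inv_mul_cancel₀ ha0]

/-- the degree of the polynomial of an effective divisor on a residue disc is the push-forward -/
theorem natDegree_poly_eq_pushO (Dd : N.DiscDatum A F Fk) (R : Region Dd.G)
    {Q : Place (IsLocalRing.ResidueField A) Fk} (hR : ∀ P, R.mem P ↔ Dd.r P = some Q)
    {E : Divisor L F} (hE : 0 ≤ E) : ((R.poly E).natDegree : ℤ) = N.pushO Dd.r E Q := by
  classical
  rw [R.natDegree_poly, N.pushO_apply, S18lib.mapDomain_apply_eq_sum, Nat.cast_sum]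
  refine Finset.sum_congr rfl fun P _ => ?_
  by_cases h : R.mem P
  · rw [if_pos h, if_pos ((hR P).1 h), Int.toNat_of_nonneg (hE P)]
  · rw [if_neg h, if_neg fun h' => h ((hR P).2 h'), Nat.cast_zero]

end Disc

variable {F₁ F₂ : Type*} [Field F₁] [Field F₂]
variable [Algebra (IsLocalRing.ResidueField A) F₁] [Algebra (IsLocalRing.ResidueField A) F₂]
variable [HasPrincipalDivisors (IsLocalRing.ResidueField A) F₁]
  [HasPrincipalDivisors (IsLocalRing.ResidueField A) F₂]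

variable {D : Ann.AnnDatum A F F₁ F₂} {S : N.NSym D.toNRedDatum G} {g₀ g₁ g₂ : ℕ}
variable {H' : Subgroup G} {τ : G} {ϖ β : L}

theorem smooth_apply_eq_zero {E : Divisor L F} (hE : D.SmoothSupp E) {c : Fin D.nod.s}
    {P : Place L F} (hP : D.ann P = some c) : E P = 0 := by
  by_contra hne
  have h1 := hE P hne
  rw [← D.ann_eq_none_iff, hP] at h1
  exact Option.some_ne_none c h1

/-- **break-one rigidity** -/
theorem rigid (p : ℕ) [CharP (IsLocalRing.ResidueField A) p] (C : NodalCtx D.nod g₀ g₁ g₂)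
    (hB : BreakOne S.toIAct H' τ ϖ β) (hS : AnnSym D S) (hGlue : D.GlueAnn) (hlaw : SlopeLaw D)
    (hsm : ∀ a : L, (∀ g : G, S.hat g a = a) → A.valuation a < 1 →
      A.valuation a ≤ A.valuation (ϖ ^ 2))
    (hpi : ∀ c, A.valuation (D.pi c) ≤ A.valuation (ϖ ^ 2))
    (X : TwistData S.toIAct H') (hEp : D.SmoothSupp X.Ep) (hEm : D.SmoothSupp X.Em)
    (hp₁ : D.push₁ X.Ep = D.push₁ X.Em) (hp₂ : D.push₂ X.Ep = D.push₂ X.Em)
    {g : F} (hg0 : g ≠ 0) (hdiv : ∀ P : Place L F, P.ord g = X.div τ P)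
    (c c' : Fin D.nod.s) (m m' : ℤ)
    (hm : A.valuation ((annReg₁ D c).cst (X.Dp - X.Dm)) = A.valuation ϖ ^ m)
    (hm' : A.valuation ((annReg₁ D c').cst (X.Dp - X.Dm)) = A.valuation ϖ ^ m') :
    (p : ℤ) ∣ m - m' := by
  classical
  have hε : A.valuation (ϖ ^ 2) < 1 := hB.val_sq_lt_one
  have hεA : ϖ ^ 2 ∈ A := (A.valuation_le_one_iff _).1 hε.le
  have hdegall : ∀ P : Place L F, P.deg = 1 := C.hF.deg_eq_one
  -- zeroth order
  obtain ⟨a, ha0, b₁, b₂, hb₁, hb₂, hmem₁, hmem₂, hred₁, hred₂⟩ :=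
    zeroth_order C hB hS hlaw X hEp hEm hp₁ hp₂ c hg0 hdiv
  set g' : F := (algebraMap L F a)⁻¹ * g with hg'
  have hainv : (algebraMap L F a)⁻¹ ≠ 0 := inv_ne_zero ((_root_.map_ne_zero _).2 ha0)
  have hg'0 : g' ≠ 0 := mul_ne_zero hainv hg0
  have hdiv' : ∀ P : Place L F, P.ord g' = X.div τ P := by
    intro P
    rw [hg', P.ord_mul hainv hg0, Place.ord_inv, S18lib.Cech.ord_const, neg_zero, zero_add, hdiv]
  -- free discs and normalisation
  haveI := C.hF₁.infinite_places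
  haveI := C.hF₂.infinite_places
  obtain ⟨Q₁, hQ₁, hfree₁⟩ := exists_free_disc D.D₁ D.nod.x₁ (X.div τ)
  obtain ⟨Q₂, hQ₂, hfree₂⟩ := exists_free_disc D.D₂ D.nod.x₂ (X.div τ)
  obtain ⟨P₁, hP₁⟩ := Kap.good₁_of_ne D.toNRedDatum hQ₁
  obtain ⟨P₂, hP₂⟩ := Kap.good₂_of_ne D.toNRedDatum hQ₂
  obtain ⟨A₁, hA₁, hu₁mem, hu₁red, hu₁ev⟩ := exists_normalise D.D₁ hP₁ (hdegall P₁) hb₁ hmem₁ hred₁
    (fun P hP => by rw [hdiv', hfree₁ P hP])
  obtain ⟨A₂, hA₂, hu₂mem, hu₂red, hu₂ev⟩ := exists_normalise D.D₂ hP₂ (hdegall P₂) hb₂ hmem₂ hred₂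
    (fun P hP => by rw [hdiv', hfree₂ P hP])
  have hA₁0 : A₁ ≠ 0 := by
    rintro rfl
    rw [map_zero] at hA₁
    exact zero_ne_one hA₁
  have hA₂0 : A₂ ≠ 0 := by
    rintro rfl
    rw [map_zero] at hA₂
    exact zero_ne_one hA₂
  have hA₁F : algebraMap L F A₁ ≠ 0 := (_root_.map_ne_zero _).2 hA₁0
  have hA₂F : algebraMap L F A₂ ≠ 0 := (_root_.map_ne_zero _).2 hA₂0
  set u₁ : F := (algebraMap L F A₁)⁻¹ * g' with hu₁
  set u₂ : F := (algebraMap L F A₂)⁻¹ * g' with hu₂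
  have hu₁0 : u₁ ≠ 0 := mul_ne_zero (inv_ne_zero hA₁F) hg'0
  have hu₂0 : u₂ ≠ 0 := mul_ne_zero (inv_ne_zero hA₂F) hg'0
  have hdivu₁ : ∀ P : Place L F, P.ord u₁ = X.div τ P := by
    intro P
    rw [hu₁, P.ord_mul (inv_ne_zero hA₁F) hg'0, Place.ord_inv, S18lib.Cech.ord_const, neg_zero,
      zero_add, hdiv']
  have hdivu₂ : ∀ P : Place L F, P.ord u₂ = X.div τ P := by
    intro P
    rw [hu₂, P.ord_mul (inv_ne_zero hA₂F) hg'0, Place.ord_inv, S18lib.Cech.ord_const, neg_zero,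
      zero_add, hdiv']
  -- the unit constants
  have hunitA : ∀ e : L, A.valuation e = 1 → e ∈ A := fun e he =>
    (A.valuation_le_one_iff _).1 he.le
  have hA₂₁ : A.valuation (A₂ / A₁) = 1 := by rw [map_div₀, hA₁, hA₂, div_one]
  have hA₁₂ : A.valuation (A₁ / A₂) = 1 := by rw [map_div₀, hA₁, hA₂, div_one]
  have hu₁₂ : u₁ = algebraMap L F (A₂ / A₁) * u₂ := by
    rw [hu₁, hu₂, map_div₀]
    field_simp
  have hu₂₁ : u₂ = algebraMap L F (A₁ / A₂) * u₁ := by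
    rw [hu₁, hu₂, map_div₀]
    field_simp
  have hu₁mem₂ : u₁ ∈ D.nod.V₂.O := by
    rw [hu₁₂]
    exact D.nod.V₂.smul_mem ⟨_, hunitA _ hA₂₁⟩ hu₂mem
  have hu₂mem₁ : u₂ ∈ D.nod.V₁.O := by
    rw [hu₂₁]
    exact D.nod.V₁.smul_mem ⟨_, hunitA _ hA₁₂⟩ hu₁mem
  -- the degrees of `Ep`, `Em` on the regions
  have hdegA₁ : ∀ c, ((annReg₁ D c).poly X.Ep).natDegree = ((annReg₁ D c).poly X.Em).natDegree := by
    intro c
    rw [Region.poly_eq_one_of_forall fun P hP => smooth_apply_eq_zero hEp hP,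
      Region.poly_eq_one_of_forall fun P hP => smooth_apply_eq_zero hEm hP]
  have hdegA₂ : ∀ c, ((annReg₂ D c).poly X.Ep).natDegree = ((annReg₂ D c).poly X.Em).natDegree := by
    intro c
    rw [Region.poly_eq_one_of_forall fun P hP => smooth_apply_eq_zero hEp hP,
      Region.poly_eq_one_of_forall fun P hP => smooth_apply_eq_zero hEm hP]
  have hdegD₁ : ∀ (R : Region D.D₁.G) (Q : Place k F₁), (∀ P, R.mem P ↔ D.D₁.r P = some Q) →
      (R.poly X.Ep).natDegree = (R.poly X.Em).natDegree := by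
    intro R Q hR
    have h1 := natDegree_poly_eq_pushO D.D₁ R hR X.Ep_nonneg
    have h2 := natDegree_poly_eq_pushO D.D₁ R hR X.Em_nonneg
    have h3 : N.pushO D.D₁.r X.Ep Q = N.pushO D.D₁.r X.Em Q := by
      show D.push₁ X.Ep Q = D.push₁ X.Em Q
      rw [hp₁]
    omega
  have hdegD₂ : ∀ (R : Region D.D₂.G) (Q : Place k F₂), (∀ P, R.mem P ↔ D.D₂.r P = some Q) →
      (R.poly X.Ep).natDegree = (R.poly X.Em).natDegree := by
    intro R Q hR
    have h1 := natDegree_poly_eq_pushO D.D₂ R hR X.Ep_nonneg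
    have h2 := natDegree_poly_eq_pushO D.D₂ R hR X.Em_nonneg
    have h3 : N.pushO D.D₂.r X.Ep Q = N.pushO D.D₂.r X.Em Q := by
      show D.push₂ X.Ep Q = D.push₂ X.Em Q
      rw [hp₂]
    omega
  -- the local factors of the annuli
  have hΩ₁ : ∀ c, OneMod D.nod.V₁ (ϖ ^ 2) ((annReg₁ D c).fn (-X.div τ)) := fun c =>
    (annReg₁ D c).oneMod_fn_neg_div hB hsm (hS.sym₁ c) X (hdegA₁ c)
  have hΩ₂ : ∀ c, OneMod D.nod.V₂ (ϖ ^ 2) ((annReg₂ D c).fn (-X.div τ)) := fun c =>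
    (annReg₂ D c).oneMod_fn_neg_div hB hsm (hS.sym₂ c) X (hdegA₂ c)
  set ζ : Fin D.nod.s → L := fun c => (annReg₁ D c).cst (-X.div τ) with hζ
  have hζval : ∀ c, A.valuation (ζ c) = 1 := by
    intro c
    rw [hζ]
    show A.valuation ((annReg₁ D c).cst (-X.div τ)) = 1
    rw [Region.cst_neg (annReg₁_noZero D c), map_inv₀, val_cst_twist hB hS X hEp hEm, inv_one]
  have hrel : ∀ c, (annReg₁ D c).fn (-X.div τ)
      = (annReg₂ D c).fn (-X.div τ) * algebraMap L F (ζ c) := by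
    intro c
    have h := annReg_fn_eq D c (-X.div τ)
    rw [Region.rdeg_neg, rdeg_twist hS X hEp hEm, neg_zero, zpow_zero, mul_one] at h
    exact h
  have hζ0 : ∀ c, ζ c ≠ 0 := by
    intro c h0
    have := hζval c
    rw [h0, map_zero] at this
    exact zero_ne_one this
  have hζinv : ∀ c, A.valuation (ζ c)⁻¹ = 1 := fun c => by rw [map_inv₀, hζval, inv_one]
  -- first-order rigidity on the two components
  have hside₁ : OneMod D.nod.V₁ (ϖ ^ 2) u₁ := by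
    refine (side₁ C hS hGlue).oneMod hB hsm hpi X hdegA₁ hdegD₁ hu₁0 hdivu₁ hu₁mem hu₁red ?_ hQ₁
      hfree₁ hP₁ (hdegall P₁) hu₁ev
    intro c
    show u₁ * (annReg₁ D c).fn (-X.div τ) ∈ D.nod.V₂.O
    rw [hrel c]
    exact D.nod.V₂.O.mul_mem _ _ hu₁mem₂
      (D.nod.V₂.O.mul_mem _ _ ((hΩ₂ c).mem hεA) (D.nod.V₂.algebraMap_mem ⟨_, hunitA _ (hζval c)⟩))
  have hside₂ : OneMod D.nod.V₂ (ϖ ^ 2) u₂ := by
    refine (side₂ C hS hGlue).oneMod hB hsm hpi X hdegA₂ hdegD₂ hu₂0 hdivu₂ hu₂mem hu₂red ?_ hQ₂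
      hfree₂ hP₂ (hdegall P₂) hu₂ev
    intro c
    show u₂ * (annReg₂ D c).fn (-X.div τ) ∈ D.nod.V₁.O
    have h1 : (annReg₂ D c).fn (-X.div τ)
        = (annReg₁ D c).fn (-X.div τ) * algebraMap L F (ζ c)⁻¹ := by
      rw [hrel c, mul_assoc, ← map_mul, mul_inv_cancel₀ (hζ0 c), map_one, mul_one]
    rw [h1]
    exact D.nod.V₁.O.mul_mem _ _ hu₂mem₁
      (D.nod.V₁.O.mul_mem _ _ ((hΩ₁ c).mem hεA) (D.nod.V₁.algebraMap_mem ⟨_, hunitA _ (hζinv c)⟩))
  -- the comparison at a node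
  have hκ : ∀ c, A.valuation (A₂ / A₁ * ζ c - 1) ≤ A.valuation (ϖ ^ 2) := by
    intro c
    by_contra hnot
    rw [not_le] at hnot
    obtain ⟨κ, hκdef⟩ : ∃ κ : L, κ = A₂ / A₁ * ζ c := ⟨_, rfl⟩
    rw [← hκdef] at hnot
    have hκval : A.valuation κ = 1 := by rw [hκdef, map_mul, hA₂₁, hζval, one_mul]
    obtain ⟨ε, hεdef⟩ : ∃ ε : L, ε = κ - 1 := ⟨_, rfl⟩
    rw [← hεdef] at hnot
    have hε0 : ε ≠ 0 := by
      rintro h0
      rw [h0, map_zero] at hnot
      exact not_lt_zero hnot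
    have hεF : algebraMap L F ε ≠ 0 := (_root_.map_ne_zero _).2 hε0
    set Gc : F := u₁ * (annReg₁ D c).fn (-X.div τ) with hGc
    have hG₁ : OneMod D.nod.V₁ (ϖ ^ 2) Gc := hside₁.mul hεA (hΩ₁ c)
    have hU₂ : OneMod D.nod.V₂ (ϖ ^ 2) (u₂ * (annReg₂ D c).fn (-X.div τ)) := hside₂.mul hεA (hΩ₂ c)
    have hGc₂ : Gc = algebraMap L F κ * (u₂ * (annReg₂ D c).fn (-X.div τ)) := by
      rw [hGc, hrel c, hu₁₂, hκdef, map_mul]
      ring
    set f : F := (algebraMap L F ε)⁻¹ * (Gc - 1) with hf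
    have hv1 : A.valuation (ϖ ^ 2 / ε) < 1 := val_lt_one_of_lt hε0 hnot
    -- on `V₁`
    have hf₁ : Small D.nod.V₁ (ϖ ^ 2 / ε) f := by
      obtain ⟨w, hw, hGw⟩ := hG₁
      refine ⟨w, hw, ?_⟩
      rw [hf, hGw, map_div₀]
      field_simp
    have hf₁mem : f ∈ D.nod.V₁.O := hf₁.mem ((A.valuation_le_one_iff _).1 hv1.le)
    have hf₁red : D.nod.V₁.redF f = 0 := hf₁.redF_eq_zero hv1
    -- on `V₂`
    have hv2 : A.valuation (κ * ϖ ^ 2 / ε) < 1 := by
      rw [mul_div_assoc, map_mul, hκval, one_mul]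
      exact hv1
    obtain ⟨w₂, hw₂, hUw₂⟩ := hU₂
    have hf₂eq : f = 1 + algebraMap L F (κ * ϖ ^ 2 / ε) * w₂ := by
      have h1 : u₂ * (annReg₂ D c).fn (-X.div τ) = 1 + algebraMap L F (ϖ ^ 2) * w₂ := by
        rw [← hUw₂]; ring
      have h2 : algebraMap L F κ = algebraMap L F ε + 1 := by
        rw [hεdef, map_sub, map_one]; ring
      have h3 : algebraMap L F (κ * ϖ ^ 2 / ε)
          = algebraMap L F κ * algebraMap L F (ϖ ^ 2) * (algebraMap L F ε)⁻¹ := by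
        rw [map_div₀, map_mul, div_eq_mul_inv]
      rw [hf, hGc₂, h1, h3, h2]
      generalize algebraMap L F (ϖ ^ 2) = Pi
      field_simp
      ring
    have hsm₂ : Small D.nod.V₂ (κ * ϖ ^ 2 / ε) (algebraMap L F (κ * ϖ ^ 2 / ε) * w₂) :=
      ⟨w₂, hw₂, rfl⟩
    have hf₂mem : f ∈ D.nod.V₂.O := by
      rw [hf₂eq]
      exact D.nod.V₂.O.add_mem _ _ D.nod.V₂.O.one_mem
        (hsm₂.mem ((A.valuation_le_one_iff _).1 hv2.le))
    have hf₂red : D.nod.V₂.redF f = 1 := by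
      rw [hf₂eq, D.nod.V₂.redF_add D.nod.V₂.O.one_mem
        (hsm₂.mem ((A.valuation_le_one_iff _).1 hv2.le)), D.nod.V₂.redF_one,
        hsm₂.redF_eq_zero hv2, add_zero]
    -- no pole in the annulus
    have hfreg : ∀ P, D.ann P = some c → 0 ≤ P.ord f := by
      intro P hP
      have h1 : P.ord Gc = 0 := by
        rw [hGc, P.ord_mul hu₁0 ((annReg₁ D c).fn_ne_zero _), hdivu₁,
          (annReg₁ D c).ord_fn _ (show (annReg₁ D c).mem P from hP), Finsupp.neg_apply,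
          add_neg_cancel]
      rw [← regAt_iff_ord, hf, ← map_inv₀]
      exact (regAt_const _).mul ((Side.regAt_of_ord_eq_zero h1).sub regAt_one)
    obtain ⟨α, hα₁, hα₂⟩ := hGlue f c hf₁mem hf₂mem hfreg
    rw [hf₁red] at hα₁
    rw [hf₂red, hα₁.eq_zero_of_eq_zero] at hα₂
    exact one_ne_zero (hasValueAt_one.unique hα₂)
  -- the first-order action on the constants `Z_c`
  have hfinal : ∀ (c : Fin D.nod.s) (n : ℤ),
      A.valuation ((annReg₁ D c).cst (X.Dp - X.Dm)) = A.valuation ϖ ^ n →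
      A.valuation (A₂ / A₁ - (1 + (n : L) * β * ϖ)) ≤ A.valuation (ϖ ^ 2) := by
    intro c n hn
    set Z : L := (annReg₁ D c).cst (X.Dp - X.Dm) with hZ
    have hZ0 : Z ≠ 0 := Region.cst_ne_zero (annReg₁_noZero D c) _
    have hZfix := cst_D_fixed hS X c
    have h1 := hB.val_hat_div_sub_le hZfix hn
    have hτZ0 : S.hat τ Z ≠ 0 := by
      intro h0
      have := hB.val_hat_eq hZfix
      rw [h0, map_zero] at this
      exact hZ0 ((map_eq_zero _).1 this.symm)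
    have hζc : ζ c = Z / S.hat τ Z := by
      show (annReg₁ D c).cst (-X.div τ) = Z / S.hat τ Z
      rw [Region.cst_neg (annReg₁_noZero D c), cst_twist hS X hEp hEm, inv_div]
    have htval : A.valuation (S.hat τ Z / Z) = 1 := by
      rw [map_div₀, hB.val_hat_eq hZfix]
      exact div_self ((Valuation.ne_zero_iff _).2 hZ0)
    have h2 : A.valuation (A₂ / A₁ - S.hat τ Z / Z) ≤ A.valuation (ϖ ^ 2) := by
      have h3 : A₂ / A₁ - S.hat τ Z / Z = (S.hat τ Z / Z) * (A₂ / A₁ * ζ c - 1) := by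
        rw [hζc]
        field_simp
      rw [h3, map_mul, htval, one_mul]
      exact hκ c
    have h4 : A₂ / A₁ - (1 + (n : L) * β * ϖ)
        = (A₂ / A₁ - S.hat τ Z / Z) + (S.hat τ Z / Z - (1 + (n : L) * β * ϖ)) := by ring
    rw [h4]
    exact (Valuation.map_add _ _ _).trans (max_le h2 h1)
  -- conclusion
  have h1 := hfinal c m hm
  have h2 := hfinal c' m' hm'
  have h3 : ((m - m' : ℤ) : L) * β * ϖ
      = (A₂ / A₁ - (1 + (m' : L) * β * ϖ)) - (A₂ / A₁ - (1 + (m : L) * β * ϖ)) := by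
    push_cast
    ring
  have h4 : A.valuation (((m - m' : ℤ) : L) * β * ϖ) ≤ A.valuation (ϖ ^ 2) := by
    rw [h3]
    exact (Valuation.map_sub _ _ _).trans (max_le h2 h1)
  rw [map_mul, map_mul, hB.beta_unit, mul_one, map_pow, pow_two] at h4
  have h5 : A.valuation ((m - m' : ℤ) : L) ≤ A.valuation ϖ :=
    le_of_mul_le_mul_right h4 hB.val_pos
  have h6 : A.valuation ((m - m' : ℤ) : L) < 1 := lt_of_le_of_lt h5 hB.lt_one
  have h7 : IsLocalRing.residue A ((m - m' : ℤ) : A) = 0 :=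
    residue_eq_zero_of_val_lt_one (a := ((m - m' : ℤ) : A)) (by
      rwa [show ((((m - m' : ℤ) : A) : A) : L) = ((m - m' : ℤ) : L) from by push_cast; rfl])
  rw [map_intCast] at h7
  exact (CharP.intCast_eq_zero_iff (IsLocalRing.ResidueField A) p (m - m')).1 h7

end Fermat.Agent.S44lib.M

end
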